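/-
DS programme (S48), GEO half, chapter G-RED (C) CUSP twins (helper28): generic twin of
`RED/CUSP/CuspEmbK16` — the cusp expansions over a number field — for an arbitrary level
`L : LevelData` (DS/G/Level.lean).

DESIGN.  The original uses the level only through the compressed cusp expansion
`CuspExact16.Tc M γ : Fbar M →+* ℚ̄((s))` with its place `placeOf M γ` (`Tc_const`, `order_Tc`) and
through the fact that the expansions of the generators `j(q^d)` have coefficients in `ℤ[ζ_M]`.
Here these are the fields of a structure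

  `CuspExpK L K` : a ring hom `Tc : ℚ̄·L.F₀ →+* ℚ̄((s))`, a place `v` of `ℚ̄·L.F₀ / ℚ̄` with
     `Tc_const`, `order_Tc` and `gen_coeff_mem` (the coefficients of `Tc` of the generators
     `L.gensQ` lie in `K`),

to be instantiated with the twin of `CuspExact16` (`Tc L C γ`, `placeOf L C γ`) and the cusp
expansions of the generators (chapter X1).  For the integrality statements over `A_K = A ∩ K` the
extra hypothesis is `hA : ∀ g n, (E.Tc (genc L Qbar g)).coeff n ∈ A`.

SAME NAMES as the original: `TK`, `coeffMap_TK`, `TK_const`, `order_TK`, `mem_placeOf_iff_TK`,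
`TK_gen_coeff_mem`, `TK_mem_psFrac`, `TK_mem_psRange_of_isIntegral`, `exists_ps_of_isIntegral`,
`iotaPS`, `toLS_iotaPS`, `map_mem_of_gen`, with `hζ γ` replaced by `(E : CuspExpK L K)`, `FK M K` by
`FKG L.F₀ K`, `baseChangeHom M K` by `Desc.baseChangeHomG L.F₀ K`, `xdK M K d hd` by `genc L K g`.
The level-free lemmas (`coeffMap_injective'`, `mem_range_coeffMap_iff`, `order_coeffMap`,
`coeffMap_C`, `cEquiv`, `mem_psFrac_of_coeff`, `C_mem_psFrac`, `C_algebraMap_mem_psRange`,
`map_mem_psRange_of_isIntegralElem`, `psEquiv`) are those of the original file (open its namespace).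
-/
import Mathlib
import Fermat.Agent.DS.G.Level
import Fermat.Agent.DS.G.X0.FracR
import Fermat.Agent.DS.G.RED.Desc
import Fermat.Agent.RED.CUSP.CuspEmbK16

set_option autoImplicit false
set_option linter.unusedSectionVars false

noncomputable section

namespace Fermat.Agent.DS.G.RED.CUSP.CuspEmbK16

open Fermat.Agent.X0 AlgebraicCurve ModularCurve HahnSeries
open Fermat.Agent.RED.Interface4 Fermat.Agent.DS.G.Level
open Fermat.Agent.DS.G.RED.Iface Fermat.Agent.DS.G.RED.Desc
open Fermat.Agent.RED.CUSP.CuspEmbK16 (coeffMap_injective' mem_range_coeffMap_iff order_coeffMap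
  coeffMap_C cEquiv mem_psFrac_of_coeff C_mem_psFrac C_algebraMap_mem_psRange
  map_mem_psRange_of_isIntegralElem psEquiv)

/-! ### Induction over the generators of `K·F₀` -/

section Gen

variable (L : LevelData) (K : IntermediateField ℚ Qbar)

/-- base change of a generator. -/
theorem baseChangeHomG_genc (g : L.gensQ) :
    baseChangeHomG L.F₀ K (genc L K g) = genc L Qbar g := by
  apply Subtype.ext
  rw [coe_baseChangeHomG, coe_genc, coe_genc, coeffEmb, coeffEmb, coeffMap_coeffMap]
  exact coeffMap_congr (RingHom.ext fun r => by simp) _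

/-- A ring hom from `K·F₀` into a field maps everything into a subfield as soon as it does so for
the constants and the generators. -/
theorem map_mem_of_gen {L' : Type*} [Field L'] (f : FKG L.F₀ K →+* L') (𝔽 : Subfield L')
    (hconst : ∀ c : K, f (algebraMap K (FKG L.F₀ K) c) ∈ 𝔽)
    (hgen : ∀ g : L.gensQ, f (genc L K g) ∈ 𝔽) (z : FKG L.F₀ K) : f z ∈ 𝔽 := by
  have hz := Fermat.Agent.DS.G.X0.FracR.mem_adjoin_genSetc L K z
  induction hz using IntermediateField.adjoin_induction with
  | mem x hx =>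
    obtain ⟨g, rfl⟩ := hx
    exact hgen g
  | algebraMap c => exact hconst c
  | add x y _ _ h1 h2 => rw [map_add]; exact add_mem h1 h2
  | inv x _ h1 => rw [map_inv₀]; exact inv_mem h1
  | mul x y _ _ h1 h2 => rw [map_mul]; exact mul_mem h1 h2

end Gen

/-! ### The input: a compressed cusp expansion, rational over `K` on the generators -/

/-- A compressed cusp expansion `Tc` of `ℚ̄·L.F₀` with its place `v`, such that the expansions of the
generators have their coefficients in `K`. -/
structure CuspExpK (L : LevelData) (K : IntermediateField ℚ Qbar) where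
  /-- the compressed expansion (`CuspExact16.Tc`) -/
  Tc : FbarG L.F₀ →+* LaurentSeries Qbar
  /-- its place (`CuspExact16.placeOf`) -/
  v : Place Qbar (FbarG L.F₀)
  Tc_const : ∀ c : Qbar, Tc (algebraMap Qbar (FbarG L.F₀) c) = HahnSeries.C c
  order_Tc : ∀ f : FbarG L.F₀, f ≠ 0 → (Tc f).order = v.ord f
  gen_coeff_mem : ∀ (g : L.gensQ) (n : ℤ), (Tc (genc L Qbar g)).coeff n ∈ K

variable {L : LevelData} {K : IntermediateField ℚ Qbar} (E : CuspExpK L K)

/-! ### The coefficients of the cusp expansions lie in `K` -/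

/-- `E.Tc (emb z)` has all its coefficients in `K`. -/
theorem Tc_mem_fieldRange (z : FKG L.F₀ K) :
    E.Tc (baseChangeHomG L.F₀ K z) ∈ (coeffMap (algebraMap K Qbar)).fieldRange := by
  refine map_mem_of_gen L K (E.Tc.comp (baseChangeHomG L.F₀ K)) _ ?_ ?_ z
  · intro c
    rw [RingHom.comp_apply, baseChangeHomG_algebraMap, E.Tc_const]
    exact ⟨HahnSeries.C c, coeffMap_C _ c⟩
  · intro g
    rw [RingHom.comp_apply, baseChangeHomG_genc]
    show _ ∈ (coeffMap (algebraMap K Qbar)).range
    rw [mem_range_coeffMap_iff]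
    intro n
    exact ⟨⟨_, E.gen_coeff_mem g n⟩, rfl⟩

theorem Tc_mem_range (z : FKG L.F₀ K) :
    E.Tc (baseChangeHomG L.F₀ K z) ∈ (coeffMap (algebraMap K Qbar)).range :=
  Tc_mem_fieldRange E z

theorem Tc_coeff_mem (z : FKG L.F₀ K) (n : ℤ) :
    (E.Tc (baseChangeHomG L.F₀ K z)).coeff n ∈ K := by
  obtain ⟨y, hy⟩ := Tc_mem_range E z
  rw [← hy, coeffMap_coeff]
  exact (y.coeff n).2

/-! ### The compressed expansion over `K` -/

/-- **The compressed cusp expansion over `K`**: `TK E : K·F₀ →+* K((s))`. -/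
def TK : FKG L.F₀ K →+* LaurentSeries K :=
  ((cEquiv K).symm : _ →+* LaurentSeries K).comp
    ((E.Tc.comp (baseChangeHomG L.F₀ K)).codRestrict (coeffMap (algebraMap K Qbar)).range
      (Tc_mem_range E))

theorem coeffMap_TK (z : FKG L.F₀ K) :
    coeffMap (algebraMap K Qbar) (TK E z) = E.Tc (baseChangeHomG L.F₀ K z) := by
  have h : (cEquiv K) (TK E z) =
      ((E.Tc.comp (baseChangeHomG L.F₀ K)).codRestrict (coeffMap (algebraMap K Qbar)).range
        (Tc_mem_range E)) z := by
    rw [TK, RingHom.comp_apply]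
    exact (cEquiv K).apply_symm_apply _
  exact congrArg Subtype.val h

theorem TK_coeff (z : FKG L.F₀ K) (n : ℤ) :
    algebraMap K Qbar ((TK E z).coeff n) = (E.Tc (baseChangeHomG L.F₀ K z)).coeff n := by
  rw [← coeffMap_coeff, coeffMap_TK]

theorem TK_const (c : K) : TK E (algebraMap K (FKG L.F₀ K) c) = HahnSeries.C c := by
  apply coeffMap_injective' (algebraMap K Qbar)
  rw [coeffMap_TK, baseChangeHomG_algebraMap, E.Tc_const, coeffMap_C]
  rfl

/-- **Exact order**: `ord (TK E z) = ord_v (emb z)`. -/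
theorem order_TK (z : FKG L.F₀ K) (hz : z ≠ 0) :
    (TK E z).order = E.v.ord (baseChangeHomG L.F₀ K z) := by
  rw [← order_coeffMap (algebraMap K Qbar), coeffMap_TK,
    E.order_Tc _ ((map_ne_zero_iff _ (baseChangeHomG_injective L.F₀ K)).mpr hz)]

theorem mem_placeOf_iff_TK (z : FKG L.F₀ K) (hz : z ≠ 0) :
    baseChangeHomG L.F₀ K z ∈ E.v.toValuationSubring ↔ 0 ≤ (TK E z).order := by
  rw [order_TK E z hz, FF.ffp_mem_iff_ord_nonneg]

/-! ### Integrality: the expansions over `A_K = A ∩ K` -/

section Integral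

open Fermat.Agent.RED.CUSP.IntClosedPS16

variable (A : ValuationSubring Qbar)
  (hA : ∀ (g : L.gensQ) (n : ℤ), (E.Tc (genc L Qbar g)).coeff n ∈ A)

include hA in
/-- The coefficients of `TK E` of a generator lie in `A_K`. -/
theorem TK_gen_coeff_mem (g : L.gensQ) (n : ℤ) : (TK E (genc L K g)).coeff n ∈ AK A K := by
  rw [AK, ValuationSubring.mem_comap, TK_coeff, baseChangeHomG_genc]
  exact hA g n

variable [IsPrincipalIdealRing ↥(AK A K)]

include hA in
/-- `TK E` maps `K·F₀` into `Frac (A_K⟦s⟧)`. -/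
theorem TK_mem_psFrac (z : FKG L.F₀ K) : TK E z ∈ psFrac ↥(AK A K) ↥K := by
  refine map_mem_of_gen L K (TK E) _ ?_ ?_ z
  · intro c
    rw [TK_const]
    exact C_mem_psFrac c
  · intro g
    apply mem_psFrac_of_coeff
    intro n
    exact ⟨⟨_, TK_gen_coeff_mem E A hA g n⟩, rfl⟩

include hA in
/-- **(C1).**  If `TK E t ∈ A_K⟦s⟧` then `TK E b ∈ A_K⟦s⟧` for every `b` integral over `A_K[t]`. -/
theorem TK_mem_psRange_of_isIntegral (t : FKG L.F₀ K) (ht : TK E t ∈ psRange ↥(AK A K) ↥K)
    (b : FKG L.F₀ K) (hb : IsIntegral (Algebra.adjoin ↥(AK A K) {t}) b) :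
    TK E b ∈ psRange ↥(AK A K) ↥K := by
  refine map_mem_psRange_of_isIntegralElem (TK E) (TK_mem_psFrac E A hA)
    (algebraMap (Algebra.adjoin ↥(AK A K) {t}) (FKG L.F₀ K)) ?_ hb
  rintro ⟨r, hr⟩
  show TK E r ∈ psRange ↥(AK A K) ↥K
  induction hr using Algebra.adjoin_induction with
  | mem x hx =>
    rw [Set.mem_singleton_iff] at hx
    rw [hx]; exact ht
  | algebraMap a =>
    have h1 : algebraMap ↥(AK A K) ↥(FKG L.F₀ K) a = algebraMap K (FKG L.F₀ K) (a : K) := rfl
    rw [h1, TK_const]
    exact C_algebraMap_mem_psRange a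
  | add x y _ _ h1 h2 => rw [map_add]; exact add_mem h1 h2
  | mul x y _ _ h1 h2 => rw [map_mul]; exact mul_mem h1 h2

include hA in
/-- The power series over `A_K` attached to an element integral over `A_K[t]`. -/
theorem exists_ps_of_isIntegral (t : FKG L.F₀ K) (ht : TK E t ∈ psRange ↥(AK A K) ↥K)
    (b : FKG L.F₀ K) (hb : IsIntegral (Algebra.adjoin ↥(AK A K) {t}) b) :
    ∃! p : PowerSeries ↥(AK A K), toLS ↥(AK A K) ↥K p = TK E b := by
  obtain ⟨p, hp⟩ := TK_mem_psRange_of_isIntegral E A hA t ht b hb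
  exact ⟨p, hp, fun q hq => toLS_injective _ _ (hq.trans hp.symm)⟩

/-- **`ιPS`**: for a ring `B` mapping to `K·F₀` with image integral over `A_K[t]`, the cusp
expansion as a ring hom `B →+* A_K⟦s⟧`. -/
def iotaPS (t : FKG L.F₀ K) (ht : TK E t ∈ psRange ↥(AK A K) ↥K) {B : Type*} [CommRing B]
    (incl : B →+* FKG L.F₀ K) (hB : ∀ b, IsIntegral (Algebra.adjoin ↥(AK A K) {t}) (incl b)) :
    B →+* PowerSeries ↥(AK A K) :=
  ((psEquiv (K := K) A).symm : _ →+* PowerSeries ↥(AK A K)).comp
    (((TK E).comp incl).codRestrict (psRange ↥(AK A K) ↥K)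
      (fun b => TK_mem_psRange_of_isIntegral E A hA t ht (incl b) (hB b)))

theorem toLS_iotaPS (t : FKG L.F₀ K) (ht : TK E t ∈ psRange ↥(AK A K) ↥K) {B : Type*}
    [CommRing B] (incl : B →+* FKG L.F₀ K)
    (hB : ∀ b, IsIntegral (Algebra.adjoin ↥(AK A K) {t}) (incl b)) (b : B) :
    toLS ↥(AK A K) ↥K (iotaPS E A hA t ht incl hB b) = TK E (incl b) := by
  have h : (psEquiv (K := K) A) (iotaPS E A hA t ht incl hB b) =
      (((TK E).comp incl).codRestrict (psRange ↥(AK A K) ↥K)
        (fun b => TK_mem_psRange_of_isIntegral E A hA t ht (incl b) (hB b))) b := by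
    rw [iotaPS, RingHom.comp_apply]
    exact (psEquiv (K := K) A).apply_symm_apply _
  exact congrArg Subtype.val h

end Integral

end Fermat.Agent.DS.G.RED.CUSP.CuspEmbK16

end
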