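/-
DS programme (S48), GEO half, chapter G-RED, (C) CUSP twins — HEDGE of the family chain (helper29).

Twin of `Fermat/Agent/RED/CUSP/CuspFamilyK16.lean` over an abstract compressed cusp expansion
`E : CuspEmbK16.CuspExpK L K` (helper28) together with its UNCOMPRESSED form
`(r, T)`, `hT : ∀ f, qExpand ℚ̄ r (E.Tc f) = T f` (`= CuspExact16.qExpand_Tc`):

* `coeffMap_qExpand_TK` ; `shape_some`, `shape_none` (F1) ; `order_sub_of_shape`,
  `ord_v_of_shape` (F2) ; `hplaces_of_fibre` (F3).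

The level-free lemmas (`toLS_eq`, `order_toLS_mul_X_pow`) are those of the original file.
-/
import Mathlib
import Fermat.Agent.DS.G.RED.CUSP.CuspEmbK16
import Fermat.Agent.RED.CUSP.CuspFamilyK16

set_option autoImplicit false
set_option linter.unusedSectionVars false

noncomputable section

namespace Fermat.Agent.DS.G.RED.CUSP.CuspFamily29

open Fermat.Agent.X0 (Kbar)
open AlgebraicCurve ModularCurve HahnSeries
open Fermat.Agent.RED.Interface4 Fermat.Agent.DS.G.Level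
open Fermat.Agent.DS.G.RED.Iface Fermat.Agent.DS.G.RED.Desc
open Fermat.Agent.DS.G.RED.CUSP.CuspEmbK16
open Fermat.Agent.RED.CUSP.IntClosedPS16 Fermat.Agent.RED.BASE.Interface12
open Fermat.Agent.RED.CUSP.CuspFamilyK16 (toLS_eq order_toLS_mul_X_pow)
open scoped MatrixGroups

variable {L : LevelData} {K : IntermediateField ℚ Qbar} (E : CuspExpK L K)
  (r : ℕ) [NeZero r] (T : FbarG L.F₀ →+* LaurentSeries Qbar)
  (hT : ∀ f : FbarG L.F₀, qExpand Qbar r (E.Tc f) = T f)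
variable (A : ValuationSubring Qbar)

include hT in
/-- `coeffMap (qExpand r (TK E z)) = T (emb z)`. -/
theorem coeffMap_qExpand_TK (z : FKG L.F₀ K) :
    coeffMap (algebraMap K Qbar) (qExpand K r (TK E z)) = T (baseChangeHomG L.F₀ K z) := by
  rw [ModularCurve.coeffMap_qExpand, coeffMap_TK, hT]

include hT in
/-- **(F1)** the shape of `TK E t` at a cusp with finite value `c̄`. -/
theorem shape_some (n : ℕ) (hn : n ≠ 0) (hnA : ((n : Qbar))⁻¹ ∈ A) (t : FKG L.F₀ K)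
    (cbar : Qbar) (h : CuspShape n (T (baseChangeHomG L.F₀ K t)) (some cbar)) :
    ∃ (c : AK A K) (e₀ : ℕ) (u : PowerSeries ↥(AK A K)), 0 < e₀ ∧
      IsUnit (PowerSeries.constantCoeff u) ∧ algebraMap K Qbar (c : K) = cbar ∧
      TK E t = HahnSeries.C (c : K) + toLS ↥(AK A K) ↥K (u * PowerSeries.X ^ e₀) := by
  rw [← coeffMap_qExpand_TK E r T hT t] at h
  obtain ⟨c, a, u, ha, hu, hc, hE⟩ :=
    Fermat.Agent.RED.CUSP.CuspShapeK6.cuspShape_some A K n hn hnA _ cbar h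
  obtain ⟨hdvd, u', hu', -, hE'⟩ :=
    Fermat.Agent.RED.CUSP.CuspShapeK6.compress A K (TK E t) r c a u hu hE
  refine ⟨c, a / r, u', ?_, hu', hc, hE'⟩
  exact Nat.div_pos (Nat.le_of_dvd ha hdvd) (Nat.pos_of_ne_zero (NeZero.ne r))

include hT in
/-- **(F1)**, pole version: the shape of `(TK E t)⁻¹` at a cusp where `t` has a pole. -/
theorem shape_none (n : ℕ) (hn : n ≠ 0) (hnA : ((n : Qbar))⁻¹ ∈ A) (t : FKG L.F₀ K)
    (h : CuspShape n (T (baseChangeHomG L.F₀ K t)) none) :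
    ∃ (e₀ : ℕ) (u : PowerSeries ↥(AK A K)), 0 < e₀ ∧
      IsUnit (PowerSeries.constantCoeff u) ∧
      TK E t⁻¹ = toLS ↥(AK A K) ↥K (u * PowerSeries.X ^ e₀) := by
  rw [← coeffMap_qExpand_TK E r T hT t] at h
  obtain ⟨a, u, ha, hu, hE⟩ := Fermat.Agent.RED.CUSP.CuspShapeK6.cuspShape_none A K n hn hnA _ h
  obtain ⟨hdvd, u', hu', -, hE'⟩ :=
    Fermat.Agent.RED.CUSP.CuspShapeK6.compress_none A K (TK E t) r a u hu hE
  refine ⟨a / r, u', ?_, hu', ?_⟩
  · exact Nat.div_pos (Nat.le_of_dvd ha hdvd) (Nat.pos_of_ne_zero (NeZero.ne r))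
  · rw [map_inv₀]; exact hE'

/-- **(F2)** `ord (TK E (t - c)) = e₀`. -/
theorem order_sub_of_shape (t : FKG L.F₀ K) (c : AK A K) (e₀ : ℕ) (u : PowerSeries ↥(AK A K))
    (hu : IsUnit (PowerSeries.constantCoeff u))
    (ht : TK E t = HahnSeries.C (c : K) + toLS ↥(AK A K) ↥K (u * PowerSeries.X ^ e₀)) :
    (TK E (t - algebraMap K (FKG L.F₀ K) (c : K))).order = e₀ := by
  rw [map_sub, TK_const, ht, add_sub_cancel_left, order_toLS_mul_X_pow A u hu]

/-- **(F2)**, on the `ℚ̄`-side: `ord_v (emb t - c̄) = e₀` for `v = E.v`. -/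
theorem ord_v_of_shape (t : FKG L.F₀ K) (c : AK A K) (e₀ : ℕ) (he₀ : 0 < e₀)
    (u : PowerSeries ↥(AK A K)) (hu : IsUnit (PowerSeries.constantCoeff u))
    (ht : TK E t = HahnSeries.C (c : K) + toLS ↥(AK A K) ↥K (u * PowerSeries.X ^ e₀)) :
    E.v.ord (baseChangeHomG L.F₀ K (t - algebraMap K (FKG L.F₀ K) (c : K))) = e₀ := by
  have h1 := order_sub_of_shape E A t c e₀ u hu ht
  have hne : t - algebraMap K (FKG L.F₀ K) (c : K) ≠ 0 := by
    intro h0
    rw [h0, map_zero, HahnSeries.order_zero] at h1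
    exact he₀.ne' (by exact_mod_cast h1.symm)
  rw [← order_TK E _ hne, h1]

/-- **(EXT)**, membership form, generic `F₀`. -/
theorem exists_place_above_mem {x : FbarG L.F₀} (hgen : Fermat.Agent.X0.FF.IsGen Qbar x)
    (w : Place K (FKG L.F₀ K)) :
    ∃ (v : Place Qbar (FbarG L.F₀)) (e : ℕ), 0 < e ∧
      (∀ f : FKG L.F₀ K, v.ord (baseChangeHomG L.F₀ K f) = (e : ℤ) * w.ord f) ∧
      ∀ f : FKG L.F₀ K, baseChangeHomG L.F₀ K f ∈ v.toValuationSubring ↔
        f ∈ w.toValuationSubring := by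
  obtain ⟨v, e, he, hord⟩ := exists_place_aboveG K hgen w
  refine ⟨v, e, he, hord, fun f => ?_⟩
  rw [Fermat.Agent.X0.FF.ffp_mem_iff_ord_nonneg, Fermat.Agent.X0.FF.ffp_mem_iff_ord_nonneg, hord]
  have he' : (0 : ℤ) < (e : ℤ) := by exact_mod_cast he
  constructor
  · intro h
    by_contra hneg
    rw [not_le] at hneg
    have := mul_neg_of_pos_of_neg he' hneg
    omega
  · intro h
    exact mul_nonneg he'.le h

/-- **(F3)** `hplaces` from the description of the fibre over `ℚ̄`, for a family of expansions. -/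
theorem hplaces_of_fibre {x : FbarG L.F₀} (hgen : Fermat.Agent.X0.FF.IsGen Qbar x)
    (X : SL(2, ℤ) → CuspExpK L K) (τ : FKG L.F₀ K) (Γ : Set (SL(2, ℤ)))
    (hfib : ∀ v : Place Qbar (FbarG L.F₀), 0 < v.ord (baseChangeHomG L.F₀ K τ) →
      ∃ γ ∈ Γ, v = (X γ).v)
    (w : Place K (FKG L.F₀ K)) (hw : 0 < w.ord τ) :
    ∃ γ ∈ Γ, ∀ z : FKG L.F₀ K, z ≠ 0 → 0 ≤ (TK (X γ) z).order → z ∈ w.toValuationSubring := by
  obtain ⟨v, e, he, hord, hmem⟩ := exists_place_above_mem hgen w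
  have hv : 0 < v.ord (baseChangeHomG L.F₀ K τ) := by
    rw [hord]
    exact mul_pos (by exact_mod_cast he) hw
  obtain ⟨γ, hγ, rfl⟩ := hfib v hv
  refine ⟨γ, hγ, fun z hz h0 => ?_⟩
  rw [← hmem, mem_placeOf_iff_TK (X γ) z hz]
  exact h0

end Fermat.Agent.DS.G.RED.CUSP.CuspFamily29
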