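/-
DS programme (S48), GEO half, chapter G-RED, (C) CUSP twins — HEDGE of the family chain (helper29).

Twin of `Fermat/Agent/RED/CUSP/CuspPackK16.lean` at a general level `(L, D, C)`, `hC : C.Distinct`,
over a number field `K` such that the compressed cusp expansions of the generators are rational
over `K` (`hK`; for `L1 M`: `DS/X1/CuspExpKInst29`).

* `expK C hC hK γ : CuspExpK L K` — the compressed expansion at the cusp `γ∞`
  (`Tc := CuspExact16.Tc C γ`, `v := placeOf C γ`);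
* `cusp_family_some`, `cusp_family_none` — the packaged families over a finite cusp value / over the
  poles of `t`, from the BASE inputs at a fixed `h : TMem n e L` in unfolded form
  (`hexp` = `CuspExp`, `hcusp` = `CuspExports.cuspPlaces`, `hU` = `Unbranched`, `hgen` = `TIsGen`)
  and the tameness (`htS`, `htN` = `CuspTame11.tame_some/none`).
-/
import Mathlib
import Fermat.Agent.DS.G.RED.CUSP.CuspFamily29
import Fermat.Agent.DS.G.RED.CUSP.CuspFibre14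
import Fermat.Agent.RED.CUSP.CuspPackK16

set_option autoImplicit false
set_option linter.unusedSectionVars false

noncomputable section

namespace Fermat.Agent.DS.G.RED.CUSP.CuspPack29

open Fermat.Agent.X0 (Kbar iotaK iotaK_injective)
open AlgebraicCurve ModularCurve HahnSeries
open Fermat.Agent.RED.Interface4 Fermat.Agent.DS.G.Level
open Fermat.Agent.DS.G.RED.Iface Fermat.Agent.DS.G.RED.Desc
open Fermat.Agent.DS.G.RED.CUSP.CuspExact16 Fermat.Agent.DS.G.RED.CUSP.CuspEmbK16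
open Fermat.Agent.DS.G.RED.CUSP.CuspFamily29
open Fermat.Agent.RED.CUSP.IntClosedPS16 Fermat.Agent.RED.BASE.Interface12
open Fermat.Agent.DS.G.RED.BASE.Interface12
open Fermat.Agent.RED.CUSP.CuspFamilyK16 (order_toLS_mul_X_pow)
open scoped MatrixGroups
open IntermediateField

variable {L : LevelData} {D : RealizeDataK L} (C : CuspDataK L D) (hC : C.Distinct)
  {K : IntermediateField ℚ Qbar}
  (hK : ∀ (γ : SL(2, ℤ)) (g : L.gensQ) (n : ℤ), (Tc C γ (genc L Qbar g)).coeff n ∈ K)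

/-- The compressed cusp expansion at the cusp `γ∞`, rational over `K`. -/
def expK (γ : SL(2, ℤ)) : CuspExpK L K where
  Tc := Tc C γ
  v := placeOf C γ
  Tc_const := Tc_const C γ
  order_Tc := order_Tc C hC γ
  gen_coeff_mem := hK γ

@[simp] theorem expK_Tc (γ : SL(2, ℤ)) : (expK C hC hK γ).Tc = Tc C γ := rfl

@[simp] theorem expK_v (γ : SL(2, ℤ)) : (expK C hC hK γ).v = placeOf C γ := rfl

theorem expK_hT (γ : SL(2, ℤ)) (f : FbarG L.F₀) :
    qExpand Qbar (cuspR L γ) ((expK C hC hK γ).Tc f) = C.T γ f :=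
  qExpand_Tc C γ f

variable (A : ValuationSubring Qbar)

/-- A natural number dividing `w` is a unit of `A_K` as soon as `w⁻¹ ∈ A`. -/
theorem isUnit_natCast_of_dvd {w : ℕ} (hw0 : w ≠ 0) (hwA : ((w : Qbar))⁻¹ ∈ A) (d : ℕ)
    (hd : d ∣ w) : IsUnit ((d : ℕ) : ↥(AK A K)) := by
  have : NeZero w := ⟨hw0⟩
  exact Fermat.Agent.RED.CUSP.CuspPackK16.isUnit_natCast_of_dvd (M := w) A hwA d hd

variable {n e : ℕ} [NeZero n] (cv : SL(2, ℤ) → Option Kbar) (h : TMem n e L)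
  (hexp : ∀ γ : SL(2, ℤ), CuspShape n (C.T γ (tF L h)) (cv γ))
  (hgen : Fermat.Agent.X0.FF.IsGen Kbar (tF L h))

include hexp hgen in
/-- **The packaged family over a finite cusp value.** -/
theorem cusp_family_some [IsPrincipalIdealRing ↥(AK A K)] (hwA : ((L.w : Qbar))⁻¹ ∈ A)
    (hnA : ((n : Qbar))⁻¹ ∈ A)
    (hcusp : ∀ (v : Place Kbar (FFL L)) (γ : SL(2, ℤ)) (c : Kbar), cv γ = some c →
      0 < v.ord (tF L h - algebraMap Kbar (FFL L) c) → v.ord (jFL L) < 0)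
    (htS : ∀ (γ : SL(2, ℤ)) (c : Kbar), cv γ = some c →
      ((placeOf C γ).ord (tF L h - algebraMap Kbar (FFL L) c)).natAbs ∣ L.w)
    (t : FKG L.F₀ K) (ht : baseChangeHomG L.F₀ K t = tF L h)
    (γ₀ : SL(2, ℤ)) (cbar : Qbar) (hγ₀ : cv γ₀ = some cbar) :
    ∃ c : ↥(AK A K), algebraMap K Qbar (c : K) = cbar ∧
    ∃ (Cκ : Type) (_ : Fintype Cκ) (_ : DecidableEq Cκ) (γ : Cκ → SL(2, ℤ)) (e' : Cκ → ℕ)
      (u : Cκ → PowerSeries ↥(AK A K)),
      (∀ κ, cv (γ κ) = some cbar) ∧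
      (∀ κ, 0 < e' κ) ∧ (∀ κ, IsUnit ((e' κ : ℕ) : ↥(AK A K))) ∧
      (∀ κ, IsUnit (PowerSeries.constantCoeff (u κ))) ∧
      (∀ κ, TK (expK C hC hK (γ κ)) t =
        HahnSeries.C (c : K) + toLS ↥(AK A K) ↥K (u κ * PowerSeries.X ^ e' κ)) ∧
      (∀ κ, (TK (expK C hC hK (γ κ)) (t - algebraMap K (FKG L.F₀ K) (c : K))).order = e' κ) ∧
      (∑ κ, e' κ = Module.finrank Kbar⟮tF L h⟯ (FFL L)) ∧
      (∀ w : Place K (FKG L.F₀ K), 0 < w.ord (t - algebraMap K (FKG L.F₀ K) (c : K)) →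
        ∃ κ, ∀ z : FKG L.F₀ K, z ≠ 0 → 0 ≤ (TK (expK C hC hK (γ κ)) z).order →
          z ∈ w.toValuationSubring) := by
  classical
  have hn0 : n ≠ 0 := NeZero.ne n
  have hshape' : ∀ γ, CuspShape n (C.T γ (baseChangeHomG L.F₀ K t)) (cv γ) := by
    intro γ
    rw [ht]
    exact hexp γ
  -- the constant `c`
  have hs₀ := hshape' γ₀
  rw [hγ₀] at hs₀
  obtain ⟨c, -, -, -, -, hc, -⟩ := shape_some (expK C hC hK γ₀) (cuspR L γ₀) (C.T γ₀)
    (expK_hT C hC hK γ₀) A n hn0 hnA t cbar hs₀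
  refine ⟨c, hc, ?_⟩
  have hemb : baseChangeHomG L.F₀ K (t - algebraMap K (FKG L.F₀ K) (c : K)) =
      tF L h - algebraMap Kbar (FFL L) cbar := by
    rw [map_sub, ht, baseChangeHomG_algebraMap, ← hc]
    rfl
  -- the index type
  let Cκ : Type := {v : Place Kbar (FFL L) // 0 < v.ord (tF L h - algebraMap Kbar (FFL L) cbar)}
  let instF : Fintype Cκ := Fermat.Agent.RED.CUSP.CuspFibre14.fintypeFibre hgen cbar
  have hγex : ∀ κ : Cκ, ∃ γ : SL(2, ℤ), placeOf C γ = κ.1 ∧ cv γ = some cbar := fun κ =>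
    CuspFibre14.exists_placeOf_of_zero hC cv h hexp hcusp κ.1 γ₀ cbar hγ₀ κ.2
  choose γ hγv hγc using hγex
  have hsh : ∀ κ : Cκ, ∃ (e₀ : ℕ) (u : PowerSeries ↥(AK A K)), 0 < e₀ ∧
      IsUnit (PowerSeries.constantCoeff u) ∧
      TK (expK C hC hK (γ κ)) t =
        HahnSeries.C (c : K) + toLS ↥(AK A K) ↥K (u * PowerSeries.X ^ e₀) := by
    intro κ
    have hs := hshape' (γ κ)
    rw [hγc κ] at hs
    obtain ⟨c', e₀, u, he₀, hu, hc', hE⟩ := shape_some (expK C hC hK (γ κ)) (cuspR L (γ κ))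
      (C.T (γ κ)) (expK_hT C hC hK (γ κ)) A n hn0 hnA t cbar hs
    have hcc : c' = c := by
      apply Subtype.ext
      apply (algebraMap K Qbar).injective
      rw [hc', hc]
    rw [hcc] at hE
    exact ⟨e₀, u, he₀, hu, hE⟩
  choose e' u he' hu hE using hsh
  have hord : ∀ κ : Cκ, (e' κ : ℤ) = κ.1.ord (tF L h - algebraMap Kbar (FFL L) cbar) := by
    intro κ
    have := ord_v_of_shape (expK C hC hK (γ κ)) A t c (e' κ) (he' κ) (u κ) (hu κ) (hE κ)
    rw [hemb, expK_v, hγv κ] at this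
    exact this.symm
  refine ⟨Cκ, instF, Classical.decEq Cκ, γ, e', u, hγc, he', ?_, hu, hE, ?_, ?_, ?_⟩
  · intro κ
    apply isUnit_natCast_of_dvd A (NeZero.ne L.w) hwA
    have htame := htS (γ κ) cbar (hγc κ)
    rw [hγv κ, ← hord κ, Int.natAbs_natCast] at htame
    exact htame
  · intro κ
    exact order_sub_of_shape (expK C hC hK (γ κ)) A t c (e' κ) (u κ) (hu κ) (hE κ)
  · rw [← CuspFibre14.sum_toNat_zero_fibre h hgen cbar]
    refine Finset.sum_congr rfl fun κ _ => ?_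
    rw [← hord κ, Int.toNat_natCast]
  · intro w hw
    obtain ⟨γ', ⟨κ, rfl⟩, hκ⟩ := hplaces_of_fibre hgen (expK C hC hK)
      (t - algebraMap K (FKG L.F₀ K) (c : K))
      (Set.range γ) (fun v hv => by
        rw [hemb] at hv
        exact ⟨γ ⟨v, hv⟩, ⟨⟨v, hv⟩, rfl⟩, (hγv ⟨v, hv⟩).symm⟩) w hw
    exact ⟨κ, hκ⟩

include hexp hgen in
/-- **The packaged family over the poles of `t`**, for the coordinate `t⁻¹` and the value `0`. -/
theorem cusp_family_none [IsPrincipalIdealRing ↥(AK A K)] (hwA : ((L.w : Qbar))⁻¹ ∈ A)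
    (hnA : ((n : Qbar))⁻¹ ∈ A)
    (hU : ∀ v : Place Kbar (FFL L), 0 ≤ v.ord (jFL L) →
      ∃ c : Kbar, v.ord (tF L h - algebraMap Kbar (FFL L) c) = 1)
    (htN : ∀ γ : SL(2, ℤ), cv γ = none → ((placeOf C γ).ord (tF L h)).natAbs ∣ L.w)
    (t : FKG L.F₀ K) (ht : baseChangeHomG L.F₀ K t = tF L h) :
    ∃ (Cκ : Type) (_ : Fintype Cκ) (_ : DecidableEq Cκ) (γ : Cκ → SL(2, ℤ)) (e' : Cκ → ℕ)
      (u : Cκ → PowerSeries ↥(AK A K)),
      (∀ κ, cv (γ κ) = none) ∧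
      (∀ κ, 0 < e' κ) ∧ (∀ κ, IsUnit ((e' κ : ℕ) : ↥(AK A K))) ∧
      (∀ κ, IsUnit (PowerSeries.constantCoeff (u κ))) ∧
      (∀ κ, TK (expK C hC hK (γ κ)) t⁻¹ =
        HahnSeries.C (((0 : ↥(AK A K)) : ↥(AK A K)) : K) +
          toLS ↥(AK A K) ↥K (u κ * PowerSeries.X ^ e' κ)) ∧
      (∀ κ, (TK (expK C hC hK (γ κ))
        (t⁻¹ - algebraMap K (FKG L.F₀ K) (((0 : ↥(AK A K)) : ↥(AK A K)) : K))).order = e' κ) ∧
      (∑ κ, e' κ = Module.finrank Kbar⟮tF L h⟯ (FFL L)) ∧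
      (∀ w : Place K (FKG L.F₀ K),
        0 < w.ord (t⁻¹ - algebraMap K (FKG L.F₀ K) (((0 : ↥(AK A K)) : ↥(AK A K)) : K)) →
        ∃ κ, ∀ z : FKG L.F₀ K, z ≠ 0 → 0 ≤ (TK (expK C hC hK (γ κ)) z).order →
          z ∈ w.toValuationSubring) := by
  classical
  have hn0 : n ≠ 0 := NeZero.ne n
  have hshape' : ∀ γ, CuspShape n (C.T γ (baseChangeHomG L.F₀ K t)) (cv γ) := by
    intro γ
    rw [ht]
    exact hexp γ
  have hzero : algebraMap K (FKG L.F₀ K) (((0 : ↥(AK A K)) : ↥(AK A K)) : K) = 0 := by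
    rw [ZeroMemClass.coe_zero, map_zero]
  have hC0 : HahnSeries.C ((((0 : ↥(AK A K)) : ↥(AK A K)) : K)) = (0 : LaurentSeries K) := by
    rw [ZeroMemClass.coe_zero, map_zero]
  -- the index type
  let Cκ : Type := {v : Place Kbar (FFL L) // v.ord (tF L h) < 0}
  let instF : Fintype Cκ := Fermat.Agent.RED.CUSP.CuspFibre14.fintypePoles hgen
  have hγex : ∀ κ : Cκ, ∃ γ : SL(2, ℤ), placeOf C γ = κ.1 ∧ cv γ = none := fun κ =>
    CuspFibre14.exists_placeOf_of_pole hC cv h hexp hU κ.1 κ.2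
  choose γ hγv hγc using hγex
  have hsh : ∀ κ : Cκ, ∃ (e₀ : ℕ) (u : PowerSeries ↥(AK A K)), 0 < e₀ ∧
      IsUnit (PowerSeries.constantCoeff u) ∧
      TK (expK C hC hK (γ κ)) t⁻¹ = toLS ↥(AK A K) ↥K (u * PowerSeries.X ^ e₀) := by
    intro κ
    have hs := hshape' (γ κ)
    rw [hγc κ] at hs
    exact shape_none (expK C hC hK (γ κ)) (cuspR L (γ κ)) (C.T (γ κ))
      (expK_hT C hC hK (γ κ)) A n hn0 hnA t hs
  choose e' u he' hu hE using hsh
  have ht0 : t ≠ 0 := by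
    intro h0
    have htr := hgen.transcendental
    rw [← ht, h0, map_zero] at htr
    exact htr (isAlgebraic_zero)
  have hordK : ∀ κ : Cκ, (TK (expK C hC hK (γ κ)) t⁻¹).order = e' κ := by
    intro κ
    rw [hE κ, order_toLS_mul_X_pow A (u κ) (hu κ)]
  have hord : ∀ κ : Cκ, (e' κ : ℤ) = -κ.1.ord (tF L h) := by
    intro κ
    have h1 := hordK κ
    have hne : t⁻¹ ≠ 0 := inv_ne_zero ht0
    rw [order_TK (expK C hC hK (γ κ)) _ hne, map_inv₀, ht, expK_v, hγv κ, Place.ord_inv] at h1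
    exact h1.symm
  refine ⟨Cκ, instF, Classical.decEq Cκ, γ, e', u, hγc, he', ?_, hu, ?_, ?_, ?_, ?_⟩
  · intro κ
    apply isUnit_natCast_of_dvd A (NeZero.ne L.w) hwA
    have htame := htN (γ κ) (hγc κ)
    rw [hγv κ] at htame
    have : (κ.1.ord (tF L h)).natAbs = e' κ := by
      have := hord κ
      omega
    rwa [this] at htame
  · intro κ
    rw [hC0, zero_add]
    exact hE κ
  · intro κ
    rw [hzero, sub_zero]
    exact hordK κ
  · rw [← CuspFibre14.sum_toNat_pole_fibre h hgen]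
    refine Finset.sum_congr rfl fun κ _ => ?_
    rw [← hord κ, Int.toNat_natCast]
  · intro w hw
    rw [hzero, sub_zero] at hw
    obtain ⟨γ', ⟨κ, rfl⟩, hκ⟩ := hplaces_of_fibre hgen (expK C hC hK) t⁻¹
      (Set.range γ) (fun v hv => by
        rw [map_inv₀, ht, Place.ord_inv] at hv
        have hv' : v.ord (tF L h) < 0 := by omega
        exact ⟨γ ⟨v, hv'⟩, ⟨⟨v, hv'⟩, rfl⟩, (hγv ⟨v, hv'⟩).symm⟩) w hw
    exact ⟨κ, hκ⟩

end Fermat.Agent.DS.G.RED.CUSP.CuspPack29
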