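/-
Programme DS (S48), chapter G-RED, CUSP twins (helper29).  Generic twin of `RED/CUSP/CuspExact16`
(helper16): EXACT re-indexing of the cusp expansions, for an abstract level `L : LevelData` with
`(D : RealizeDataK L) (C : CuspDataK L D)` and `hC : C.Distinct`.

For `γ ∈ SL(2, ℤ)` let `w := cuspW L γ` be the size of the `⟨T⟩`-orbit of the coset `γ⁻¹ L.Gam`
(the width of the cusp `γ⁻¹ ∞`) and `r := cuspR L γ = L.w / w`.  Then:

* `coeff_T_eq_zero`   : every `C.T γ f` is a series in `q_w ^ r`;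
* `neg_ord_jF_eq`     : `- ord_v j = w` for `v = cuspPlace γ⁻¹` (EXACT: from the count
                         `∑ widths = [SL(2,ℤ) : L.Gam] = [F : ℚbar(j)]`);
* `order_T_eq`        : `(C.T γ f).order = r * ord_v f`;
* `Tc γ : FFL L →+* ℚbar((s))`, the compressed expansion, `qExpand r ∘ Tc γ = C.T γ`, with
  `order_Tc : (Tc γ f).order = ord_v f` and `mem_placeOf_iff`.

Same names as the original (`N` ↦ `L`, `cuspData N` ↦ `C`); the statements which use exactness carry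
the extra hypothesis `hC : C.Distinct`.  `order_qExpand` is level-free: use the original.
-/
import Fermat.Agent.DS.G.X0.CuspGood
import Fermat.Agent.DS.G.X0.CuspSurj
import Fermat.Agent.DS.G.X0.DegreeLc
import Fermat.Agent.X0.PlaceCount
import Fermat.Agent.X0.FFSum
import Fermat.Agent.X0.OrbitCount
import Fermat.Agent.RED.LVL.RootRange2
import Fermat.Agent.RED.CUSP.CuspExact16

set_option autoImplicit false
set_option linter.unusedSectionVars false

noncomputable section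

namespace Fermat.Agent.DS.G.RED.CUSP.CuspExact16

open AlgebraicCurve ModularCurve
open Fermat.Agent.X0 (Kbar iotaK iotaK_injective)
open Fermat.Agent.DS.G.Level Fermat.Agent.DS.G.X0.CuspPlaces
open MulAction Subgroup
open scoped MatrixGroups
open Fermat.Agent.RED.CUSP.CuspExact16 (order_qExpand)

variable (L : LevelData)

/-- The coset `γ⁻¹ L.Gam`. -/
def cuspCoset (γ : SL(2, ℤ)) : SL(2, ℤ) ⧸ L.Gam := QuotientGroup.mk γ⁻¹

/-- The width of the cusp `γ⁻¹ ∞`: the size of the `⟨T⟩`-orbit of `γ⁻¹ L.Gam`. -/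
def cuspW (γ : SL(2, ℤ)) : ℕ := Nat.card (orbit (zpowers ModularGroup.T) (cuspCoset L γ))

theorem cuspW_dvd (γ : SL(2, ℤ)) : cuspW L γ ∣ L.w :=
  Fermat.Agent.DS.G.X0.CosetAction.card_orbit_T_dvd L _

theorem cuspW_pos (γ : SL(2, ℤ)) : 0 < cuspW L γ :=
  Nat.pos_of_ne_zero fun h => NeZero.ne L.w (by
    have := cuspW_dvd L γ
    rw [h] at this
    exact zero_dvd_iff.mp this)

/-- `r = L.w / w`. -/
def cuspR (γ : SL(2, ℤ)) : ℕ := L.w / cuspW L γ

theorem cuspR_mul_cuspW (γ : SL(2, ℤ)) : cuspR L γ * cuspW L γ = L.w :=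
  Nat.div_mul_cancel (cuspW_dvd L γ)

theorem cuspR_pos (γ : SL(2, ℤ)) : 0 < cuspR L γ :=
  Nat.div_pos (Nat.le_of_dvd (Nat.pos_of_ne_zero (NeZero.ne L.w)) (cuspW_dvd L γ)) (cuspW_pos L γ)

instance (γ : SL(2, ℤ)) : NeZero (cuspR L γ) := ⟨(cuspR_pos L γ).ne'⟩

/-- `γ T^w γ⁻¹ ∈ L.Gam`. -/
theorem conj_T_pow_cuspW_mem (γ : SL(2, ℤ)) :
    γ * ModularGroup.T ^ cuspW L γ * γ⁻¹ ∈ L.Gam := by
  set x : SL(2, ℤ) ⧸ L.Gam := cuspCoset L γ with hx
  have hper : ModularGroup.T ^ cuspW L γ • x = x := by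
    rw [pow_smul_eq_iff_minimalPeriod_dvd, ← Fermat.Agent.X0.OrbitCount.card_orbit_zpowers]
    exact dvd_of_eq rfl
  rw [hx, cuspCoset, MulAction.Quotient.smul_mk, smul_eq_mul] at hper
  have := QuotientGroup.eq.mp hper.symm
  rw [inv_inv, ← mul_assoc] at this
  exact this

variable {L} {D : RealizeDataK L} (C : CuspDataK L D)

/-- `C` is `Good`. -/
theorem hGood : Good C := Fermat.Agent.DS.G.X0.CuspGood.good C

/-- Every `C.T γ f` is a series in `q_w ^ r`. -/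
theorem coeff_T_eq_zero (γ : SL(2, ℤ)) (f : FFL L) (n : ℤ) (hn : ¬ (cuspR L γ : ℤ) ∣ n) :
    (C.T γ f).coeff n = 0 := by
  by_contra hne
  exact hn (Fermat.Agent.DS.G.X0.CuspEquiv.width C γ (cuspW L γ) (cuspW_pos L γ) (cuspW_dvd L γ)
    (conj_T_pow_cuspW_mem L γ) f n hne)

/-- The place attached to `γ` (order function `f ↦ ord (C.T γ f)` up to the factor `r`). -/
def placeOf (γ : SL(2, ℤ)) : Place Kbar (FFL L) := cuspPlace (hGood C) γ⁻¹

section Exact

variable (hC : C.Distinct)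
include hC

theorem isGen_jFL : Fermat.Agent.X0.FF.IsGen Kbar (jFL L) :=
  Fermat.Agent.DS.G.X0.DegreeLc.isGen_jF iotaK_injective L D C hC

theorem finite_poles_jFL : {v : Place Kbar (FFL L) | v.ord (jFL L) < 0}.Finite :=
  Fermat.Agent.X0.FF.finite_poles (isGen_jFL C hC)

theorem sum_ord_poles_jFL :
    ∑ᶠ (v : Place Kbar (FFL L)) (_ : v.ord (jFL L) < 0), -v.ord (jFL L) =
      (Nat.card (SL(2, ℤ) ⧸ L.Gam) : ℤ) := by
  rw [Fermat.Agent.X0.FF.sum_ord_poles (isGen_jFL C hC),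
    Fermat.Agent.DS.G.X0.DegreeLc.card_eq_finrank_adjoin iotaK_injective L D C hC]

/-- The count at the cusps. -/
theorem cusp_count :
    Nat.card {v : Place Kbar (FFL L) // v.ord (jFL L) < 0} =
        Nat.card (orbitRel.Quotient (zpowers ModularGroup.T) (SL(2, ℤ) ⧸ L.Gam)) ∧
      ∀ x : SL(2, ℤ) ⧸ L.Gam,
        -(cuspPlaceX (hGood C) x).ord (jFL L) =
          (Nat.card (orbit (zpowers ModularGroup.T) x) : ℤ) := by
  haveI : Finite (SL(2, ℤ) ⧸ L.Gam) := LevelData.finite_quotient L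
  exact Fermat.Agent.X0.PlaceCount.pc_pole_count (K := Kbar) (jFL L) (Nat.card (SL(2, ℤ) ⧸ L.Gam))
    (finite_poles_jFL C hC) (sum_ord_poles_jFL C hC)
    (X := SL(2, ℤ) ⧸ L.Gam) (G := zpowers ModularGroup.T) rfl
    (cuspPlaceX (hGood C)) (cuspPlaceX_ord_jF_neg (hGood C))
    (Fermat.Agent.DS.G.X0.CuspSurj.exists_cuspPlaceX_eq iotaK_injective C hC)
    (cuspPlaceX_smul_zpowers_T (hGood C)) (cuspPlaceX_neg_ord_jF_le (hGood C))

/-- **Exactness**: `- ord_v j` is the width, for every coset. -/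
theorem neg_ord_jF_eq_card (a : SL(2, ℤ) ⧸ L.Gam) :
    -(cuspPlaceX (hGood C) a).ord (jFL L) =
      (Nat.card (orbit (zpowers ModularGroup.T) a) : ℤ) :=
  (cusp_count C hC).2 a

theorem neg_ord_jF_eq (γ : SL(2, ℤ)) : -(placeOf C γ).ord (jFL L) = (cuspW L γ : ℤ) := by
  have := neg_ord_jF_eq_card C hC (cuspCoset L γ)
  rwa [cuspCoset, cuspPlaceX_mk] at this

/-- `ord (C.T γ f) = r * ord_v f`. -/
theorem order_T_eq (γ : SL(2, ℤ)) (f : FFL L) (hf : f ≠ 0) :
    (C.T γ f).order = (cuspR L γ : ℤ) * (placeOf C γ).ord f := by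
  obtain ⟨m, hm, hspec, hj⟩ := cuspPlace_spec (hGood C) γ⁻¹
  rw [inv_inv] at hspec
  have h1 : (m : ℤ) * (cuspW L γ : ℤ) = L.w := by
    have := neg_ord_jF_eq C hC γ
    rw [placeOf] at this
    rw [← this]
    linarith
  have h2 : (m : ℤ) = cuspR L γ := by
    have h3 : ((cuspR L γ : ℕ) : ℤ) * (cuspW L γ : ℤ) = L.w := by
      exact_mod_cast cuspR_mul_cuspW L γ
    have hw : (cuspW L γ : ℤ) ≠ 0 := by exact_mod_cast (cuspW_pos L γ).ne'
    exact mul_right_cancel₀ hw (h1.trans h3.symm)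
  rw [hspec f hf, h2, placeOf]

end Exact

/-! ### The compressed expansion -/

theorem T_mem_range (γ : SL(2, ℤ)) (f : FFL L) :
    C.T γ f ∈ (qExpand Kbar (cuspR L γ)).range := by
  have := (Fermat.Agent.RED.LVL.RootRange2.mem_range_qExpand_iff (cuspR L γ)
    (C.T γ f)).mpr (coeff_T_eq_zero C γ f)
  exact this

/-- The ring isomorphism `ℚbar((s)) ≃ range (s ↦ q_w^r)`. -/
def qEquiv (γ : SL(2, ℤ)) : LaurentSeries Kbar ≃+* (qExpand Kbar (cuspR L γ)).range :=
  RingEquiv.ofBijective (qExpand Kbar (cuspR L γ)).rangeRestrict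
    ⟨fun _ _ h => qExpand_injective _ (congrArg Subtype.val h),
      (qExpand Kbar (cuspR L γ)).rangeRestrict_surjective⟩

/-- **The compressed cusp expansion** `Tc γ : F → ℚbar((s))`, `s = q_w^r = q^{1/width}`. -/
def Tc (γ : SL(2, ℤ)) : FFL L →+* LaurentSeries Kbar :=
  ((qEquiv (L := L) γ).symm : _ →+* LaurentSeries Kbar).comp
    ((C.T γ).codRestrict (qExpand Kbar (cuspR L γ)).range (T_mem_range C γ))

theorem qExpand_Tc (γ : SL(2, ℤ)) (f : FFL L) :
    qExpand Kbar (cuspR L γ) (Tc C γ f) = C.T γ f := by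
  have h : (qEquiv (L := L) γ) (Tc C γ f) =
      ((C.T γ).codRestrict (qExpand Kbar (cuspR L γ)).range (T_mem_range C γ)) f := by
    rw [Tc, RingHom.comp_apply]
    exact (qEquiv (L := L) γ).apply_symm_apply _
  exact congrArg Subtype.val h

theorem Tc_coeff (γ : SL(2, ℤ)) (f : FFL L) (n : ℤ) :
    (Tc C γ f).coeff n = (C.T γ f).coeff ((cuspR L γ : ℤ) * n) := by
  rw [← qExpand_Tc, qExpand_coeff_mul]

theorem Tc_const (γ : SL(2, ℤ)) (c : Kbar) :
    Tc C γ (algebraMap Kbar (FFL L) c) = HahnSeries.C c := by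
  apply qExpand_injective (R := Kbar) (N := cuspR L γ)
  rw [qExpand_Tc, (hGood C).map_const, qExpand_C]

theorem Tc_ne_zero (γ : SL(2, ℤ)) {f : FFL L} (hf : f ≠ 0) : Tc C γ f ≠ 0 :=
  (map_ne_zero_iff _ (Tc C γ).injective).mpr hf

/-- **Exact order**: `ord (Tc γ f) = ord_v f`. -/
theorem order_Tc (hC : C.Distinct) (γ : SL(2, ℤ)) (f : FFL L) (hf : f ≠ 0) :
    (Tc C γ f).order = (placeOf C γ).ord f := by
  have h1 := order_T_eq C hC γ f hf
  rw [← qExpand_Tc, order_qExpand] at h1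
  have hr : ((cuspR L γ : ℕ) : ℤ) ≠ 0 := by exact_mod_cast (cuspR_pos L γ).ne'
  exact mul_left_cancel₀ hr h1

theorem mem_placeOf_iff (hC : C.Distinct) (γ : SL(2, ℤ)) {f : FFL L} (hf : f ≠ 0) :
    f ∈ (placeOf C γ).toValuationSubring ↔ 0 ≤ (Tc C γ f).order := by
  rw [order_Tc C hC γ f hf, Fermat.Agent.X0.FF.ffp_mem_iff_ord_nonneg]

end Fermat.Agent.DS.G.RED.CUSP.CuspExact16
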