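/-
Programme DS (S48), chapter G-RED, CUSP twins (helper99; share of row 385).  Generic twin of
`RED/CUSP/CuspTame11` (helper11): leaf (L7) TAMENESS of the cusp ramification, for an abstract
level `L : LevelData` with `(D : RealizeDataK L) (C : CuspDataK L D)` and `hC : C.Distinct`
(explicit arguments `C hC` FIRST in every statement that uses exactness).

For the Hauptmodul `t` of level `n ∈ {4, 9}` (`hb : BaseHyp n e`), at a level `L` whose rational
field contains `F_n` (`hle : modularFunctionFieldFull n ≤ L.F₀`), and the cusp place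
`v = placeOf C γ` (of the `CuspExact16` twin):

* `ord_of_cuspShape_some`, `ord_of_cuspShape_none` : sign of `ord_v` from the cusp shape;
* `tame_some` : `cv γ = some c → 0 < ord_v (t - c) ∧ ord_v (t - c) ∣ L.w`;
* `tame_none` : `cv γ = none → ord_v t < 0 ∧ ord_v t ∣ L.w`;
  (sharper: `natAbs_ord_dvd_cuspW_some`, `ord_eq_neg_cuspW_none` with the width `cuspW L γ`);
* `cuspShape_Tc` : `CuspShape n (Tc C γ t) (cv γ)` for the compressed expansion of `CuspExact16`;
* `shape_Tc_some`, `shape_Tc_none` : the compressed shapes with exponent `a = ± ord_v`, `a ∣ L.w`.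

Same names as the original (`M` ↦ `L`, `cuspData M` ↦ `C`, the divisibility `n ∣ M` ↦ `hle`, the
level `M` in `… ∣ M` ↦ `L.w`); the statements carry the extra hypotheses `C`, `hC`.  The level-free
lemmas (`cuspTail_ne_zero`, `coeff_shape_add`, `compress_core`, `cuspShape_compress`) are the
originals: use them from `Fermat.Agent.RED.CUSP.CuspTame11`.
-/
import Mathlib
import Fermat.Agent.DS.G.RED.BASE.MainCusp12
import Fermat.Agent.DS.G.RED.CUSP.CuspExact16
import Fermat.Agent.RED.CUSP.CuspTame11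

set_option autoImplicit false
set_option linter.unusedSectionVars false

open ModularCurve AlgebraicCurve
open scoped MatrixGroups IntermediateField

noncomputable section

namespace Fermat.Agent.DS.G.RED.CUSP.CuspTame11

open Fermat.Agent.X0 Fermat.Agent.X0.FF Fermat.Agent.DS.G.Level
open Fermat.Agent.DS.G.RED.BASE.Interface12
open Fermat.Agent.RED.BASE.Interface12 (CuspShape IsIntAway IsUnitAway)
open Fermat.Agent.RED.BASE.Hauptmodul12
open Fermat.Agent.RED.BASE.UnbranchedMain14 (isGen_of_adjoin_eq_top)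
open Fermat.Agent.RED.BASE.Unbranched14 (ord_eq_one_of_finrank_eq_one)
open Fermat.Agent.RED.BASE.FiniteAvoids14 (order_cuspTail)
open Fermat.Agent.DS.G.RED.BASE.NoElliptic14 (fbar_le exists_base_place inclusion_jF)
open Fermat.Agent.DS.G.RED.CUSP.CuspExact16
open Fermat.Agent.RED.CUSP.CuspTame11 (cuspTail_ne_zero cuspShape_compress)

/-! ### Signs of the orders from the cusp shape -/

section Sign

variable {L : LevelData} {D : RealizeDataK L} (C : CuspDataK L D)

/-- A finite cusp value `c` of `f` at `γ`: `f - c` vanishes at the cusp place, to the order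
`a / r` (`a` the exponent of the shape, `r = cuspR`). -/
theorem ord_of_cuspShape_some (hC : C.Distinct) {m : ℕ} (γ : SL(2, ℤ)) (f : FFL L) (c : Kbar)
    (h : CuspShape m (C.T γ f) (some c)) :
    0 < (placeOf C γ).ord (f - algebraMap Kbar (FFL L) c) := by
  obtain ⟨a, lam, V, ha, hlam, hV, -, -, hE⟩ := h
  have hE' : C.T γ f = HahnSeries.C c + HahnSeries.C lam * HahnSeries.single (a : ℤ) 1 *
      HahnSeries.ofPowerSeries ℤ Kbar V := hE
  have hT : C.T γ (f - algebraMap Kbar (FFL L) c) =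
      HahnSeries.C lam * HahnSeries.single (a : ℤ) 1 * HahnSeries.ofPowerSeries ℤ Kbar V := by
    rw [map_sub, (hGood C).map_const, hE']
    ring
  have hne : f - algebraMap Kbar (FFL L) c ≠ 0 := by
    intro h0
    rw [h0, map_zero] at hT
    exact cuspTail_ne_zero a hlam.1 V hV hT.symm
  have hord := order_T_eq C hC γ _ hne
  rw [hT, order_cuspTail a lam hlam.1 V hV] at hord
  have hr : (0 : ℤ) < cuspR L γ := by exact_mod_cast cuspR_pos L γ
  have ha' : (0 : ℤ) < a := by exact_mod_cast ha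
  by_contra hcon
  rw [not_lt] at hcon
  nlinarith

/-- A pole of `f` at `γ`. -/
theorem ord_of_cuspShape_none (hC : C.Distinct) {m : ℕ} (γ : SL(2, ℤ)) (f : FFL L)
    (h : CuspShape m (C.T γ f) none) : (placeOf C γ).ord f < 0 := by
  obtain ⟨a, lam, V, ha, hlam, hV, -, hE⟩ := h
  have hE' : (C.T γ f)⁻¹ =
      HahnSeries.C lam * HahnSeries.single (a : ℤ) 1 * HahnSeries.ofPowerSeries ℤ Kbar V := hE
  have hT : C.T γ f⁻¹ =
      HahnSeries.C lam * HahnSeries.single (a : ℤ) 1 * HahnSeries.ofPowerSeries ℤ Kbar V := by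
    rw [map_inv₀, hE']
  have hne : f⁻¹ ≠ 0 := by
    intro h0
    rw [h0, map_zero] at hT
    exact cuspTail_ne_zero a hlam.1 V hV hT.symm
  have hord := order_T_eq C hC γ _ hne
  rw [hT, order_cuspTail a lam hlam.1 V hV, Place.ord_inv] at hord
  have hr : (0 : ℤ) < cuspR L γ := by exact_mod_cast cuspR_pos L γ
  have ha' : (0 : ℤ) < a := by exact_mod_cast ha
  by_contra hcon
  rw [not_lt] at hcon
  nlinarith

end Sign

/-! ### Tameness -/

section Tame

variable {n e : ℕ} [NeZero n]
variable {L : LevelData} {D : RealizeDataK L} (C : CuspDataK L D)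

/-- **Tameness at a finite cusp value, sharp form**: the order of `t - c` at the cusp place of `γ`
is positive and divides the WIDTH `cuspW L γ` of the cusp. -/
theorem natAbs_ord_dvd_cuspW_some (hC : C.Distinct) (hb : BaseHyp n e)
    (hle : modularFunctionFieldFull n ≤ L.F₀)
    (h : TMem n e L) {cv : SL(2, ℤ) → Option Kbar} (hcv : CuspExp n e L C cv) (γ : SL(2, ℤ))
    (c : Kbar) (hγ : cv γ = some c) :
    0 < (placeOf C γ).ord (tF L h - algebraMap Kbar (FFL L) c) ∧
      ((placeOf C γ).ord (tF L h - algebraMap Kbar (FFL L) c)).natAbs ∣ cuspW L γ := by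
  obtain ⟨h', hshape⟩ := hcv
  have hs := hshape γ
  rw [hγ] at hs
  have hpos : 0 < (placeOf C γ).ord (tF L h - algebraMap Kbar (FFL L) c) :=
    ord_of_cuspShape_some C hC γ (tF L h) c hs
  refine ⟨hpos, ?_⟩
  obtain ⟨h₀, htop⟩ := tGenBase' hb
  obtain ⟨hgen, hdeg⟩ := isGen_of_adjoin_eq_top (transcendental_jF n) htop
  have hfd := Fermat.Agent.DS.G.X0.Degree.finiteDimensional_adjoin L D C hC
  obtain ⟨w₀, k, hk, hres⟩ := exists_base_place hle hfd (placeOf C γ)
  have hk' : (0 : ℤ) < k := by exact_mod_cast hk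
  have ht : IntermediateField.inclusion (fbar_le hle)
      (Fermat.Agent.RED.BASE.Interface12.tF n h₀ - algebraMap Kbar (FF n) c)
      = tF L h - algebraMap Kbar (FFL L) c := by
    rw [map_sub, AlgHom.commutes]
    rfl
  have h1 := hres (Fermat.Agent.RED.BASE.Interface12.tF n h₀ - algebraMap Kbar (FF n) c)
  rw [ht] at h1
  have hw₀ : 0 < w₀.ord
      (Fermat.Agent.RED.BASE.Interface12.tF n h₀ - algebraMap Kbar (FF n) c) := by
    by_contra hneg
    rw [not_lt] at hneg
    nlinarith
  have hone := ord_eq_one_of_finrank_eq_one hgen hdeg c w₀ hw₀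
  rw [hone, mul_one] at h1
  have h2 := hres (jF n)
  rw [inclusion_jF hle] at h2
  have h3 := neg_ord_jF_eq C hC γ
  have hdvd : (k : ℤ) ∣ (cuspW L γ : ℤ) := by
    rw [← h3, h2]
    exact (Dvd.intro _ rfl).neg_right
  rw [h1, Int.natAbs_natCast]
  exact Int.natCast_dvd_natCast.mp hdvd

/-- **Tameness at a finite cusp value**: the order of `t - c` at the cusp place of `γ` is positive
and divides `L.w`. -/
theorem tame_some (hC : C.Distinct) (hb : BaseHyp n e)
    (hle : modularFunctionFieldFull n ≤ L.F₀) (h : TMem n e L)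
    {cv : SL(2, ℤ) → Option Kbar} (hcv : CuspExp n e L C cv) (γ : SL(2, ℤ)) (c : Kbar)
    (hγ : cv γ = some c) :
    0 < (placeOf C γ).ord (tF L h - algebraMap Kbar (FFL L) c) ∧
      ((placeOf C γ).ord (tF L h - algebraMap Kbar (FFL L) c)).natAbs ∣ L.w := by
  obtain ⟨hpos, hdvd⟩ := natAbs_ord_dvd_cuspW_some C hC hb hle h hcv γ c hγ
  exact ⟨hpos, hdvd.trans (cuspW_dvd L γ)⟩

/-- **Tameness at a pole, sharp form**: the order of `t` at the cusp place of `γ` is minus the
width of the cusp. -/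
theorem ord_eq_neg_cuspW_none (hC : C.Distinct) (hb : BaseHyp n e)
    (hle : modularFunctionFieldFull n ≤ L.F₀)
    (h : TMem n e L) {cv : SL(2, ℤ) → Option Kbar} (hcv : CuspExp n e L C cv) (γ : SL(2, ℤ))
    (hγ : cv γ = none) :
    (placeOf C γ).ord (tF L h) = -(cuspW L γ : ℤ) := by
  obtain ⟨h', hshape⟩ := hcv
  have hs := hshape γ
  rw [hγ] at hs
  have hneg : (placeOf C γ).ord (tF L h) < 0 := ord_of_cuspShape_none C hC γ (tF L h) hs
  have h₀ : Fermat.Agent.RED.BASE.Interface12.TMem n e n := tMem hb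
  have hfd := Fermat.Agent.DS.G.X0.Degree.finiteDimensional_adjoin L D C hC
  obtain ⟨w₀, k, hk, hres⟩ := exists_base_place hle hfd (placeOf C γ)
  have hk' : (0 : ℤ) < k := by exact_mod_cast hk
  have ht : IntermediateField.inclusion (fbar_le hle)
      (Fermat.Agent.RED.BASE.Interface12.tF n h₀) = tF L h := rfl
  have h1 := hres (Fermat.Agent.RED.BASE.Interface12.tF n h₀)
  rw [ht] at h1
  have hw₀ : w₀.ord (Fermat.Agent.RED.BASE.Interface12.tF n h₀) < 0 := by
    by_contra hcon
    rw [not_lt] at hcon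
    nlinarith
  have h2 := hres (jF n)
  rw [inclusion_jF hle] at h2
  have h3 := neg_ord_jF_eq C hC γ
  rcases ord_tF_cases hb.two_le hb.exp hb.nuTwo hb.nuThree hb.sq h₀ w₀ with h0 | ⟨h0, -⟩ | ⟨h0, -⟩
  · omega
  · omega
  · rw [h1, h0, ← h2, ← h3, neg_neg]

/-- **Tameness at a pole**: the order of `t` at the cusp place of `γ` is negative and divides
`L.w` (it is minus the width). -/
theorem tame_none (hC : C.Distinct) (hb : BaseHyp n e)
    (hle : modularFunctionFieldFull n ≤ L.F₀) (h : TMem n e L)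
    {cv : SL(2, ℤ) → Option Kbar} (hcv : CuspExp n e L C cv) (γ : SL(2, ℤ))
    (hγ : cv γ = none) :
    (placeOf C γ).ord (tF L h) < 0 ∧ ((placeOf C γ).ord (tF L h)).natAbs ∣ L.w := by
  have hord := ord_eq_neg_cuspW_none C hC hb hle h hcv γ hγ
  refine ⟨?_, ?_⟩
  · rw [hord]
    have : (0 : ℤ) < cuspW L γ := by exact_mod_cast cuspW_pos L γ
    omega
  · rw [hord, Int.natAbs_neg, Int.natAbs_natCast]
    exact cuspW_dvd L γ

end Tame

/-! ### The compressed expansions of `t` -/

section Compressed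

variable {L : LevelData} {D : RealizeDataK L} (C : CuspDataK L D)

/-- In a compressed shape with finite value, the exponent is the order at the cusp place. -/
theorem exponent_eq_ord_some (hC : C.Distinct) (γ : SL(2, ℤ)) (f : FFL L) (c lam : Kbar)
    (hlam : lam ≠ 0) (a : ℕ)
    (V : PowerSeries Kbar) (hV : PowerSeries.constantCoeff V = 1)
    (hE : Tc C γ f = HahnSeries.C c + HahnSeries.C lam * HahnSeries.single (a : ℤ) 1 *
      HahnSeries.ofPowerSeries ℤ Kbar V) :
    (a : ℤ) = (placeOf C γ).ord (f - algebraMap Kbar (FFL L) c) := by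
  have hT : Tc C γ (f - algebraMap Kbar (FFL L) c) =
      HahnSeries.C lam * HahnSeries.single (a : ℤ) 1 * HahnSeries.ofPowerSeries ℤ Kbar V := by
    rw [map_sub, Tc_const, hE]
    ring
  have hne : f - algebraMap Kbar (FFL L) c ≠ 0 := by
    intro h0
    rw [h0, map_zero] at hT
    exact cuspTail_ne_zero a hlam V hV hT.symm
  rw [← order_Tc C hC γ _ hne, hT, order_cuspTail a lam hlam V hV]

/-- In a compressed pole shape, the exponent is minus the order at the cusp place. -/
theorem exponent_eq_ord_none (hC : C.Distinct) (γ : SL(2, ℤ)) (f : FFL L) (lam : Kbar)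
    (hlam : lam ≠ 0) (a : ℕ)
    (V : PowerSeries Kbar) (hV : PowerSeries.constantCoeff V = 1)
    (hE : (Tc C γ f)⁻¹ = HahnSeries.C lam * HahnSeries.single (a : ℤ) 1 *
      HahnSeries.ofPowerSeries ℤ Kbar V) :
    (a : ℤ) = -(placeOf C γ).ord f := by
  have hT : Tc C γ f⁻¹ =
      HahnSeries.C lam * HahnSeries.single (a : ℤ) 1 * HahnSeries.ofPowerSeries ℤ Kbar V := by
    rw [map_inv₀, hE]
  have hne : f⁻¹ ≠ 0 := by
    intro h0
    rw [h0, map_zero] at hT
    exact cuspTail_ne_zero a hlam V hV hT.symm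
  rw [← Place.ord_inv, ← order_Tc C hC γ _ hne, hT, order_cuspTail a lam hlam V hV]

variable {n e : ℕ} [NeZero n]

/-- The compressed expansion `Tc C γ t ∈ ℚbar((s))`, `s = q^{1/w}`, has the cusp shape. -/
theorem cuspShape_Tc {cv : SL(2, ℤ) → Option Kbar} (hcv : CuspExp n e L C cv) (h : TMem n e L)
    (γ : SL(2, ℤ)) : CuspShape n (Tc C γ (tF L h)) (cv γ) := by
  obtain ⟨h', hs⟩ := hcv
  apply cuspShape_compress (cuspR L γ)
  rw [qExpand_Tc]
  exact hs γ

/-- **(L7), finite values**: the compressed expansion of `t` at a cusp with finite value `c` is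
`c + λ s^a V(s)` with `a = ord_v (t - c) > 0`, `a ∣ L.w`, `λ` a unit away from `n`, `V(0) = 1`, and
all coefficients integral away from `n`. -/
theorem shape_Tc_some (hC : C.Distinct) (hb : BaseHyp n e)
    (hle : modularFunctionFieldFull n ≤ L.F₀)
    (h : TMem n e L) {cv : SL(2, ℤ) → Option Kbar} (hcv : CuspExp n e L C cv) (γ : SL(2, ℤ))
    (c : Kbar) (hγ : cv γ = some c) :
    ∃ (a : ℕ) (lam : Kbar) (V : PowerSeries Kbar), 0 < a ∧ a ∣ L.w ∧
      (a : ℤ) = (placeOf C γ).ord (tF L h - algebraMap Kbar (FFL L) c) ∧ IsUnitAway n lam ∧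
      PowerSeries.constantCoeff V = 1 ∧ (∀ i, IsIntAway n (PowerSeries.coeff i V)) ∧
      IsIntAway n c ∧
      Tc C γ (tF L h) = HahnSeries.C c + HahnSeries.C lam * HahnSeries.single (a : ℤ) 1 *
        HahnSeries.ofPowerSeries ℤ Kbar V := by
  have hs := cuspShape_Tc C hcv h γ
  rw [hγ] at hs
  obtain ⟨a, lam, V, ha, hlam, hV, hVint, hc, hE⟩ := hs
  have hord := exponent_eq_ord_some C hC γ (tF L h) c lam hlam.1 a V hV hE
  obtain ⟨-, hdvd⟩ := tame_some C hC hb hle h hcv γ c hγ
  rw [← hord, Int.natAbs_natCast] at hdvd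
  exact ⟨a, lam, V, ha, hdvd, hord, hlam, hV, hVint, hc, hE⟩

/-- **(L7), poles**: the compressed expansion of `t⁻¹` at a cusp where `t` has a pole is
`λ s^a V(s)` with `a = -ord_v t > 0`, `a ∣ L.w`. -/
theorem shape_Tc_none (hC : C.Distinct) (hb : BaseHyp n e)
    (hle : modularFunctionFieldFull n ≤ L.F₀)
    (h : TMem n e L) {cv : SL(2, ℤ) → Option Kbar} (hcv : CuspExp n e L C cv) (γ : SL(2, ℤ))
    (hγ : cv γ = none) :
    ∃ (a : ℕ) (lam : Kbar) (V : PowerSeries Kbar), 0 < a ∧ a ∣ L.w ∧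
      (a : ℤ) = -(placeOf C γ).ord (tF L h) ∧ IsUnitAway n lam ∧
      PowerSeries.constantCoeff V = 1 ∧ (∀ i, IsIntAway n (PowerSeries.coeff i V)) ∧
      (Tc C γ (tF L h))⁻¹ = HahnSeries.C lam * HahnSeries.single (a : ℤ) 1 *
        HahnSeries.ofPowerSeries ℤ Kbar V := by
  have hs := cuspShape_Tc C hcv h γ
  rw [hγ] at hs
  obtain ⟨a, lam, V, ha, hlam, hV, hVint, hE⟩ := hs
  have hE' : (Tc C γ (tF L h))⁻¹ = HahnSeries.C lam * HahnSeries.single (a : ℤ) 1 *
      HahnSeries.ofPowerSeries ℤ Kbar V := hE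
  have hord := exponent_eq_ord_none C hC γ (tF L h) lam hlam.1 a V hV hE'
  obtain ⟨-, hdvd⟩ := tame_none C hC hb hle h hcv γ hγ
  have h2 : ((placeOf C γ).ord (tF L h)).natAbs = a := by
    have : (placeOf C γ).ord (tF L h) = -(a : ℤ) := by rw [hord, neg_neg]
    rw [this, Int.natAbs_neg, Int.natAbs_natCast]
  rw [h2] at hdvd
  exact ⟨a, lam, V, ha, hdvd, hord, hlam, hV, hVint, hE'⟩

end Compressed

end Fermat.Agent.DS.G.RED.CUSP.CuspTame11
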