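/-
DS programme (S48), GEO half, chapter G-RED, share of (C) CUSP twins (helper29).

Twin of `Fermat/Agent/RED/CUSP/RankConcrete16.lean` at a general level `L : LevelData`:
the concrete RANK bridge.  For `K ⊂ ℚ̄`, `t : FKG L.F₀ K` with `j ∈ K(t)`:

  `[K·F₀ : K(t)] = [ℚ̄·F₀ : ℚ̄(emb t)]`,   `emb = Desc.baseChangeHomG L.F₀ K`,

(`finrank_adjoin_eq`), the same for `t⁻¹` (`finrank_adjoin_inv_eq`), and
`baseChangeHomG L.F₀ K t = tF L h` for the Hauptmodul (`baseChangeHomG_eq_tF`).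

The only arithmetic input is the finiteness `hfin : relfinrank K⟮j⟯ (K·F₀) ≠ 0`
(= `ModelMain4.GaussInputsAt.relfinrank_ne_zero`); it also follows from the finiteness of
`ℚ̄·F₀ / ℚ̄(j)` (`relfinrank_jK_ne_zero`).  The degree comparison over `K(j)` is the general base
change of constants `ES/RED/LinDisjoint.relfinrank_coeffMap_eq` (instead of `= ψ(M)` twice).

The level-free lemmas (`finrank_adjoin_eq_relfinrank'`, `mem_adjoin_iff_coe`, `adjoin_inv_eq`,
`finrank_adjoin_inv`) are not copied: they are used from the original namespace.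
-/
import Fermat.Agent.RED.CUSP.RankConcrete16
import Fermat.Agent.DS.G.RED.Desc
import Fermat.Agent.DS.G.ES.RED.LinDisjoint
import Fermat.Agent.DS.G.RED.BASE.Interface12
import Fermat.Agent.DS.G.X0.FracR

set_option autoImplicit false
set_option linter.unusedSectionVars false

noncomputable section

namespace Fermat.Agent.DS.G.RED.CUSP.RankConcrete16

open Fermat.Agent.X0 (Kbar iotaK iotaK_injective)
open AlgebraicCurve ModularCurve HahnSeries
open Fermat.Agent.RED.Interface4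
open Fermat.Agent.DS.G.Level Fermat.Agent.DS.G.RED.Iface Fermat.Agent.DS.G.RED.Desc
open Fermat.Agent.DS.G.RED.BASE.Interface12
open IntermediateField

variable (L : LevelData) (K : IntermediateField ℚ Qbar)

/-- `j ∈ K·F₀`. -/
theorem jqModC_mem : jqModC K ∈ FKG L.F₀ K := by
  have h := coeffEmb_mem_laurentBaseChange (↥K) (L.gensQ_subset L.jq_mem)
  have h2 : coeffEmb (↥K) jq = jqModC K := by
    rw [coeffEmb, ← jqModC_rat, coeffMap_jqModC]
  rwa [h2] at h

/-- `j` as an element of `K·F₀`. -/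
def jK : FKG L.F₀ K := ⟨jqModC K, jqModC_mem L K⟩

@[simp] theorem coe_jK : ((jK L K : FKG L.F₀ K) : LaurentSeries K) = jqModC K := rfl

theorem coe_jFL_eq : ((jFL L : FFL L) : LaurentSeries Kbar) = jqModC Qbar := by
  show coeffEmb Kbar jq = jqModC Qbar
  rw [coeffEmb, ← jqModC_rat, coeffMap_jqModC]

theorem baseChangeHomG_jK : baseChangeHomG L.F₀ K (jK L K) = jFL L := by
  apply Subtype.ext
  rw [coe_baseChangeHomG]
  show coeffMap (algebraMap K Qbar) (jqModC K) = coeffEmb Kbar jq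
  rw [coeffMap_jqModC, coeffEmb, ← jqModC_rat, coeffMap_jqModC]

/-- `ℚ̄(j) ⊂ ℚ̄((q))` is the image of `K(j)`. -/
theorem image_singleton_jqModC :
    (⇑(coeffMap (algebraMap K Qbar)) '' {jqModC K}) = {jqModC Qbar} := by
  rw [Set.image_singleton, coeffMap_jqModC]

/-- the generators of `ℚ̄·F₀` are the images of the generators of `K·F₀`. -/
theorem image_image_coeffEmb :
    (⇑(coeffMap (algebraMap K Qbar)) '' (⇑(coeffEmb K) '' (L.F₀ : Set (LaurentSeries ℚ))))
      = ⇑(coeffEmb Qbar) '' (L.F₀ : Set (LaurentSeries ℚ)) := by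
  rw [Set.image_image]
  apply Set.image_congr
  intro x _
  rw [coeffEmb, coeffEmb, coeffMap_coeffMap]
  exact coeffMap_congr (RingHom.ext fun c => by simp) x

/-- **`[ℚ̄·F₀ : ℚ̄(j)] = [K·F₀ : K(j)]`** (base change of constants), when the latter is finite. -/
theorem relfinrank_jK_eq (hfin : relfinrank K⟮jqModC K⟯ (FKG L.F₀ K) ≠ 0) :
    relfinrank Qbar⟮jqModC Qbar⟯ (FbarG L.F₀) = relfinrank K⟮jqModC K⟯ (FKG L.F₀ K) := by
  have hTS : IntermediateField.adjoin K {jqModC K} ≤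
      IntermediateField.adjoin K (⇑(coeffEmb K) '' (L.F₀ : Set (LaurentSeries ℚ))) :=
    adjoin_simple_le_iff.mpr (jqModC_mem L K)
  have h := Fermat.Agent.DS.G.ES.RED.LinDisjoint.relfinrank_coeffMap_eq (algebraMap K Qbar)
    {jqModC K} (⇑(coeffEmb K) '' (L.F₀ : Set (LaurentSeries ℚ))) hTS hfin
  rw [image_singleton_jqModC, image_image_coeffEmb] at h
  exact h

/-- `[K·F₀ : K(j)]`, computed inside `K·F₀`, is `[ℚ̄·F₀ : ℚ̄(j)]`. -/
theorem finrank_adjoin_jK (hfin : relfinrank K⟮jqModC K⟯ (FKG L.F₀ K) ≠ 0) :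
    Module.finrank ↥(IntermediateField.adjoin K {jK L K}) ↥(FKG L.F₀ K) =
      Module.finrank Kbar⟮jFL L⟯ (FFL L) := by
  rw [Fermat.Agent.RED.CUSP.RankConcrete16.finrank_adjoin_eq_relfinrank', coe_jK,
    ← relfinrank_jK_eq L K hfin]
  have h := Fermat.Agent.RED.CUSP.RankConcrete16.finrank_adjoin_eq_relfinrank'
    (k := Qbar) (FbarG L.F₀) (jFL L)
  rw [coe_jFL_eq] at h
  exact h.symm

theorem finrank_adjoin_jK_ne_zero (hfin : relfinrank K⟮jqModC K⟯ (FKG L.F₀ K) ≠ 0) :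
    Module.finrank ↥(IntermediateField.adjoin K {jK L K}) ↥(FKG L.F₀ K) ≠ 0 := by
  rw [Fermat.Agent.RED.CUSP.RankConcrete16.finrank_adjoin_eq_relfinrank', coe_jK]
  exact hfin

/-- base change of a generator. -/
theorem baseChangeHomG_genc' (g : L.gensQ) :
    baseChangeHomG L.F₀ K (genc L K g) = genc L Qbar g := by
  apply Subtype.ext
  rw [coe_baseChangeHomG, coe_genc, coe_genc, coeffEmb, coeffEmb, coeffMap_coeffMap]
  exact coeffMap_congr (RingHom.ext fun r => by simp) _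

/-- the image of `baseChangeHomG` generates `ℚ̄·F₀` over `ℚ̄`. -/
theorem adjoin_range_baseChangeHomG :
    IntermediateField.adjoin Qbar (Set.range (baseChangeHomG L.F₀ K)) = ⊤ := by
  rw [eq_top_iff, Fermat.Agent.DS.G.X0.FracR.FFc_eq_adjoin L Qbar]
  apply IntermediateField.adjoin.mono
  rintro _ ⟨g, rfl⟩
  exact ⟨genc L K g, baseChangeHomG_genc' L K g⟩

/-- **The concrete rank bridge.** -/
theorem finrank_adjoin_eq (hfin : relfinrank K⟮jqModC K⟯ (FKG L.F₀ K) ≠ 0) (t : FKG L.F₀ K)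
    (hj : jqModC K ∈ IntermediateField.adjoin K {(t : LaurentSeries K)}) :
    Module.finrank ↥(IntermediateField.adjoin K {t}) ↥(FKG L.F₀ K) =
      Module.finrank Kbar⟮baseChangeHomG L.F₀ K t⟯ (FFL L) := by
  have hj' : jK L K ∈ IntermediateField.adjoin K {t} :=
    (Fermat.Agent.RED.CUSP.RankConcrete16.mem_adjoin_iff_coe (FKG L.F₀ K) t (jK L K)).mpr hj
  refine Fermat.Agent.RED.CUSP.DegCompare5.finrank_adjoin_simple_eq (K := ↥K) (L := Qbar)
    (baseChangeHomG L.F₀ K) (baseChangeHomG_algebraMap L.F₀ K)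
    (adjoin_range_baseChangeHomG L K) (jK L K) t hj' ?_ ?_
  · rw [finrank_adjoin_jK L K hfin, baseChangeHomG_jK]
  · exact finrank_adjoin_jK_ne_zero L K hfin

/-- the same for the coordinate `t⁻¹`. -/
theorem finrank_adjoin_inv_eq (hfin : relfinrank K⟮jqModC K⟯ (FKG L.F₀ K) ≠ 0) (t : FKG L.F₀ K)
    (hj : jqModC K ∈ IntermediateField.adjoin K {(t : LaurentSeries K)}) :
    Module.finrank ↥(IntermediateField.adjoin K {t⁻¹}) ↥(FKG L.F₀ K) =
      Module.finrank Kbar⟮baseChangeHomG L.F₀ K t⟯ (FFL L) := by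
  rw [Fermat.Agent.RED.CUSP.RankConcrete16.finrank_adjoin_inv]
  exact finrank_adjoin_eq L K hfin t hj

/-- The Hauptmodul over `K` maps to the Hauptmodul over `ℚ̄`. -/
theorem baseChangeHomG_eq_tF {n e : ℕ} [NeZero n] (h : TMem n e L) (t : FKG L.F₀ K)
    (ht : (t : LaurentSeries K) = Fermat.Agent.RED.BASE.EtaQuot12.tq K n e) :
    baseChangeHomG L.F₀ K t = tF L h := by
  apply Subtype.ext
  rw [coe_baseChangeHomG, ht]
  exact Fermat.Agent.RED.BASE.EtaQuot12.coeffMap_tq ↥K (algebraMap K Qbar) n e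

/-- `[K·F₀ : K(t)] = [ℚ̄·F₀ : ℚ̄(t)]` for the Hauptmodul (`hj` = the body of
`ModelTargets4.JTarget`). -/
theorem finrank_adjoin_tF (hfin : relfinrank K⟮jqModC K⟯ (FKG L.F₀ K) ≠ 0)
    {n e : ℕ} [NeZero n] (h : TMem n e L) (t : FKG L.F₀ K)
    (ht : (t : LaurentSeries K) = Fermat.Agent.RED.BASE.EtaQuot12.tq K n e)
    (hj : jqModC K ∈ IntermediateField.adjoin K {Fermat.Agent.RED.BASE.EtaQuot12.tq K n e}) :
    Module.finrank ↥(IntermediateField.adjoin K {t}) ↥(FKG L.F₀ K) =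
      Module.finrank Kbar⟮tF L h⟯ (FFL L) := by
  rw [← baseChangeHomG_eq_tF L K h t ht]
  exact finrank_adjoin_eq L K hfin t (by rw [ht]; exact hj)

/-- `[K·F₀ : K(t⁻¹)] = [ℚ̄·F₀ : ℚ̄(t)]` for the Hauptmodul. -/
theorem finrank_adjoin_inv_tF (hfin : relfinrank K⟮jqModC K⟯ (FKG L.F₀ K) ≠ 0)
    {n e : ℕ} [NeZero n] (h : TMem n e L) (t : FKG L.F₀ K)
    (ht : (t : LaurentSeries K) = Fermat.Agent.RED.BASE.EtaQuot12.tq K n e)
    (hj : jqModC K ∈ IntermediateField.adjoin K {Fermat.Agent.RED.BASE.EtaQuot12.tq K n e}) :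
    Module.finrank ↥(IntermediateField.adjoin K {t⁻¹}) ↥(FKG L.F₀ K) =
      Module.finrank Kbar⟮tF L h⟯ (FFL L) := by
  rw [← baseChangeHomG_eq_tF L K h t ht]
  exact finrank_adjoin_inv_eq L K hfin t (by rw [ht]; exact hj)

/-- Finiteness of `K·F₀ / K(j)` from the finiteness of `ℚ̄·F₀ / ℚ̄(j)` (linear independence over
`K(j)` survives the base change of constants). -/
theorem relfinrank_jK_ne_zero_of_relfinrank
    (hfin : relfinrank Qbar⟮jqModC Qbar⟯ (FbarG L.F₀) ≠ 0) :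
    relfinrank K⟮jqModC K⟯ (FKG L.F₀ K) ≠ 0 := by
  have hTS : IntermediateField.adjoin K {jqModC K} ≤ FKG L.F₀ K :=
    adjoin_simple_le_iff.mpr (jqModC_mem L K)
  have hTS' : IntermediateField.adjoin Qbar {jqModC Qbar} ≤ FbarG L.F₀ := by
    refine adjoin_simple_le_iff.mpr ?_
    rw [← coe_jFL_eq L]
    exact (jFL L).2
  refine Fermat.Agent.DS.G.ES.RED.LinDisjoint.relfinrank_ne_zero_of_family_bound hTS
    (relfinrank Qbar⟮jqModC Qbar⟯ (FbarG L.F₀)) fun n c hc hli => ?_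
  have hli' := Fermat.Agent.DS.G.ES.RED.LinDisjoint.linearIndependent_coeffMap
    (algebraMap K Qbar) {jqModC K} c hli
  rw [image_singleton_jqModC] at hli'
  refine Fermat.Agent.IG.PR.FamilyForm20.le_relfinrank_of_family hTS' n hfin
    (fun i => coeffMap (algebraMap K Qbar) (c i)) (fun i => ?_) hli'
  exact (baseChangeHomG L.F₀ K ⟨c i, hc i⟩).2

/-- Finiteness of `K·F₀ / K(j)` from `[ℚ̄·F₀ : ℚ̄(j)] < ∞` (e.g. `DegreeLc.finiteDimensional_adjoin`). -/
theorem relfinrank_jK_ne_zero [FiniteDimensional Kbar⟮jFL L⟯ (FFL L)] :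
    relfinrank K⟮jqModC K⟯ (FKG L.F₀ K) ≠ 0 := by
  apply relfinrank_jK_ne_zero_of_relfinrank
  have h := Fermat.Agent.RED.CUSP.RankConcrete16.finrank_adjoin_eq_relfinrank'
    (k := Qbar) (FbarG L.F₀) (jFL L)
  rw [coe_jFL_eq] at h
  rw [← h]
  exact (Module.finrank_pos (R := Kbar⟮jFL L⟯) (M := FFL L)).ne'

end Fermat.Agent.DS.G.RED.CUSP.RankConcrete16
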