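/-
DS/G (generic twins), chapter RED/CUSP (helper77).  Twin of `RED/CUSP/CuspHoriz4`, part 1:
**the horizontal bridge at the CUSP closed points** (mirror of helper29's `DS/G/PUR/OffHoriz4`).

* `hUNR_cusp_poly`, `hUNR_cusp_inv_poly` : helper29's level-free `HorizAbs.hUNR_cusp(_inv)` for the
  chart algebra `B := A[X]` itself, stated with `aeval t`;
* `hunrCusp_generic`, `hunrCuspInv_generic` : `CuspIface23.HUNRCusp O E π t c` / `… π t⁻¹ 0` for a
  discrete valuation subring `O` of a field `K`, level-free (from `HorizAbs.SimpleOff`);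
* `hH_over`, `hH_inf` : at an abstract level `L : LevelData`, for `E_K := laurentBaseChange K L.F₀`
  over all large number fields (inputs: `PlaceInputs C`, the BASE Props `TIsGen`, `Unbranched`,
  `CuspExp` at `L`, `CuspSeparated`).
-/
import Mathlib
import Fermat.Agent.DS.G.PUR.HorizAbs
import Fermat.Agent.DS.G.PUR.HorizUnram20
import Fermat.Agent.DS.G.PUR.OffHoriz4
import Fermat.Agent.RED.CUSP.CuspHoriz4
import Fermat.Agent.DS.G.RED.ModelTargets4

set_option autoImplicit false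
set_option linter.unusedSectionVars false
set_option linter.unusedVariables false
set_option linter.style.haveILetI false

open ModularCurve IntermediateField AlgebraicCurve
open scoped MatrixGroups
open Polynomial

noncomputable section

namespace Fermat.Agent.DS.G.RED.CUSP.CuspHoriz4

open Fermat.Agent.X0 Fermat.Agent.X0.FF
open Fermat.Agent.RED.BASE.EtaQuot12
open Fermat.Agent.RED.CUSP.CuspIface23 Fermat.Agent.RED.CUSP.PolyToPS16
open Fermat.Agent.RED.PUR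
open Fermat.Agent.DS.G.PUR.HorizAbs

section Abstract

variable {Lb Fb : Type*} [Field Lb] [IsAlgClosed Lb] [Field Fb] [Algebra Lb Fb]
variable {ι : Type*} (cv : ι → Option Lb)
variable {A K F : Type*} [CommRing A] [IsDomain A] [Field K] [CharZero K] [Field F]
  [Algebra A K] [IsFractionRing A K] [Algebra K F] [Algebra A F] [IsScalarTower A K F]
  [Algebra K Lb] [Algebra A Lb] [IsScalarTower A K Lb] [Algebra.IsAlgebraic K Lb]

/-- `HorizAbs.hUNR_cusp` for `B := A[X]`, in `aeval t` form. -/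
theorem hUNR_cusp_poly {x : Fb} (hx : FF.IsGen Lb x) {T : Fb} (hsimple : SimpleOff cv T)
    (hconst : ∀ c : Lb, T ≠ algebraMap Lb Fb c)
    (hcvA : ∀ γ c, cv γ = some c → ∃ a : A, algebraMap A Lb a = c)
    (bc : F →+* Fb)
    (hbc : ∀ a : K, bc (algebraMap K F a) = algebraMap Lb Fb (algebraMap K Lb a))
    (t : F) (ht : bc t = T)
    (hExt : ∀ w : Place K F, ∃ (v : Place Lb Fb) (d : ℕ), 0 < d ∧
      ∀ f : F, v.ord (bc f) = (d : ℤ) * w.ord f)
    (π : A) (hπ0 : algebraMap A F π ≠ 0)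
    (hK : ∀ a : K, ∃ (r : A) (k : ℕ), algebraMap K F a * algebraMap A F π ^ k = algebraMap A F r)
    (P : Ideal A[X]) (a₀ : A)
    (hP : ∀ a : A, (∃ γ, cv γ = some (algebraMap A Lb a)) → a = a₀ ∨ (X - C a : A[X]) ∉ P) :
    ∀ O : ValuationSubring F, (∀ z : A[X], aeval t z ∈ O) → IsDiscreteValuationRing O →
      (algebraMap A F π)⁻¹ ∈ O →
      (t - algebraMap A F a₀)⁻¹ ∈ O →
      (∀ r : A[X], r ∉ P → (aeval t r)⁻¹ ∈ O) →
      ∃ g0 : A[X], (aeval t g0)⁻¹ ∉ O ∧ ∀ y ∈ O, y⁻¹ ∉ O → y / aeval t g0 ∈ O := by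
  intro O hB hdvr hπ hq hcen
  letI : Algebra A[X] F := (aeval t : A[X] →ₐ[A] F).toRingHom.toAlgebra
  have hX : ∀ p : A[X], algebraMap A[X] F (algebraMap A[X] A[X] p) = aeval t p := fun p => rfl
  exact hUNR_cusp (B := A[X]) cv hx hsimple hconst hcvA bc hbc t ht hExt
    hX π hπ0 hK P a₀ hP O (fun z => hB z) hdvr
    (by
      show (aeval t (C π))⁻¹ ∈ O
      rw [aeval_C]; exact hπ)
    (by
      show (aeval t (X - C a₀))⁻¹ ∈ O
      rw [map_sub, aeval_X, aeval_C]; exact hq)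
    (fun r hr => hcen r hr)

/-- `HorizAbs.hUNR_cusp_inv` for `B := A[X]`, in `aeval s` form. -/
theorem hUNR_cusp_inv_poly {x : Fb} (hx : FF.IsGen Lb x) {T : Fb} (hsimple : SimpleOff cv T)
    (hconst : ∀ c : Lb, T ≠ algebraMap Lb Fb c)
    (hcvA : ∀ γ c, cv γ = some c → ∃ a : A, algebraMap A Lb a = c)
    (bc : F →+* Fb)
    (hbc : ∀ a : K, bc (algebraMap K F a) = algebraMap Lb Fb (algebraMap K Lb a))
    (s : F) (hs : bc s = T⁻¹)
    (hExt : ∀ w : Place K F, ∃ (v : Place Lb Fb) (d : ℕ), 0 < d ∧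
      ∀ f : F, v.ord (bc f) = (d : ℤ) * w.ord f)
    (π : A) (hπ0 : algebraMap A F π ≠ 0)
    (hK : ∀ a : K, ∃ (r : A) (k : ℕ), algebraMap K F a * algebraMap A F π ^ k = algebraMap A F r)
    (P : Ideal A[X])
    (hP : ∀ a : A, (∃ γ, cv γ = some (algebraMap A Lb a)) → (C a * X - 1 : A[X]) ∉ P) :
    ∀ O : ValuationSubring F, (∀ z : A[X], aeval s z ∈ O) → IsDiscreteValuationRing O →
      (algebraMap A F π)⁻¹ ∈ O →
      s⁻¹ ∈ O →
      (∀ r : A[X], r ∉ P → (aeval s r)⁻¹ ∈ O) →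
      ∃ g0 : A[X], (aeval s g0)⁻¹ ∉ O ∧ ∀ y ∈ O, y⁻¹ ∉ O → y / aeval s g0 ∈ O := by
  intro O hB hdvr hπ hq hcen
  letI : Algebra A[X] F := (aeval s : A[X] →ₐ[A] F).toRingHom.toAlgebra
  have hX : ∀ p : A[X], algebraMap A[X] F (algebraMap A[X] A[X] p) = aeval s p := fun p => rfl
  exact hUNR_cusp_inv (B := A[X]) cv hx hsimple hconst hcvA bc hbc s hs hExt
    hX π hπ0 hK P hP O (fun z => hB z) hdvr
    (by
      show (aeval s (C π))⁻¹ ∈ O
      rw [aeval_C]; exact hπ)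
    (by
      show (aeval s (X : A[X]))⁻¹ ∈ O
      rw [aeval_X]; exact hq)
    (fun r hr => hcen r hr)

end Abstract

section Generic

open Fermat.Agent.RED.CUSP.CuspHoriz4 (exists_mul_pow_mem)

variable {Lb Fb : Type*} [Field Lb] [IsAlgClosed Lb] [Field Fb] [Algebra Lb Fb]
variable {ι : Type*} (cv : ι → Option Lb)

/-- **The horizontal bridge at the cusp point `(π, t - c)`, generic `(O, E)`, level-free.** -/
theorem hunrCusp_generic {x : Fb} (hx : FF.IsGen Lb x) {T : Fb} (hsimple : SimpleOff cv T)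
    (hconst : ∀ c : Lb, T ≠ algebraMap Lb Fb c)
    {K : Type*} [Field K] [CharZero K] [Algebra K Lb] [Algebra.IsAlgebraic K Lb]
    (O : ValuationSubring K) [IsDiscreteValuationRing ↥O]
    (E : IntermediateField K (LaurentSeries K))
    (hcvA : ∀ γ c, cv γ = some c → ∃ a : ↥O, algebraMap K Lb (a : K) = c)
    (bc : ↥E →+* Fb)
    (hbc : ∀ a : K, bc (algebraMap K ↥E a) = algebraMap Lb Fb (algebraMap K Lb a))
    (t : ↥E) (ht : bc t = T)
    (hExt : ∀ w : Place K ↥E, ∃ (v : Place Lb Fb) (d : ℕ), 0 < d ∧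
      ∀ f : ↥E, v.ord (bc f) = (d : ℤ) * w.ord f)
    {π : ↥O} (hπ : Irreducible π) (c : ↥O)
    (hsep : ∀ a : ↥O, (∃ γ, cv γ = some (algebraMap K Lb (a : K))) → a = c ∨ IsUnit (c - a)) :
    HUNRCusp O E π t c := by
  intro O' hint hdvr hπO hq hcen
  letI : Algebra ↥O Lb := ((algebraMap K Lb).comp O.subtype).toAlgebra
  haveI : IsScalarTower ↥O K Lb := IsScalarTower.of_algebraMap_eq fun _ => rfl
  haveI : IsScalarTower ↥O K ↥E := Fermat.Agent.RED.NumInst4.isScalarTower_OE O E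
  have hinjE : Function.Injective (algebraMap ↥O ↥E) := by
    rw [IsScalarTower.algebraMap_eq ↥O K ↥E]
    exact (algebraMap K ↥E).injective.comp Subtype.val_injective
  refine hUNR_cusp_poly cv hx hsimple hconst (A := ↥O) (K := K) (F := ↥E)
    (fun γ c' hγ => ?_) bc hbc t ht hExt π ?_ (fun a => ?_) (cuspIdeal π c) c (fun a ha => ?_)
    O' (fun z => ?_) hdvr hπO hq hcen
  · obtain ⟨a, ha⟩ := hcvA γ c' hγ
    exact ⟨a, ha⟩
  · exact fun h0 => hπ.ne_zero (hinjE (by rw [h0, map_zero]))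
  · obtain ⟨r, k, hrk⟩ := exists_mul_pow_mem O hπ a
    refine ⟨r, k, ?_⟩
    rw [IsScalarTower.algebraMap_apply ↥O K ↥E, IsScalarTower.algebraMap_apply ↥O K ↥E,
      ← map_pow, ← map_mul]
    exact congrArg (algebraMap K ↥E) hrk
  · obtain ⟨γ, hγ⟩ := ha
    rcases hsep a ⟨γ, hγ⟩ with hac | hu
    · exact Or.inl hac
    · refine Or.inr fun hmem => ?_
      rw [mem_cuspIdeal_iff, eval_sub, eval_X, eval_C] at hmem
      obtain ⟨d, hd⟩ := Ideal.mem_span_singleton.mp hmem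
      exact hπ.not_isUnit (isUnit_of_dvd_unit ⟨d, hd⟩ hu)
  · apply hint
    have hmem : aeval t z ∈ Algebra.adjoin ↥O {t} := by
      rw [Algebra.adjoin_singleton_eq_range_aeval]
      exact ⟨z, rfl⟩
    exact isIntegral_algebraMap (R := ↥(Algebra.adjoin ↥O {t})) (A := ↥E) (x := ⟨_, hmem⟩)

/-- **The horizontal bridge at the cusp point `(π, t⁻¹)` of the chart `t⁻¹`, generic `(O, E)`,
level-free.** -/
theorem hunrCuspInv_generic {x : Fb} (hx : FF.IsGen Lb x) {T : Fb} (hsimple : SimpleOff cv T)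
    (hconst : ∀ c : Lb, T ≠ algebraMap Lb Fb c)
    {K : Type*} [Field K] [CharZero K] [Algebra K Lb] [Algebra.IsAlgebraic K Lb]
    (O : ValuationSubring K) [IsDiscreteValuationRing ↥O]
    (E : IntermediateField K (LaurentSeries K))
    (hcvA : ∀ γ c, cv γ = some c → ∃ a : ↥O, algebraMap K Lb (a : K) = c)
    (bc : ↥E →+* Fb)
    (hbc : ∀ a : K, bc (algebraMap K ↥E a) = algebraMap Lb Fb (algebraMap K Lb a))
    (t : ↥E) (ht : bc t = T)
    (hExt : ∀ w : Place K ↥E, ∃ (v : Place Lb Fb) (d : ℕ), 0 < d ∧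
      ∀ f : ↥E, v.ord (bc f) = (d : ℤ) * w.ord f)
    {π : ↥O} (hπ : Irreducible π) :
    HUNRCusp O E π t⁻¹ 0 := by
  intro O' hint hdvr hπO hq hcen
  letI : Algebra ↥O Lb := ((algebraMap K Lb).comp O.subtype).toAlgebra
  haveI : IsScalarTower ↥O K Lb := IsScalarTower.of_algebraMap_eq fun _ => rfl
  haveI : IsScalarTower ↥O K ↥E := Fermat.Agent.RED.NumInst4.isScalarTower_OE O E
  have hinjE : Function.Injective (algebraMap ↥O ↥E) := by
    rw [IsScalarTower.algebraMap_eq ↥O K ↥E]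
    exact (algebraMap K ↥E).injective.comp Subtype.val_injective
  have hs : bc t⁻¹ = T⁻¹ := by rw [map_inv₀, ht]
  have hq' : (t⁻¹ : ↥E)⁻¹ ∈ O' := by
    have := hq
    rwa [map_zero, sub_zero] at this
  refine hUNR_cusp_inv_poly cv hx hsimple hconst (A := ↥O) (K := K) (F := ↥E)
    (fun γ c' hγ => ?_) bc hbc t⁻¹ hs hExt π ?_ (fun a => ?_) (cuspIdeal π 0) (fun a ha hmem => ?_)
    O' (fun z => ?_) hdvr hπO hq' hcen
  · obtain ⟨a, ha⟩ := hcvA γ c' hγ
    exact ⟨a, ha⟩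
  · exact fun h0 => hπ.ne_zero (hinjE (by rw [h0, map_zero]))
  · obtain ⟨r, k, hrk⟩ := exists_mul_pow_mem O hπ a
    refine ⟨r, k, ?_⟩
    rw [IsScalarTower.algebraMap_apply ↥O K ↥E, IsScalarTower.algebraMap_apply ↥O K ↥E,
      ← map_pow, ← map_mul]
    exact congrArg (algebraMap K ↥E) hrk
  · rw [mem_cuspIdeal_iff, eval_sub, eval_mul, eval_X, eval_C, eval_one, mul_zero, zero_sub] at hmem
    obtain ⟨d, hd⟩ := Ideal.mem_span_singleton.mp hmem
    exact hπ.not_isUnit (isUnit_of_dvd_unit ⟨d, hd⟩ (isUnit_one.neg))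
  · apply hint
    have hmem : aeval (t⁻¹ : ↥E) z ∈ Algebra.adjoin ↥O {(t⁻¹ : ↥E)} := by
      rw [Algebra.adjoin_singleton_eq_range_aeval]
      exact ⟨z, rfl⟩
    exact isIntegral_algebraMap (R := ↥(Algebra.adjoin ↥O {(t⁻¹ : ↥E)})) (A := ↥E) (x := ⟨_, hmem⟩)

end Generic

section Concrete

open Fermat.Agent.RED.Interface4 (Qbar AK)
open Fermat.Agent.RED.ModelTargets4 (cuspSet)
open Fermat.Agent.RED.NumInst4
  Fermat.Agent.RED.DESC.NumberFieldDVR27 Fermat.Agent.RED.DESC.PlaceExtend27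
open Fermat.Agent.DS.G.Level
open Fermat.Agent.DS.G.RED.BASE.Interface12
open Fermat.Agent.RED.BASE.Interface12 (CuspShape CuspSeparated IsIntAway IsUnitAway)
open Fermat.Agent.DS.G.PUR.HorizUnram20 (PlaceInputs)
open Fermat.Agent.DS.G.PUR.OffHoriz4 (bcHom bcHom_algebraMap exists_place_above coe_bcHom_of_tq
  exists_finset_cuspValues)
open Fermat.Agent.DS.G.RED.ModelTargets4

variable {n e : ℕ} [NeZero n] {L : LevelData} {D : RealizeDataK L} {C : CuspDataK L D}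
  {A : ValuationSubring Qbar}

/-- the finite cusp values lie in `A ∩ K` for `K` large. -/
theorem exists_cvA (cv : SL(2, ℤ) → Option Kbar) (hC : CuspExp n e L C cv)
    {ℓ : ℕ} [Fact ℓ.Prime] (hℓn : ¬ ℓ ∣ n) (hA : A.LiesOverPrime ℓ) :
    ∃ K₀ : IntermediateField ℚ Qbar, FiniteDimensional ℚ K₀ ∧
      ∀ K : IntermediateField ℚ Qbar, K₀ ≤ K →
        ∀ γ c, cv γ = some c → ∃ a : ↥(AK A K), algebraMap ↥K Kbar (a : ↥K) = c := by
  classical
  have hℓ : ℓ.Prime := Fact.out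
  obtain ⟨S, hS⟩ := exists_finset_cuspValues cv hC
  obtain ⟨K₀, hK₀, -, hSK⟩ := exists_numberField (⊥ : IntermediateField ℚ Qbar) S
  refine ⟨K₀, hK₀, fun K hle γ c hγ => ?_⟩
  obtain ⟨h, hC'⟩ := hC
  have hnA : ((n : Kbar))⁻¹ ∈ A := inv_natCast_mem hℓ hA n hℓn
  have hcK : c ∈ K := hle (hSK c (hS γ c hγ))
  have hshape := hC' γ
  rw [hγ] at hshape
  obtain ⟨a, lam, V, -, -, -, -, hcint, -⟩ := hshape
  have hcA : c ∈ A := hcint.mem_of_inv_mem A hnA (NeZero.ne n)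
  exact ⟨⟨⟨c, hcK⟩, hcA⟩, rfl⟩

/-- **The horizontal bridge at the cusp points over the finite cusp values, level `L`.** -/
theorem hH_over (hI : PlaceInputs C) (cv : SL(2, ℤ) → Option Kbar)
    (hgen : TIsGen n e L) (hU : Unbranched n e L) (hC : CuspExp n e L C cv)
    (hsepcv : CuspSeparated n cv)
    {ℓ : ℕ} [Fact ℓ.Prime] (hℓn : ¬ ℓ ∣ n) (hA : A.LiesOverPrime ℓ) :
    EventuallyT L.F₀ n e A fun K ϖ t =>
      ∀ c ∈ cuspSet A K cv, HUNRCusp (AK A K) (FK L.F₀ K) ϖ t c := by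
  classical
  have hℓ : ℓ.Prime := Fact.out
  obtain ⟨K₀, hK₀, hcvA⟩ := exists_cvA cv hC hℓn hA
  refine ⟨K₀, hK₀, fun K hKfd hle ϖ hϖ t htq c hc => ?_⟩
  have hdvr : IsDiscreteValuationRing ↥(AK A K) := isDiscreteValuationRing_AK A K hℓ.ne_zero hA
  haveI halg : Algebra.IsAlgebraic ↥K Kbar := isAlgebraic_Qbar_over K
  have hsimple := Fermat.Agent.DS.G.PUR.HorizUnram20.simpleOff n e cv hI hU hC
  obtain ⟨h, hC'⟩ := hC
  obtain ⟨h'', hgen'⟩ := hgen
  have hconst : ∀ c : Kbar, tF L h ≠ algebraMap Kbar (FFL L) c := fun c h0 =>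
    hgen'.sub_algebraMap_ne_zero c (sub_eq_zero.mpr h0)
  have hnA : ((n : Kbar))⁻¹ ∈ A := inv_natCast_mem hℓ hA n hℓn
  obtain ⟨γ₀, hγ₀⟩ := hc
  have hsep : ∀ a : ↥(AK A K), (∃ γ, cv γ = some (algebraMap ↥K Kbar (a : ↥K))) →
      a = c ∨ IsUnit (c - a) := by
    rintro a ⟨γ, hγ⟩
    rcases hsepcv γ₀ γ _ _ hγ₀ hγ with heq | hunit
    · left
      have h1 : ((c : ↥(AK A K)) : ↥K) = ((a : ↥(AK A K)) : ↥K) :=
        (algebraMap ↥K Kbar).injective heq
      exact (Subtype.ext h1).symm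
    · right
      obtain ⟨hx, hxinv⟩ := hunit.inv_mem_of_inv_mem A hnA (NeZero.ne n)
      have hne : (((c - a : ↥(AK A K)) : ↥(AK A K)) : ↥K) ≠ 0 := by
        intro h0
        apply hunit.1
        have h1 : ((c : ↥(AK A K)) : ↥K) - ((a : ↥(AK A K)) : ↥K) = 0 := h0
        rw [← map_sub, h1, map_zero]
      have hmem : ((((c - a : ↥(AK A K)) : ↥(AK A K)) : ↥K))⁻¹ ∈ AK A K := by
        show algebraMap ↥K Qbar ((((c - a : ↥(AK A K)) : ↥(AK A K)) : ↥K))⁻¹ ∈ A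
        rw [map_inv₀]
        have h1 : algebraMap ↥K Qbar (((c - a : ↥(AK A K)) : ↥(AK A K)) : ↥K) =
            algebraMap ↥K Kbar ((c : ↥(AK A K)) : ↥K) - algebraMap ↥K Kbar ((a : ↥(AK A K)) : ↥K) := by
          rw [← map_sub]; rfl
        rw [h1]
        exact hxinv
      exact isUnit_iff_exists_inv.mpr ⟨⟨_, hmem⟩, Subtype.ext (mul_inv_cancel₀ hne)⟩
  exact hunrCusp_generic cv hI.isGen (hsimple h) hconst (AK A K) (FK L.F₀ K) (hcvA K hle)
    (bcHom L.F₀ K) (bcHom_algebraMap L.F₀ K) t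
    (Subtype.ext (coe_bcHom_of_tq L.F₀ K t htq))
    (exists_place_above L.F₀ K hI.isGen) hϖ c hsep

/-- **The horizontal bridge at the cusp points `t⁻¹ = 0`, level `L`.** -/
theorem hH_inf (hI : PlaceInputs C) (cv : SL(2, ℤ) → Option Kbar)
    (hgen : TIsGen n e L) (hU : Unbranched n e L) (hC : CuspExp n e L C cv)
    {ℓ : ℕ} [Fact ℓ.Prime] (hℓn : ¬ ℓ ∣ n) (hA : A.LiesOverPrime ℓ) :
    EventuallyT L.F₀ n e A fun K ϖ t => HUNRCusp (AK A K) (FK L.F₀ K) ϖ t⁻¹ 0 := by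
  classical
  have hℓ : ℓ.Prime := Fact.out
  obtain ⟨K₀, hK₀, hcvA⟩ := exists_cvA cv hC hℓn hA
  refine ⟨K₀, hK₀, fun K hKfd hle ϖ hϖ t htq => ?_⟩
  have hdvr : IsDiscreteValuationRing ↥(AK A K) := isDiscreteValuationRing_AK A K hℓ.ne_zero hA
  haveI halg : Algebra.IsAlgebraic ↥K Kbar := isAlgebraic_Qbar_over K
  have hsimple := Fermat.Agent.DS.G.PUR.HorizUnram20.simpleOff n e cv hI hU hC
  obtain ⟨h, hC'⟩ := hC
  obtain ⟨h'', hgen'⟩ := hgen
  have hconst : ∀ c : Kbar, tF L h ≠ algebraMap Kbar (FFL L) c := fun c h0 =>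
    hgen'.sub_algebraMap_ne_zero c (sub_eq_zero.mpr h0)
  exact hunrCuspInv_generic cv hI.isGen (hsimple h) hconst (AK A K) (FK L.F₀ K) (hcvA K hle)
    (bcHom L.F₀ K) (bcHom_algebraMap L.F₀ K) t
    (Subtype.ext (coe_bcHom_of_tq L.F₀ K t htq))
    (exists_place_above L.F₀ K hI.isGen) hϖ

end Concrete

end Fermat.Agent.DS.G.RED.CUSP.CuspHoriz4
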