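/-
DS/G (generic twins), chapter RED/CUSP (helper77).  Twin of the `Main` section of
`RED/CUSP/CuspConcrete23`, for an ARBITRARY rational field `F₀`:

  `overTarget_of_hunr : OverTarget F₀ n e A cv`,   `infTarget_of_hunr : InfTarget F₀ n e A`

from the arithmetic inputs `GaussInputs F₀ A` (chapter IGU), `TTarget F₀ n e`, `JTarget n e`, the
cusp families (`CuspIface23.HasCuspFamily`, with rank sum `[K·F₀ : K(t)]`; helper80's
`CuspFamilyAbs80` + rank bridge) and the horizontal bridge at the cusp points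
(`CuspIface23.HUNRCusp`; `DS/G/RED/CUSP/CuspHoriz4`).  All cusp-specific geometry is inside the two
hypotheses `hfam`, `hH`; this file is the generic `smoothOver_of_family` plumbing.
-/
import Mathlib
import Fermat.Agent.DS.G.RED.ModelMain4
import Fermat.Agent.RED.CUSP.CuspIface23
import Fermat.Agent.RED.CUSP.RankConcrete16
import Fermat.Agent.RED.PUR.TqOrder26
import Fermat.Agent.RED.PUR.GaussInv8

set_option autoImplicit false
set_option linter.unusedSectionVars false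
set_option linter.unusedVariables false
set_option linter.style.haveILetI false

open HahnSeries ModularCurve IntermediateField
open scoped MatrixGroups

noncomputable section

namespace Fermat.Agent.DS.G.RED.CUSP.CuspMain77

open Fermat.Agent.RED.Interface4 (Qbar AK)
open Fermat.Agent.RED.PUR.GaussGen8 Fermat.Agent.RED.PUR.KtGauss8
  Fermat.Agent.RED.PUR.G1Package8 Fermat.Agent.RED.ModelIface4
  Fermat.Agent.RED.BASE.EtaQuot12 Fermat.Agent.X0 Fermat.Agent.RED.NumInst4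
  Fermat.Agent.RED.DESC.NumberFieldDVR27 Fermat.Agent.RED.CUSP.CuspIface23
open Fermat.Agent.RED.ModelTargets4 (cuspSet JTarget tq_mem_gaussRing transcendental_gaussRed_tq)
open Fermat.Agent.DS.G.RED.ModelTargets4 Fermat.Agent.DS.G.RED.ModelMain4

variable {F₀ : IntermediateField ℚ (LaurentSeries ℚ)} {A : ValuationSubring Qbar}
  {n e : ℕ} [NeZero n]

/-- **CUSP at the finite cusp values**, generic `F₀`, given the cusp families and the horizontal
bridge at the cusp points. -/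
theorem overTarget_of_hunr {ℓ : ℕ} [Fact ℓ.Prime] (hA : A.LiesOverPrime ℓ)
    (hG : GaussInputs F₀ A) (hT : TTarget F₀ n e) (hJ : JTarget n e)
    (cv : SL(2, ℤ) → Option Kbar)
    (hfam : EventuallyT F₀ n e A fun K ϖ t =>
      ∀ c ∈ cuspSet A K cv,
        HasCuspFamily (AK A K) (FK F₀ K) t c (Module.finrank ↥(↥K)⟮t⟯ ↥(FK F₀ K)))
    (hH : EventuallyT F₀ n e A fun K ϖ t =>
      ∀ c ∈ cuspSet A K cv, HUNRCusp (AK A K) (FK F₀ K) ϖ t c) :
    OverTarget F₀ n e A cv := by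
  have hℓ : ℓ.Prime := Fact.out
  obtain ⟨K₁, hK₁, hT⟩ := hT
  obtain ⟨K₂, hK₂, hJ⟩ := hJ
  obtain ⟨K₃, hK₃, hfam⟩ := hfam
  obtain ⟨K₄, hK₄, hH⟩ := hH
  obtain ⟨K₅, hK₅, hG⟩ := hG
  refine ⟨K₁ ⊔ K₂ ⊔ K₃ ⊔ K₄ ⊔ K₅, inferInstance, fun K hKfd hle ϖ hϖ t htq c hc => ?_⟩
  have hle1 : K₁ ≤ K := le_trans (le_trans (le_trans (le_trans le_sup_left le_sup_left)
    le_sup_left) le_sup_left) hle
  have hle2 : K₂ ≤ K := le_trans (le_trans (le_trans (le_trans le_sup_right le_sup_left)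
    le_sup_left) le_sup_left) hle
  have hle3 : K₃ ≤ K := le_trans (le_trans (le_trans le_sup_right le_sup_left) le_sup_left) hle
  have hle4 : K₄ ≤ K := le_trans (le_trans le_sup_right le_sup_left) hle
  have hle5 : K₅ ≤ K := le_trans le_sup_right hle
  have hG := hG K hKfd hle5
  have hdvr : IsDiscreteValuationRing ↥(AK A K) := isDiscreteValuationRing_AK A K hℓ.ne_zero hA
  have hchar : CharP (Res (AK A K)) ℓ := charP_residueField_AK A K hℓ hA
  have hfinres : Finite (Res (AK A K)) := finite_residueField_AK A K hℓ.ne_zero hA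
  have hE : FK F₀ K ≤ fracField (AK A K) := hG.le_fracField
  have ht : ((t : ↥(FK F₀ K)) : LaurentSeries K) ∈ gaussRing (AK A K) := by
    rw [htq]; exact tq_mem_gaussRing (AK A K) n e
  have htr : Transcendental (Res (AK A K))
      (gaussRed (AK A K) ⟨((t : ↥(FK F₀ K)) : LaurentSeries K), ht⟩) := by
    have h1 : (⟨((t : ↥(FK F₀ K)) : LaurentSeries K), ht⟩ : gaussRing (AK A K)) =
        ⟨tq K n e, tq_mem_gaussRing (AK A K) n e⟩ := Subtype.ext htq
    rw [h1]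
    exact transcendental_gaussRed_tq (AK A K) n e
  have hjt : jqModC K ∈ Kt (AK A K) ⟨((t : ↥(FK F₀ K)) : LaurentSeries K), ht⟩ := by
    show jqModC K ∈ IntermediateField.adjoin K {((t : ↥(FK F₀ K)) : LaurentSeries K)}
    rw [htq]
    exact hJ K hKfd hle2
  have htE' : ((t : ↥(FK F₀ K)) : LaurentSeries K) ∈ FK F₀ K := t.2
  obtain ⟨nn, -, hdeg, hirr⟩ := hG.degLe_irr
    ⟨((t : ↥(FK F₀ K)) : LaurentSeries K), ht⟩ htE' hjt htr
  have hn : relfinrank (Kt (AK A K) ⟨((t : ↥(FK F₀ K)) : LaurentSeries K), ht⟩) (FK F₀ K) ≠ 0 :=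
    relfinrank_ne_zero hG _ htE' hjt
  have hfd : FiniteDimensional ↥(IntermediateField.adjoin K {t}) ↥(FK F₀ K) :=
    Fermat.Agent.RED.ModelAsm4.finiteDimensional_adjoin t hn
  have htrK : Transcendental K t :=
    Fermat.Agent.RED.ModelAsm4.transcendental_of_coe t
      (transcendental_t (tG := ⟨((t : ↥(FK F₀ K)) : LaurentSeries K), ht⟩) hϖ htr)
  have hord := Fermat.Agent.RED.PUR.TqOrder26.isCoprime_order_gaussRed (AK A K) n e t ht htq (ℓ : ℤ)
  exact smoothOver_of_family hϖ hE t ht htr hdeg hirr ℓ hord htrK c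
    (hfam K hKfd hle3 ϖ hϖ t htq c hc) (hH K hKfd hle4 ϖ hϖ t htq c hc)

/-- **CUSP at infinity**, generic `F₀`, given the cusp family over the poles of `t` (coordinate
`t⁻¹`, value `0`) and the horizontal bridge at the points `t⁻¹ = 0`. -/
theorem infTarget_of_hunr {ℓ : ℕ} [Fact ℓ.Prime] (hA : A.LiesOverPrime ℓ)
    (hG : GaussInputs F₀ A) (hT : TTarget F₀ n e) (hJ : JTarget n e)
    (hfam : EventuallyT F₀ n e A fun K ϖ t =>
      HasCuspFamily (AK A K) (FK F₀ K) t⁻¹ 0 (Module.finrank ↥(↥K)⟮t⁻¹⟯ ↥(FK F₀ K)))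
    (hH : EventuallyT F₀ n e A fun K ϖ t => HUNRCusp (AK A K) (FK F₀ K) ϖ t⁻¹ 0) :
    InfTarget F₀ n e A := by
  have hℓ : ℓ.Prime := Fact.out
  obtain ⟨K₁, hK₁, hT⟩ := hT
  obtain ⟨K₂, hK₂, hJ⟩ := hJ
  obtain ⟨K₃, hK₃, hfam⟩ := hfam
  obtain ⟨K₄, hK₄, hH⟩ := hH
  obtain ⟨K₅, hK₅, hG⟩ := hG
  refine ⟨K₁ ⊔ K₂ ⊔ K₃ ⊔ K₄ ⊔ K₅, inferInstance, fun K hKfd hle ϖ hϖ t htq => ?_⟩
  have hle1 : K₁ ≤ K := le_trans (le_trans (le_trans (le_trans le_sup_left le_sup_left)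
    le_sup_left) le_sup_left) hle
  have hle2 : K₂ ≤ K := le_trans (le_trans (le_trans (le_trans le_sup_right le_sup_left)
    le_sup_left) le_sup_left) hle
  have hle3 : K₃ ≤ K := le_trans (le_trans (le_trans le_sup_right le_sup_left) le_sup_left) hle
  have hle4 : K₄ ≤ K := le_trans (le_trans le_sup_right le_sup_left) hle
  have hle5 : K₅ ≤ K := le_trans le_sup_right hle
  have hG := hG K hKfd hle5
  have hdvr : IsDiscreteValuationRing ↥(AK A K) := isDiscreteValuationRing_AK A K hℓ.ne_zero hA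
  have hchar : CharP (Res (AK A K)) ℓ := charP_residueField_AK A K hℓ hA
  have hfinres : Finite (Res (AK A K)) := finite_residueField_AK A K hℓ.ne_zero hA
  have hE : FK F₀ K ≤ fracField (AK A K) := hG.le_fracField
  have ht : ((t : ↥(FK F₀ K)) : LaurentSeries K) ∈ gaussRing (AK A K) := by
    rw [htq]; exact tq_mem_gaussRing (AK A K) n e
  have htr : Transcendental (Res (AK A K))
      (gaussRed (AK A K) ⟨((t : ↥(FK F₀ K)) : LaurentSeries K), ht⟩) := by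
    have h1 : (⟨((t : ↥(FK F₀ K)) : LaurentSeries K), ht⟩ : gaussRing (AK A K)) =
        ⟨tq K n e, tq_mem_gaussRing (AK A K) n e⟩ := Subtype.ext htq
    rw [h1]
    exact transcendental_gaussRed_tq (AK A K) n e
  have hjt : jqModC K ∈ Kt (AK A K) ⟨((t : ↥(FK F₀ K)) : LaurentSeries K), ht⟩ := by
    show jqModC K ∈ IntermediateField.adjoin K {((t : ↥(FK F₀ K)) : LaurentSeries K)}
    rw [htq]
    exact hJ K hKfd hle2
  have htE' : ((t : ↥(FK F₀ K)) : LaurentSeries K) ∈ FK F₀ K := t.2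
  obtain ⟨nn, -, hdeg, hirr⟩ := hG.degLe_irr
    ⟨((t : ↥(FK F₀ K)) : LaurentSeries K), ht⟩ htE' hjt htr
  have hn : relfinrank (Kt (AK A K) ⟨((t : ↥(FK F₀ K)) : LaurentSeries K), ht⟩) (FK F₀ K) ≠ 0 :=
    relfinrank_ne_zero hG _ htE' hjt
  have hfd : FiniteDimensional ↥(IntermediateField.adjoin K {t}) ↥(FK F₀ K) :=
    Fermat.Agent.RED.ModelAsm4.finiteDimensional_adjoin t hn
  have htrK : Transcendental K t :=
    Fermat.Agent.RED.ModelAsm4.transcendental_of_coe t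
      (transcendental_t (tG := ⟨((t : ↥(FK F₀ K)) : LaurentSeries K), ht⟩) hϖ htr)
  -- the inverse coordinate
  have hcoe : (((t⁻¹ : ↥(FK F₀ K)) : ↥(FK F₀ K)) : LaurentSeries K) =
      ((t : ↥(FK F₀ K)) : LaurentSeries K)⁻¹ := rfl
  have hs : (((t⁻¹ : ↥(FK F₀ K)) : ↥(FK F₀ K)) : LaurentSeries K) ∈ gaussRing (AK A K) := by
    rw [hcoe]
    exact Fermat.Agent.RED.PUR.GaussInv8.inv_mem_gaussRing
      (⟨((t : ↥(FK F₀ K)) : LaurentSeries K), ht⟩ : gaussRing (AK A K)) htr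
  have htrs := Fermat.Agent.RED.PUR.GaussInv8.transcendental_gaussRed
    (⟨((t : ↥(FK F₀ K)) : LaurentSeries K), ht⟩ : gaussRing (AK A K))
    (⟨(((t⁻¹ : ↥(FK F₀ K)) : ↥(FK F₀ K)) : LaurentSeries K), hs⟩ : gaussRing (AK A K)) hcoe htr
  have hdegs := Fermat.Agent.RED.PUR.GaussInv8.degLe_of_inv
    (⟨((t : ↥(FK F₀ K)) : LaurentSeries K), ht⟩ : gaussRing (AK A K))
    (⟨(((t⁻¹ : ↥(FK F₀ K)) : ↥(FK F₀ K)) : LaurentSeries K), hs⟩ : gaussRing (AK A K)) hcoe
    (FK F₀ K) hdeg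
  have hirrs := Fermat.Agent.RED.PUR.GaussInv8.irr_of_inv
    (⟨((t : ↥(FK F₀ K)) : LaurentSeries K), ht⟩ : gaussRing (AK A K))
    (⟨(((t⁻¹ : ↥(FK F₀ K)) : ↥(FK F₀ K)) : LaurentSeries K), hs⟩ : gaussRing (AK A K)) hcoe htr
    (FK F₀ K) hirr
  have hsq : (((t⁻¹ : ↥(FK F₀ K)) : ↥(FK F₀ K)) : LaurentSeries K) = (tq K n e)⁻¹ := by
    rw [hcoe, htq]
  have hords := Fermat.Agent.RED.PUR.TqOrder26.isCoprime_order_gaussRed_inv (AK A K) n e
    (t⁻¹ : ↥(FK F₀ K)) hs hsq (ℓ : ℤ)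
  have htrKs : Transcendental K (t⁻¹ : ↥(FK F₀ K)) := fun hal => htrK (IsAlgebraic.inv_iff.1 hal)
  have hEE : IntermediateField.adjoin K {t} = IntermediateField.adjoin K {(t⁻¹ : ↥(FK F₀ K))} :=
    (Fermat.Agent.RED.CUSP.RankConcrete16.adjoin_inv_eq (k := ↥K) t).symm
  have hfds : FiniteDimensional ↥(IntermediateField.adjoin K {(t⁻¹ : ↥(FK F₀ K))}) ↥(FK F₀ K) :=
    hEE ▸ hfd
  exact smoothOver_of_family hϖ hE (t⁻¹ : ↥(FK F₀ K)) hs htrs hdegs hirrs ℓ hords htrKs 0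
    (hfam K hKfd hle3 ϖ hϖ t htq) (hH K hKfd hle4 ϖ hϖ t htq)

end Fermat.Agent.DS.G.RED.CUSP.CuspMain77
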