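/-
DS programme (S48), GEO half, chapter G-RED, (C) CUSP twins — top of the family chain (helper29).

Twin of the `Family` section of `Fermat/Agent/RED/CUSP/CuspConcrete23.lean` at a general level
`(L, D, C)`, `hC : C.Distinct`, and the two hypotheses `hfamS`, `hfamN` of
`TopAsm77.modelStep_of_level` (helper77) in their exact shape:

  `hfamS … : EventuallyT L.F₀ n e A fun K ϖ t => ∀ c ∈ cuspSet A K cv,
      HasCuspFamily (AK A K) (FK L.F₀ K) t c (finrank K⟮t⟯ (FK L.F₀ K))`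
  `hfamN … : EventuallyT L.F₀ n e A fun K ϖ t =>
      HasCuspFamily (AK A K) (FK L.F₀ K) t⁻¹ 0 (finrank K⟮t⁻¹⟯ (FK L.F₀ K))`

from `BaseHyp n e`, `F_n ≤ L.F₀`, `CuspExp ∧ CuspSeparated`, `ℓ ∤ L.w`, `ℓ ∤ n` and the two
arithmetic inputs on the compressed cusp expansions of the GENERATORS:

* `hKrat` : their coefficients lie in every large number field `K` (rationality);
* `hInt`  : their coefficients lie in `A` (integrality).

Hence `modelStep_of_level'` : `ModelStep L.F₀ A` from `GaussInputs` + `hKrat` + `hInt`.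
-/
import Mathlib
import Fermat.Agent.DS.G.RED.CUSP.CuspPack29
import Fermat.Agent.DS.G.RED.CUSP.RankConcrete16
import Fermat.Agent.DS.G.RED.CUSP.CuspTame11
import Fermat.Agent.DS.G.RED.BASE.MainCusp12
import Fermat.Agent.DS.G.RED.TopAsm77
import Fermat.Agent.DS.G.X0.DegreeLc

set_option autoImplicit false
set_option linter.unusedSectionVars false
set_option linter.unusedVariables false

noncomputable section

namespace Fermat.Agent.DS.G.RED.CUSP.Hfam29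

open Fermat.Agent.X0 (Kbar iotaK iotaK_injective)
open AlgebraicCurve ModularCurve HahnSeries
open Fermat.Agent.RED.Interface4 (Qbar AK)
open Fermat.Agent.DS.G.Level
open Fermat.Agent.DS.G.RED.Iface Fermat.Agent.DS.G.RED.Desc
open Fermat.Agent.DS.G.RED.CUSP.CuspExact16 Fermat.Agent.DS.G.RED.CUSP.CuspEmbK16
open Fermat.Agent.DS.G.RED.CUSP.CuspPack29
open Fermat.Agent.RED.CUSP.IntClosedPS16 Fermat.Agent.RED.CUSP.CuspIface23
open Fermat.Agent.RED.BASE.Interface12 (CuspShape CuspSeparated)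
open Fermat.Agent.RED.BASE.Hauptmodul12
open Fermat.Agent.DS.G.RED.BASE.Interface12
open Fermat.Agent.RED.BASE.EtaQuot12
open Fermat.Agent.RED.ModelTargets4 (cuspSet JTarget)
open Fermat.Agent.DS.G.RED.ModelTargets4 Fermat.Agent.DS.G.RED.ModelMain4
open Fermat.Agent.RED.NumInst4 (inv_natCast_mem)
open Fermat.Agent.RED.DESC.NumberFieldDVR27
open scoped MatrixGroups
open IntermediateField

variable {L : LevelData} {D : RealizeDataK L} (C : CuspDataK L D) (hC : C.Distinct)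
  {K : IntermediateField ℚ Qbar}
  (hK : ∀ (γ : SL(2, ℤ)) (g : L.gensQ) (m : ℤ), (Tc C γ (genc L Qbar g)).coeff m ∈ K)
  (A : ValuationSubring Qbar)
  (hInt : ∀ (γ : SL(2, ℤ)) (g : L.gensQ) (m : ℤ), (Tc C γ (genc L Qbar g)).coeff m ∈ A)

section Family

variable {n e : ℕ} [NeZero n] (cv : SL(2, ℤ) → Option Kbar) (h : TMem n e L)
  (hexp : ∀ γ : SL(2, ℤ), CuspShape n (C.T γ (tF L h)) (cv γ))
  (hgen : Fermat.Agent.X0.FF.IsGen Kbar (tF L h))

include hC hK hexp hgen hInt in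
/-- the family over a finite cusp value, in the wrapper form. -/
theorem hasCuspFamily_some [IsPrincipalIdealRing ↥(AK A K)] (hwA : ((L.w : Qbar))⁻¹ ∈ A)
    (hnA : ((n : Qbar))⁻¹ ∈ A)
    (hcusp : ∀ (v : Place Kbar (FFL L)) (γ : SL(2, ℤ)) (c : Kbar), cv γ = some c →
      0 < v.ord (tF L h - algebraMap Kbar (FFL L) c) → v.ord (jFL L) < 0)
    (htS : ∀ (γ : SL(2, ℤ)) (c : Kbar), cv γ = some c →
      ((placeOf C γ).ord (tF L h - algebraMap Kbar (FFL L) c)).natAbs ∣ L.w)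
    (t : FKG L.F₀ K) (ht : baseChangeHomG L.F₀ K t = tF L h) (c : ↥(AK A K)) (γ₀ : SL(2, ℤ))
    (hγ₀ : cv γ₀ = some (algebraMap K Qbar (c : K))) :
    HasCuspFamily (AK A K) (FKG L.F₀ K) t c (Module.finrank Kbar⟮tF L h⟯ (FFL L)) := by
  obtain ⟨c', hc', Cκ, hfin, hdec, γ, e', u, -, he, heA, hu, hshape, -, hsum, hpl⟩ :=
    cusp_family_some C hC hK A cv h hexp hgen hwA hnA hcusp htS t ht γ₀ _ hγ₀
  have hcc : c' = c := Subtype.ext ((algebraMap K Qbar).injective hc')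
  subst hcc
  exact ⟨Cκ, hfin, hdec, fun κ => TK (expK C hC hK (γ κ)), e', u,
    fun κ a => TK_const (expK C hC hK (γ κ)) (a : K),
    fun κ f => TK_mem_psFrac (expK C hC hK (γ κ)) A (hInt (γ κ)) f, he, heA, hu, hshape, hpl, hsum⟩

include hC hK hexp hgen hInt in
/-- the family over the poles of `t`, for the coordinate `t⁻¹` and the value `0`. -/
theorem hasCuspFamily_none [IsPrincipalIdealRing ↥(AK A K)] (hwA : ((L.w : Qbar))⁻¹ ∈ A)
    (hnA : ((n : Qbar))⁻¹ ∈ A)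
    (hU : ∀ v : Place Kbar (FFL L), 0 ≤ v.ord (jFL L) →
      ∃ c : Kbar, v.ord (tF L h - algebraMap Kbar (FFL L) c) = 1)
    (htN : ∀ γ : SL(2, ℤ), cv γ = none → ((placeOf C γ).ord (tF L h)).natAbs ∣ L.w)
    (t : FKG L.F₀ K) (ht : baseChangeHomG L.F₀ K t = tF L h) :
    HasCuspFamily (AK A K) (FKG L.F₀ K) t⁻¹ 0 (Module.finrank Kbar⟮tF L h⟯ (FFL L)) := by
  obtain ⟨Cκ, hfin, hdec, γ, e', u, -, he, heA, hu, hshape, -, hsum, hpl⟩ :=
    cusp_family_none C hC hK A cv h hexp hgen hwA hnA hU htN t ht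
  exact ⟨Cκ, hfin, hdec, fun κ => TK (expK C hC hK (γ κ)), e', u,
    fun κ a => TK_const (expK C hC hK (γ κ)) (a : K),
    fun κ f => TK_mem_psFrac (expK C hC hK (γ κ)) A (hInt (γ κ)) f, he, heA, hu, hshape, hpl, hsum⟩

end Family

section Eventually

variable {n e : ℕ} [NeZero n] {A}

/-- **`hfamS` of `TopAsm77.modelStep_of_level`.** -/
theorem hfamS (hb : BaseHyp n e) (L : LevelData) (D : RealizeDataK L) (C : CuspDataK L D)
    (hC : C.Distinct) (hle : modularFunctionFieldFull n ≤ L.F₀)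
    (cv : SL(2, ℤ) → Option Kbar) (hcv : CuspExp n e L C cv ∧ CuspSeparated n cv)
    {ℓ : ℕ} [Fact ℓ.Prime] (hA : A.LiesOverPrime ℓ) (hℓw : ¬ ℓ ∣ L.w) (hℓn : ¬ ℓ ∣ n)
    (hKrat : ∃ K₀ : IntermediateField ℚ Qbar, FiniteDimensional ℚ K₀ ∧
      ∀ K : IntermediateField ℚ Qbar, FiniteDimensional ℚ K → K₀ ≤ K →
        ∀ (γ : SL(2, ℤ)) (g : L.gensQ) (m : ℤ), (Tc C γ (genc L Qbar g)).coeff m ∈ K)
    (hInt : ∀ (γ : SL(2, ℤ)) (g : L.gensQ) (m : ℤ), (Tc C γ (genc L Qbar g)).coeff m ∈ A) :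
    EventuallyT L.F₀ n e A fun K ϖ t =>
      ∀ c ∈ cuspSet A K cv,
        HasCuspFamily (AK A K) (FK L.F₀ K) t c (Module.finrank ↥(↥K)⟮t⟯ ↥(FK L.F₀ K)) := by
  have hℓ : ℓ.Prime := Fact.out
  obtain ⟨hB, hCE⟩ := Fermat.Agent.DS.G.RED.BASE.MainCusp12.base_of hb D C hC hle hcv
  obtain ⟨K₂, hK₂, hJ⟩ := Fermat.Agent.RED.ModelFinal4.jTarget (n := n) (e := e) hB.genBase
  obtain ⟨K₃, hK₃, hK⟩ := hKrat
  refine ⟨K₂ ⊔ K₃, inferInstance, fun K hKfd hle' ϖ hϖ t htq c hc => ?_⟩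
  have hle2 : K₂ ≤ K := le_trans le_sup_left hle'
  have hle3 : K₃ ≤ K := le_trans le_sup_right hle'
  have hdvr : IsDiscreteValuationRing ↥(AK A K) := isDiscreteValuationRing_AK A K hℓ.ne_zero hA
  have hwA : ((L.w : Qbar))⁻¹ ∈ A := inv_natCast_mem hℓ hA L.w hℓw
  have hnA : ((n : Qbar))⁻¹ ∈ A := inv_natCast_mem hℓ hA n hℓn
  have h : TMem n e L := hB.mem
  have hembt : baseChangeHomG L.F₀ K t = tF L h :=
    RankConcrete16.baseChangeHomG_eq_tF L K h t htq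
  obtain ⟨γ₀, hγ₀⟩ := hc
  obtain ⟨_, hexp⟩ := hcv.1
  obtain ⟨_, hgen⟩ := hB.isGen
  obtain ⟨_, hcusp⟩ := hCE.cuspPlaces
  have hfam := hasCuspFamily_some C hC (hK K hKfd hle3) A hInt cv h hexp hgen hwA hnA hcusp
    (fun γ c hγ => (CuspTame11.tame_some C hC hb hle h hcv.1 γ c hγ).2) t hembt c γ₀ hγ₀
  have : FiniteDimensional Kbar⟮jFL L⟯ (FFL L) :=
    Fermat.Agent.DS.G.X0.DegreeLc.finiteDimensional_adjoin iotaK_injective L D C hC
  rw [← RankConcrete16.finrank_adjoin_tF L K (RankConcrete16.relfinrank_jK_ne_zero L K) h t htq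
    (hJ K hKfd hle2)] at hfam
  exact hfam

/-- **`hfamN` of `TopAsm77.modelStep_of_level`.** -/
theorem hfamN (hb : BaseHyp n e) (L : LevelData) (D : RealizeDataK L) (C : CuspDataK L D)
    (hC : C.Distinct) (hle : modularFunctionFieldFull n ≤ L.F₀)
    (cv : SL(2, ℤ) → Option Kbar) (hcv : CuspExp n e L C cv ∧ CuspSeparated n cv)
    {ℓ : ℕ} [Fact ℓ.Prime] (hA : A.LiesOverPrime ℓ) (hℓw : ¬ ℓ ∣ L.w) (hℓn : ¬ ℓ ∣ n)
    (hKrat : ∃ K₀ : IntermediateField ℚ Qbar, FiniteDimensional ℚ K₀ ∧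
      ∀ K : IntermediateField ℚ Qbar, FiniteDimensional ℚ K → K₀ ≤ K →
        ∀ (γ : SL(2, ℤ)) (g : L.gensQ) (m : ℤ), (Tc C γ (genc L Qbar g)).coeff m ∈ K)
    (hInt : ∀ (γ : SL(2, ℤ)) (g : L.gensQ) (m : ℤ), (Tc C γ (genc L Qbar g)).coeff m ∈ A) :
    EventuallyT L.F₀ n e A fun K ϖ t =>
      HasCuspFamily (AK A K) (FK L.F₀ K) t⁻¹ 0
        (Module.finrank ↥(↥K)⟮t⁻¹⟯ ↥(FK L.F₀ K)) := by
  have hℓ : ℓ.Prime := Fact.out
  obtain ⟨hB, hCE⟩ := Fermat.Agent.DS.G.RED.BASE.MainCusp12.base_of hb D C hC hle hcv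
  obtain ⟨K₂, hK₂, hJ⟩ := Fermat.Agent.RED.ModelFinal4.jTarget (n := n) (e := e) hB.genBase
  obtain ⟨K₃, hK₃, hK⟩ := hKrat
  refine ⟨K₂ ⊔ K₃, inferInstance, fun K hKfd hle' ϖ hϖ t htq => ?_⟩
  have hle2 : K₂ ≤ K := le_trans le_sup_left hle'
  have hle3 : K₃ ≤ K := le_trans le_sup_right hle'
  have hdvr : IsDiscreteValuationRing ↥(AK A K) := isDiscreteValuationRing_AK A K hℓ.ne_zero hA
  have hwA : ((L.w : Qbar))⁻¹ ∈ A := inv_natCast_mem hℓ hA L.w hℓw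
  have hnA : ((n : Qbar))⁻¹ ∈ A := inv_natCast_mem hℓ hA n hℓn
  have h : TMem n e L := hB.mem
  have hembt : baseChangeHomG L.F₀ K t = tF L h :=
    RankConcrete16.baseChangeHomG_eq_tF L K h t htq
  obtain ⟨_, hexp⟩ := hcv.1
  obtain ⟨_, hgen⟩ := hB.isGen
  obtain ⟨_, hU⟩ := hB.unbranched
  have hfam := hasCuspFamily_none C hC (hK K hKfd hle3) A hInt cv h hexp hgen hwA hnA hU
    (fun γ hγ => (CuspTame11.tame_none C hC hb hle h hcv.1 γ hγ).2) t hembt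
  have : FiniteDimensional Kbar⟮jFL L⟯ (FFL L) :=
    Fermat.Agent.DS.G.X0.DegreeLc.finiteDimensional_adjoin iotaK_injective L D C hC
  rw [← RankConcrete16.finrank_adjoin_inv_tF L K (RankConcrete16.relfinrank_jK_ne_zero L K) h t htq
    (hJ K hKfd hle2)] at hfam
  exact hfam

/-- **MODEL for the level `L`**, from `GaussInputs` and the rationality/integrality of the cusp
expansions of the generators. -/
theorem modelStep_of_level' (hb : BaseHyp n e) (L : LevelData) (D : RealizeDataK L)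
    (C : CuspDataK L D) (hC : C.Distinct) (hle : modularFunctionFieldFull n ≤ L.F₀)
    (cv : SL(2, ℤ) → Option Kbar) (hcv : CuspExp n e L C cv ∧ CuspSeparated n cv)
    {ℓ : ℕ} [Fact ℓ.Prime] (hℓn : ¬ ℓ ∣ n) (hℓw : ¬ ℓ ∣ L.w) (hA : A.LiesOverPrime ℓ)
    (hG : GaussInputs L.F₀ A)
    (hKrat : ∃ K₀ : IntermediateField ℚ Qbar, FiniteDimensional ℚ K₀ ∧
      ∀ K : IntermediateField ℚ Qbar, FiniteDimensional ℚ K → K₀ ≤ K →
        ∀ (γ : SL(2, ℤ)) (g : L.gensQ) (m : ℤ), (Tc C γ (genc L Qbar g)).coeff m ∈ K)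
    (hInt : ∀ (γ : SL(2, ℤ)) (g : L.gensQ) (m : ℤ), (Tc C γ (genc L Qbar g)).coeff m ∈ A) :
    ModelStep L.F₀ A :=
  Fermat.Agent.DS.G.RED.TopAsm77.modelStep_of_level hb L D C hC hle cv hcv hℓn hA hG
    (hfamS hb L D C hC hle cv hcv hA hℓw hℓn hKrat hInt)
    (hfamN hb L D C hC hle cv hcv hA hℓw hℓn hKrat hInt)

end Eventually

end Fermat.Agent.DS.G.RED.CUSP.Hfam29
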