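/-
DS programme (S48), chapter G-RED, CUSP twins (bricks row 385; helper80).

LEVEL-FREE CORE of the generic twins of `RED/CUSP/CuspFamilyK16` + `RED/CUSP/CuspPackK16`
(+ the `Family` section of `RED/CUSP/CuspConcrete23`).

For an arbitrary rational field `F₀ ⊂ ℚ((q))` and a subfield `K ⊂ ℚ̄`, ONE compressed cusp
expansion over `K` is recorded as `X : EmbAt F₀ K`:
* `X.τ : K·F₀ →+* K((s))`          (the twin of `CuspEmbK16.TK hζ γ`),
* `X.T : ℚ̄·F₀ →+* ℚ̄((q_w))`       (the cusp expansion `C.T γ` over `ℚ̄`),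
* `X.r`                            (the compression index `cuspR`, `s = q_w ^ r`),
* `X.v : Place ℚ̄ (ℚ̄·F₀)`          (the cusp place `placeOf γ`),
with the three facts `comp` (`coeffMap (qExpand r (τ z)) = T (emb z)`, twin of
`coeffMap_qExpand_TK`), `const` (`TK_const`) and `order` (`order_TK`).  Nothing else about the
level is used, so the statements below hold for ANY provider of such data (the generic
`CuspEmbK16` twin over `(L : LevelData) (C : CuspDataK L D)` gives `EmbAt L.F₀ K` in one line).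

* `shape_some`, `shape_none` (F1), `order_sub_of_shape`, `ord_v_of_shape` (F2),
  `exists_place_above_mem`, `hplaces_of_fibre` (F3)        — twins of `CuspFamilyK16`;
* `cusp_family_some`, `cusp_family_none`                   — twins of `CuspPackK16`, with the
  fibre description (`hzero` / `hpole`: twin of `CuspFibre14.exists_placeOf_of_zero/_of_pole`)
  and tameness (`htame`: twin of `CuspTame11.tame_some/_none`) as explicit hypotheses;
* `hasCuspFamily_some`, `hasCuspFamily_none`               — the wrapper form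
  `CuspIface23.HasCuspFamily (AK A K) (K·F₀) t c N` consumed by `smoothOver_of_family`.
-/
import Fermat.Agent.DS.G.RED.Desc
import Fermat.Agent.RED.CUSP.CuspPackK16
import Fermat.Agent.RED.CUSP.CuspIface23

set_option autoImplicit false
set_option linter.unusedSectionVars false
set_option linter.unusedVariables false

noncomputable section

namespace Fermat.Agent.DS.G.RED.CUSP.CuspFamilyAbs80

open Fermat.Agent.X0 AlgebraicCurve ModularCurve HahnSeries
open Fermat.Agent.RED.Interface4 (Qbar AK)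
open Fermat.Agent.DS.G.RED.Iface Fermat.Agent.DS.G.RED.Desc
open Fermat.Agent.RED.CUSP.IntClosedPS16
open Fermat.Agent.RED.BASE.Interface12 (CuspShape)
open scoped MatrixGroups
open IntermediateField

variable (F₀ : IntermediateField ℚ (LaurentSeries ℚ)) (K : IntermediateField ℚ Qbar)

/-- **One compressed cusp expansion over `K`**, with its comparison with the expansion over `ℚ̄`
and with the cusp place. -/
structure EmbAt where
  /-- the compression index (`cuspR`) -/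
  r : ℕ
  [hr : NeZero r]
  /-- the compressed expansion over `K` (`TK hζ γ`) -/
  τ : ↥(FKG F₀ K) →+* LaurentSeries K
  /-- the expansion over `ℚ̄` (`C.T γ`) -/
  T : ↥(FbarG F₀) →+* LaurentSeries Qbar
  /-- the cusp place (`placeOf γ`) -/
  v : Place Qbar ↥(FbarG F₀)
  comp : ∀ z : ↥(FKG F₀ K),
    coeffMap (algebraMap K Qbar) (qExpand K r (τ z)) = T (baseChangeHomG F₀ K z)
  const : ∀ c : K, τ (algebraMap K ↥(FKG F₀ K) c) = HahnSeries.C c
  order : ∀ z : ↥(FKG F₀ K), z ≠ 0 → (τ z).order = v.ord (baseChangeHomG F₀ K z)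

attribute [instance] EmbAt.hr

variable {F₀ K}

/-! ### One expansion: twins of `CuspFamilyK16` (F1), (F2) -/

section One

variable (X : EmbAt F₀ K) (A : ValuationSubring Qbar)

theorem r_pos : 0 < X.r := Nat.pos_of_ne_zero (NeZero.ne X.r)

/-- twin of `CuspEmbK16.mem_placeOf_iff_TK`. -/
theorem mem_v_iff (z : ↥(FKG F₀ K)) (hz : z ≠ 0) :
    baseChangeHomG F₀ K z ∈ X.v.toValuationSubring ↔ 0 ≤ (X.τ z).order := by
  rw [X.order z hz, FF.ffp_mem_iff_ord_nonneg]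

/-- **(F1)** the shape of `τ t` at a cusp with finite value `c̄`. -/
theorem shape_some (n : ℕ) (hn : n ≠ 0) (hnA : ((n : Qbar))⁻¹ ∈ A) (t : ↥(FKG F₀ K))
    (cbar : Qbar) (h : CuspShape n (X.T (baseChangeHomG F₀ K t)) (some cbar)) :
    ∃ (c : AK A K) (e₀ : ℕ) (u : PowerSeries ↥(AK A K)), 0 < e₀ ∧
      IsUnit (PowerSeries.constantCoeff u) ∧ algebraMap K Qbar (c : K) = cbar ∧
      X.τ t = HahnSeries.C (c : K) + toLS ↥(AK A K) ↥K (u * PowerSeries.X ^ e₀) := by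
  rw [← X.comp t] at h
  obtain ⟨c, a, u, ha, hu, hc, hE⟩ :=
    Fermat.Agent.RED.CUSP.CuspShapeK6.cuspShape_some A K n hn hnA _ cbar h
  obtain ⟨hdvd, u', hu', -, hE'⟩ := Fermat.Agent.RED.CUSP.CuspShapeK6.compress A K (X.τ t) X.r c a u hu hE
  refine ⟨c, a / X.r, u', ?_, hu', hc, hE'⟩
  exact Nat.div_pos (Nat.le_of_dvd ha hdvd) (r_pos X)

/-- **(F1)**, pole version: the shape of `(τ t)⁻¹` at a cusp where `t` has a pole. -/
theorem shape_none (n : ℕ) (hn : n ≠ 0) (hnA : ((n : Qbar))⁻¹ ∈ A) (t : ↥(FKG F₀ K))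
    (h : CuspShape n (X.T (baseChangeHomG F₀ K t)) none) :
    ∃ (e₀ : ℕ) (u : PowerSeries ↥(AK A K)), 0 < e₀ ∧
      IsUnit (PowerSeries.constantCoeff u) ∧
      X.τ t⁻¹ = toLS ↥(AK A K) ↥K (u * PowerSeries.X ^ e₀) := by
  rw [← X.comp t] at h
  obtain ⟨a, u, ha, hu, hE⟩ := Fermat.Agent.RED.CUSP.CuspShapeK6.cuspShape_none A K n hn hnA _ h
  obtain ⟨hdvd, u', hu', -, hE'⟩ :=
    Fermat.Agent.RED.CUSP.CuspShapeK6.compress_none A K (X.τ t) X.r a u hu hE
  refine ⟨a / X.r, u', ?_, hu', ?_⟩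
  · exact Nat.div_pos (Nat.le_of_dvd ha hdvd) (r_pos X)
  · rw [map_inv₀]; exact hE'

/-- **(F2)** `ord (τ (t - c)) = e₀`. -/
theorem order_sub_of_shape (t : ↥(FKG F₀ K)) (c : AK A K) (e₀ : ℕ) (u : PowerSeries ↥(AK A K))
    (hu : IsUnit (PowerSeries.constantCoeff u))
    (ht : X.τ t = HahnSeries.C (c : K) + toLS ↥(AK A K) ↥K (u * PowerSeries.X ^ e₀)) :
    (X.τ (t - algebraMap K ↥(FKG F₀ K) (c : K))).order = e₀ := by
  rw [map_sub, X.const, ht, add_sub_cancel_left, Fermat.Agent.RED.CUSP.CuspFamilyK16.order_toLS_mul_X_pow A u hu]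

/-- **(F2)**, on the `ℚ̄`-side: `ord_v (emb t - c̄) = e₀`. -/
theorem ord_v_of_shape (t : ↥(FKG F₀ K)) (c : AK A K) (e₀ : ℕ) (he₀ : 0 < e₀)
    (u : PowerSeries ↥(AK A K)) (hu : IsUnit (PowerSeries.constantCoeff u))
    (ht : X.τ t = HahnSeries.C (c : K) + toLS ↥(AK A K) ↥K (u * PowerSeries.X ^ e₀)) :
    X.v.ord (baseChangeHomG F₀ K (t - algebraMap K ↥(FKG F₀ K) (c : K))) = e₀ := by
  have h1 := order_sub_of_shape X A t c e₀ u hu ht
  have hne : t - algebraMap K ↥(FKG F₀ K) (c : K) ≠ 0 := by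
    intro h0
    rw [h0, map_zero, HahnSeries.order_zero] at h1
    exact he₀.ne' (by exact_mod_cast h1.symm)
  rw [← X.order _ hne, h1]

end One

/-! ### Places of `K·F₀` below places of `ℚ̄·F₀` -/

/-- **(EXT)**, membership form (twin of `PlaceExtend27.exists_place_above_mem`). -/
theorem exists_place_above_mem {x : ↥(FbarG F₀)} (hgen : FF.IsGen Qbar x)
    (w : Place K ↥(FKG F₀ K)) :
    ∃ (v : Place Qbar ↥(FbarG F₀)) (e : ℕ), 0 < e ∧
      (∀ f : ↥(FKG F₀ K), v.ord (baseChangeHomG F₀ K f) = (e : ℤ) * w.ord f) ∧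
      ∀ f : ↥(FKG F₀ K),
        baseChangeHomG F₀ K f ∈ v.toValuationSubring ↔ f ∈ w.toValuationSubring := by
  obtain ⟨v, e, he, hord⟩ := exists_place_aboveG K hgen w
  refine ⟨v, e, he, hord, fun f => ?_⟩
  rw [FF.ffp_mem_iff_ord_nonneg, FF.ffp_mem_iff_ord_nonneg, hord]
  have he' : (0 : ℤ) < (e : ℤ) := by exact_mod_cast he
  constructor
  · intro h
    by_contra hneg
    rw [not_le] at hneg
    have := mul_neg_of_pos_of_neg he' hneg
    omega
  · intro h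
    exact mul_nonneg he'.le h

/-! ### The family: twins of `CuspFamilyK16.hplaces_of_fibre` and of `CuspPackK16` -/

section Family

variable (X : SL(2, ℤ) → EmbAt F₀ K) (A : ValuationSubring Qbar)

/-- **(F3)** `hplaces` from the description of the fibre over `ℚ̄`. -/
theorem hplaces_of_fibre {x : ↥(FbarG F₀)} (hgen : FF.IsGen Qbar x)
    (τ : ↥(FKG F₀ K)) (Γ : Set (SL(2, ℤ)))
    (hfib : ∀ v : Place Qbar ↥(FbarG F₀), 0 < v.ord (baseChangeHomG F₀ K τ) →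
      ∃ γ ∈ Γ, v = (X γ).v)
    (w : Place K ↥(FKG F₀ K)) (hw : 0 < w.ord τ) :
    ∃ γ ∈ Γ, ∀ z : ↥(FKG F₀ K), z ≠ 0 → 0 ≤ ((X γ).τ z).order →
      z ∈ w.toValuationSubring := by
  obtain ⟨v, e, he, hord, hmem⟩ := exists_place_above_mem hgen w
  have hv : 0 < v.ord (baseChangeHomG F₀ K τ) := by
    rw [hord]
    exact mul_pos (by exact_mod_cast he) hw
  obtain ⟨γ, hγ, rfl⟩ := hfib v hv
  refine ⟨γ, hγ, fun z hz h0 => ?_⟩
  rw [← hmem, mem_v_iff (X γ) z hz]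
  exact h0

variable {n : ℕ} (W : ℕ) [NeZero W] (cv : SL(2, ℤ) → Option Qbar)
  (tbar : ↥(FbarG F₀)) (hgen : FF.IsGen Qbar tbar)

include hgen in
/-- **The packaged family over a finite cusp value** (twin of `CuspPackK16.cusp_family_some`).
`hzero` is the twin of `CuspFibre14.exists_placeOf_of_zero`, `htame` of
`CuspTame11.tame_some`. -/
theorem cusp_family_some [IsPrincipalIdealRing ↥(AK A K)]
    (hn : n ≠ 0) (hnA : ((n : Qbar))⁻¹ ∈ A) (hWA : ((W : Qbar))⁻¹ ∈ A)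
    (hshape : ∀ γ, CuspShape n ((X γ).T tbar) (cv γ))
    (hzero : ∀ (v : Place Qbar ↥(FbarG F₀)) (c : Qbar), (∃ γ₁, cv γ₁ = some c) →
      0 < v.ord (tbar - algebraMap Qbar ↥(FbarG F₀) c) → ∃ γ, (X γ).v = v ∧ cv γ = some c)
    (htame : ∀ γ c, cv γ = some c →
      ((X γ).v.ord (tbar - algebraMap Qbar ↥(FbarG F₀) c)).natAbs ∣ W)
    (t : ↥(FKG F₀ K)) (ht : baseChangeHomG F₀ K t = tbar)
    (γ₀ : SL(2, ℤ)) (cbar : Qbar) (hγ₀ : cv γ₀ = some cbar) :
    ∃ c : ↥(AK A K), algebraMap K Qbar (c : K) = cbar ∧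
    ∃ (C : Type) (_ : Fintype C) (_ : DecidableEq C) (γ : C → SL(2, ℤ)) (e' : C → ℕ)
      (u : C → PowerSeries ↥(AK A K)),
      (∀ κ, cv (γ κ) = some cbar) ∧
      (∀ κ, 0 < e' κ) ∧ (∀ κ, IsUnit ((e' κ : ℕ) : ↥(AK A K))) ∧
      (∀ κ, IsUnit (PowerSeries.constantCoeff (u κ))) ∧
      (∀ κ, (X (γ κ)).τ t =
        HahnSeries.C (c : K) + toLS ↥(AK A K) ↥K (u κ * PowerSeries.X ^ e' κ)) ∧
      (∀ κ, ((X (γ κ)).τ (t - algebraMap K ↥(FKG F₀ K) (c : K))).order = e' κ) ∧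
      (∑ κ, e' κ = Module.finrank Qbar⟮tbar⟯ ↥(FbarG F₀)) ∧
      (∀ w : Place K ↥(FKG F₀ K), 0 < w.ord (t - algebraMap K ↥(FKG F₀ K) (c : K)) →
        ∃ κ, ∀ z : ↥(FKG F₀ K), z ≠ 0 → 0 ≤ ((X (γ κ)).τ z).order →
          z ∈ w.toValuationSubring) := by
  classical
  have hshape' : ∀ γ, CuspShape n ((X γ).T (baseChangeHomG F₀ K t)) (cv γ) := by
    intro γ
    rw [ht]
    exact hshape γ
  -- the constant `c`
  have hs₀ := hshape' γ₀
  rw [hγ₀] at hs₀
  obtain ⟨c, -, -, -, -, hc, -⟩ := shape_some (X γ₀) A n hn hnA t cbar hs₀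
  refine ⟨c, hc, ?_⟩
  have hemb : baseChangeHomG F₀ K (t - algebraMap K ↥(FKG F₀ K) (c : K)) =
      tbar - algebraMap Qbar ↥(FbarG F₀) cbar := by
    rw [map_sub, ht, baseChangeHomG_algebraMap, ← hc]
    rfl
  -- the index type
  let C : Type :=
    {v : Place Qbar ↥(FbarG F₀) // 0 < v.ord (tbar - algebraMap Qbar ↥(FbarG F₀) cbar)}
  let instF : Fintype C := Fermat.Agent.RED.CUSP.CuspFibre14.fintypeFibre hgen cbar
  have hγex : ∀ κ : C, ∃ γ : SL(2, ℤ), (X γ).v = κ.1 ∧ cv γ = some cbar := fun κ =>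
    hzero κ.1 cbar ⟨γ₀, hγ₀⟩ κ.2
  choose γ hγv hγc using hγex
  have hsh : ∀ κ : C, ∃ (e₀ : ℕ) (u : PowerSeries ↥(AK A K)), 0 < e₀ ∧
      IsUnit (PowerSeries.constantCoeff u) ∧
      (X (γ κ)).τ t =
        HahnSeries.C (c : K) + toLS ↥(AK A K) ↥K (u * PowerSeries.X ^ e₀) := by
    intro κ
    have hs := hshape' (γ κ)
    rw [hγc κ] at hs
    obtain ⟨c', e₀, u, he₀, hu, hc', hE⟩ := shape_some (X (γ κ)) A n hn hnA t cbar hs
    have hcc : c' = c := by
      apply Subtype.ext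
      apply (algebraMap K Qbar).injective
      rw [hc', hc]
    rw [hcc] at hE
    exact ⟨e₀, u, he₀, hu, hE⟩
  choose e' u he' hu hE using hsh
  have hord : ∀ κ : C,
      (e' κ : ℤ) = κ.1.ord (tbar - algebraMap Qbar ↥(FbarG F₀) cbar) := by
    intro κ
    have := ord_v_of_shape (X (γ κ)) A t c (e' κ) (he' κ) (u κ) (hu κ) (hE κ)
    rw [hemb, hγv κ] at this
    exact this.symm
  refine ⟨C, instF, Classical.decEq C, γ, e', u, hγc, he', ?_, hu, hE, ?_, ?_, ?_⟩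
  · intro κ
    apply Fermat.Agent.RED.CUSP.CuspPackK16.isUnit_natCast_of_dvd (M := W) A hWA
    have htame' := htame (γ κ) cbar (hγc κ)
    rw [hγv κ, ← hord κ, Int.natAbs_natCast] at htame'
    exact htame'
  · intro κ
    exact order_sub_of_shape (X (γ κ)) A t c (e' κ) (u κ) (hu κ) (hE κ)
  · rw [← Fermat.Agent.RED.CUSP.CuspFibre14.sum_toNat_fibre hgen cbar]
    refine Finset.sum_congr rfl fun κ _ => ?_
    rw [← hord κ, Int.toNat_natCast]
  · intro w hw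
    obtain ⟨γ', ⟨κ, rfl⟩, hκ⟩ := hplaces_of_fibre X hgen
      (t - algebraMap K ↥(FKG F₀ K) (c : K))
      (Set.range γ) (fun v hv => by
        rw [hemb] at hv
        exact ⟨γ ⟨v, hv⟩, ⟨⟨v, hv⟩, rfl⟩, (hγv ⟨v, hv⟩).symm⟩) w hw
    exact ⟨κ, hκ⟩

include hgen in
/-- **The packaged family over the poles of `t`**, for the coordinate `t⁻¹` and the value `0`
(twin of `CuspPackK16.cusp_family_none`).  `hpole` is the twin of
`CuspFibre14.exists_placeOf_of_pole`, `htame` of `CuspTame11.tame_none`. -/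
theorem cusp_family_none [IsPrincipalIdealRing ↥(AK A K)]
    (hn : n ≠ 0) (hnA : ((n : Qbar))⁻¹ ∈ A) (hWA : ((W : Qbar))⁻¹ ∈ A)
    (hshape : ∀ γ, CuspShape n ((X γ).T tbar) (cv γ))
    (hpole : ∀ v : Place Qbar ↥(FbarG F₀), v.ord tbar < 0 →
      ∃ γ, (X γ).v = v ∧ cv γ = none)
    (htame : ∀ γ, cv γ = none → ((X γ).v.ord tbar).natAbs ∣ W)
    (t : ↥(FKG F₀ K)) (ht : baseChangeHomG F₀ K t = tbar) :
    ∃ (C : Type) (_ : Fintype C) (_ : DecidableEq C) (γ : C → SL(2, ℤ)) (e' : C → ℕ)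
      (u : C → PowerSeries ↥(AK A K)),
      (∀ κ, cv (γ κ) = none) ∧
      (∀ κ, 0 < e' κ) ∧ (∀ κ, IsUnit ((e' κ : ℕ) : ↥(AK A K))) ∧
      (∀ κ, IsUnit (PowerSeries.constantCoeff (u κ))) ∧
      (∀ κ, (X (γ κ)).τ t⁻¹ =
        HahnSeries.C (((0 : ↥(AK A K)) : ↥(AK A K)) : K) +
          toLS ↥(AK A K) ↥K (u κ * PowerSeries.X ^ e' κ)) ∧
      (∀ κ, ((X (γ κ)).τ
          (t⁻¹ - algebraMap K ↥(FKG F₀ K) (((0 : ↥(AK A K)) : ↥(AK A K)) : K))).order
        = e' κ) ∧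
      (∑ κ, e' κ = Module.finrank Qbar⟮tbar⟯ ↥(FbarG F₀)) ∧
      (∀ w : Place K ↥(FKG F₀ K),
        0 < w.ord (t⁻¹ - algebraMap K ↥(FKG F₀ K) (((0 : ↥(AK A K)) : ↥(AK A K)) : K)) →
        ∃ κ, ∀ z : ↥(FKG F₀ K), z ≠ 0 → 0 ≤ ((X (γ κ)).τ z).order →
          z ∈ w.toValuationSubring) := by
  classical
  have hshape' : ∀ γ, CuspShape n ((X γ).T (baseChangeHomG F₀ K t)) (cv γ) := by
    intro γ
    rw [ht]
    exact hshape γ
  have hzero : algebraMap K ↥(FKG F₀ K) (((0 : ↥(AK A K)) : ↥(AK A K)) : K) = 0 := by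
    rw [ZeroMemClass.coe_zero, map_zero]
  have hC0 : HahnSeries.C ((((0 : ↥(AK A K)) : ↥(AK A K)) : K)) = (0 : LaurentSeries K) := by
    rw [ZeroMemClass.coe_zero, map_zero]
  -- the index type
  let C : Type := {v : Place Qbar ↥(FbarG F₀) // v.ord tbar < 0}
  let instF : Fintype C := Fermat.Agent.RED.CUSP.CuspFibre14.fintypePoles hgen
  have hγex : ∀ κ : C, ∃ γ : SL(2, ℤ), (X γ).v = κ.1 ∧ cv γ = none := fun κ =>
    hpole κ.1 κ.2
  choose γ hγv hγc using hγex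
  have hsh : ∀ κ : C, ∃ (e₀ : ℕ) (u : PowerSeries ↥(AK A K)), 0 < e₀ ∧
      IsUnit (PowerSeries.constantCoeff u) ∧
      (X (γ κ)).τ t⁻¹ = toLS ↥(AK A K) ↥K (u * PowerSeries.X ^ e₀) := by
    intro κ
    have hs := hshape' (γ κ)
    rw [hγc κ] at hs
    exact shape_none (X (γ κ)) A n hn hnA t hs
  choose e' u he' hu hE using hsh
  have ht0 : t ≠ 0 := by
    intro h0
    have htr := hgen.transcendental
    rw [← ht, h0, map_zero] at htr
    exact htr (isAlgebraic_zero)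
  have hordK : ∀ κ : C, ((X (γ κ)).τ t⁻¹).order = e' κ := by
    intro κ
    rw [hE κ, Fermat.Agent.RED.CUSP.CuspFamilyK16.order_toLS_mul_X_pow A (u κ) (hu κ)]
  have hord : ∀ κ : C, (e' κ : ℤ) = -κ.1.ord tbar := by
    intro κ
    have h1 := hordK κ
    have hne : t⁻¹ ≠ 0 := inv_ne_zero ht0
    rw [(X (γ κ)).order _ hne, map_inv₀, ht, hγv κ, Place.ord_inv] at h1
    exact h1.symm
  refine ⟨C, instF, Classical.decEq C, γ, e', u, hγc, he', ?_, hu, ?_, ?_, ?_, ?_⟩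
  · intro κ
    apply Fermat.Agent.RED.CUSP.CuspPackK16.isUnit_natCast_of_dvd (M := W) A hWA
    have htame' := htame (γ κ) (hγc κ)
    rw [hγv κ] at htame'
    have : (κ.1.ord tbar).natAbs = e' κ := by
      have := hord κ
      omega
    rwa [this] at htame'
  · intro κ
    rw [hC0, zero_add]
    exact hE κ
  · intro κ
    rw [hzero, sub_zero]
    exact hordK κ
  · rw [← Fermat.Agent.RED.CUSP.CuspFibre14.sum_toNat_poles hgen]
    refine Finset.sum_congr rfl fun κ _ => ?_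
    rw [← hord κ, Int.toNat_natCast]
  · intro w hw
    rw [hzero, sub_zero] at hw
    obtain ⟨γ', ⟨κ, rfl⟩, hκ⟩ := hplaces_of_fibre X hgen t⁻¹
      (Set.range γ) (fun v hv => by
        rw [map_inv₀, ht, Place.ord_inv] at hv
        have hv' : v.ord tbar < 0 := by omega
        exact ⟨γ ⟨v, hv'⟩, ⟨⟨v, hv'⟩, rfl⟩, (hγv ⟨v, hv'⟩).symm⟩) w hw
    exact ⟨κ, hκ⟩

/-! ### The wrapper form (twin of the `Family` section of `CuspConcrete23`) -/

open Fermat.Agent.RED.CUSP.CuspIface23 in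
include hgen in
/-- the family over a finite cusp value, in the wrapper form. -/
theorem hasCuspFamily_some [IsPrincipalIdealRing ↥(AK A K)]
    (hn : n ≠ 0) (hnA : ((n : Qbar))⁻¹ ∈ A) (hWA : ((W : Qbar))⁻¹ ∈ A)
    (hfrac : ∀ γ (f : ↥(FKG F₀ K)), (X γ).τ f ∈ psFrac ↥(AK A K) ↥K)
    (hshape : ∀ γ, CuspShape n ((X γ).T tbar) (cv γ))
    (hzero : ∀ (v : Place Qbar ↥(FbarG F₀)) (c : Qbar), (∃ γ₁, cv γ₁ = some c) →
      0 < v.ord (tbar - algebraMap Qbar ↥(FbarG F₀) c) → ∃ γ, (X γ).v = v ∧ cv γ = some c)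
    (htame : ∀ γ c, cv γ = some c →
      ((X γ).v.ord (tbar - algebraMap Qbar ↥(FbarG F₀) c)).natAbs ∣ W)
    (t : ↥(FKG F₀ K)) (ht : baseChangeHomG F₀ K t = tbar) (c : ↥(AK A K)) (γ₀ : SL(2, ℤ))
    (hγ₀ : cv γ₀ = some (algebraMap K Qbar (c : K))) :
    HasCuspFamily (AK A K) (FKG F₀ K) t c (Module.finrank Qbar⟮tbar⟯ ↥(FbarG F₀)) := by
  obtain ⟨c', hc', C, hfin, hdec, γ, e', u, -, he, heA, hu, hshp, -, hsum, hpl⟩ :=
    cusp_family_some X A W cv tbar hgen hn hnA hWA hshape hzero htame t ht γ₀ _ hγ₀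
  have hcc : c' = c := Subtype.ext ((algebraMap K Qbar).injective hc')
  subst hcc
  exact ⟨C, hfin, hdec, fun κ => (X (γ κ)).τ, e', u, fun κ a => (X (γ κ)).const (a : K),
    fun κ f => hfrac (γ κ) f, he, heA, hu, hshp, hpl, hsum⟩

open Fermat.Agent.RED.CUSP.CuspIface23 in
include hgen in
/-- the family over the poles of `t`, for the coordinate `t⁻¹` and the value `0`. -/
theorem hasCuspFamily_none [IsPrincipalIdealRing ↥(AK A K)]
    (hn : n ≠ 0) (hnA : ((n : Qbar))⁻¹ ∈ A) (hWA : ((W : Qbar))⁻¹ ∈ A)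
    (hfrac : ∀ γ (f : ↥(FKG F₀ K)), (X γ).τ f ∈ psFrac ↥(AK A K) ↥K)
    (hshape : ∀ γ, CuspShape n ((X γ).T tbar) (cv γ))
    (hpole : ∀ v : Place Qbar ↥(FbarG F₀), v.ord tbar < 0 →
      ∃ γ, (X γ).v = v ∧ cv γ = none)
    (htame : ∀ γ, cv γ = none → ((X γ).v.ord tbar).natAbs ∣ W)
    (t : ↥(FKG F₀ K)) (ht : baseChangeHomG F₀ K t = tbar) :
    HasCuspFamily (AK A K) (FKG F₀ K) t⁻¹ 0 (Module.finrank Qbar⟮tbar⟯ ↥(FbarG F₀)) := by
  obtain ⟨C, hfin, hdec, γ, e', u, -, he, heA, hu, hshp, -, hsum, hpl⟩ :=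
    cusp_family_none X A W cv tbar hgen hn hnA hWA hshape hpole htame t ht
  exact ⟨C, hfin, hdec, fun κ => (X (γ κ)).τ, e', u, fun κ a => (X (γ κ)).const (a : K),
    fun κ f => hfrac (γ κ) f, he, heA, hu, hshp, hpl, hsum⟩

end Family

end Fermat.Agent.DS.G.RED.CUSP.CuspFamilyAbs80
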