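/-
DS programme (S48), chapter G-RED, CUSP twins (bricks row 385; helper80).

GENERIC twin of `RED/CUSP/CuspFamilyK16` (helper16): the concrete family `ι := CuspEmbK16.TK E` of
cusp expansions over a number field `K`, in the shapes consumed by the generic cusp theorem, for an
arbitrary level `L : LevelData`, over helper28's `E : CuspExpK L K`
(`DS/G/RED/CUSP/CuspEmbK16`: compressed expansion `E.Tc`, place `E.v`).

The original also uses the UNCOMPRESSED expansion `(cuspData M).T γ = (Tc M γ)(q^r)`, `r = cuspR M γ`.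
Here it is a parameter: `(r : ℕ) [NeZero r] (T : ℚ̄·L.F₀ →+* ℚ̄((q)))
(hT : ∀ f, qExpand Qbar r (E.Tc f) = T f)` (for the `CuspExact16` twin: `r = cuspR L γ`,
`T = C.T γ`, `hT = qExpand_Tc C γ`).

SAME NAMES as the original, `hζ γ` replaced by `E r T hT`:
`coeffMap_qExpand_TK`, `toLS_eq`, `shape_some`, `shape_none` (F1), `order_toLS_mul_X_pow`,
`order_sub_of_shape`, `ord_placeOf_of_shape` (F2), `hplaces_of_fibre` (F3).
All proofs are instances of the level-free core `CuspFamilyAbs80` (`embAt E r T hT : EmbAt L.F₀ K`).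
-/
import Fermat.Agent.DS.G.RED.CUSP.CuspEmbK16
import Fermat.Agent.DS.G.RED.CUSP.CuspFamilyAbs80

set_option autoImplicit false
set_option linter.unusedSectionVars false

noncomputable section

namespace Fermat.Agent.DS.G.RED.CUSP.CuspFamilyK16

open Fermat.Agent.X0 AlgebraicCurve ModularCurve HahnSeries
open Fermat.Agent.RED.Interface4 (Qbar AK)
open Fermat.Agent.DS.G.Level
open Fermat.Agent.DS.G.RED.Iface Fermat.Agent.DS.G.RED.Desc
open Fermat.Agent.DS.G.RED.CUSP.CuspEmbK16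
open Fermat.Agent.DS.G.RED.CUSP.CuspFamilyAbs80 (EmbAt)
open Fermat.Agent.RED.CUSP.IntClosedPS16
open Fermat.Agent.RED.BASE.Interface12 (CuspShape)
open scoped MatrixGroups

variable {L : LevelData} {K : IntermediateField ℚ Qbar}

/-- The level-free datum attached to `E` and its uncompressed form. -/
def embAt (E : CuspExpK L K) (r : ℕ) [NeZero r] (T : FbarG L.F₀ →+* LaurentSeries Qbar)
    (hT : ∀ f : FbarG L.F₀, qExpand Qbar r (E.Tc f) = T f) : EmbAt L.F₀ K where
  r := r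
  τ := TK E
  T := T
  v := E.v
  comp := fun z => by
    rw [Fermat.Agent.X0.CuspGood.coeffMap_qExpand, coeffMap_TK, hT]
  const := TK_const E
  order := order_TK E

section One

variable (E : CuspExpK L K) (r : ℕ) [NeZero r] (T : FbarG L.F₀ →+* LaurentSeries Qbar)
  (hT : ∀ f : FbarG L.F₀, qExpand Qbar r (E.Tc f) = T f)
variable (A : ValuationSubring Qbar)

include hT in
/-- `coeffMap (qExpand r (TK E z)) = T (emb z)`. -/
theorem coeffMap_qExpand_TK (z : FKG L.F₀ K) :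
    coeffMap (algebraMap K Qbar) (qExpand K r (TK E z)) = T (baseChangeHomG L.F₀ K z) :=
  (embAt E r T hT).comp z

theorem toLS_eq (p : PowerSeries ↥(AK A K)) :
    toLS ↥(AK A K) ↥K p = HahnSeries.ofPowerSeries ℤ K (p.map (AK A K).subtype) := rfl

include hT in
/-- **(F1)** the shape of `TK E t` at a cusp with finite value `c̄`. -/
theorem shape_some (n : ℕ) (hn : n ≠ 0) (hnA : ((n : Qbar))⁻¹ ∈ A) (t : FKG L.F₀ K) (cbar : Qbar)
    (h : CuspShape n (T (baseChangeHomG L.F₀ K t)) (some cbar)) :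
    ∃ (c : AK A K) (e₀ : ℕ) (u : PowerSeries ↥(AK A K)), 0 < e₀ ∧
      IsUnit (PowerSeries.constantCoeff u) ∧ algebraMap K Qbar (c : K) = cbar ∧
      TK E t = HahnSeries.C (c : K) + toLS ↥(AK A K) ↥K (u * PowerSeries.X ^ e₀) :=
  CuspFamilyAbs80.shape_some (embAt E r T hT) A n hn hnA t cbar h

include hT in
/-- **(F1)**, pole version: the shape of `(TK E t)⁻¹` at a cusp where `t` has a pole. -/
theorem shape_none (n : ℕ) (hn : n ≠ 0) (hnA : ((n : Qbar))⁻¹ ∈ A) (t : FKG L.F₀ K)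
    (h : CuspShape n (T (baseChangeHomG L.F₀ K t)) none) :
    ∃ (e₀ : ℕ) (u : PowerSeries ↥(AK A K)), 0 < e₀ ∧
      IsUnit (PowerSeries.constantCoeff u) ∧
      TK E t⁻¹ = toLS ↥(AK A K) ↥K (u * PowerSeries.X ^ e₀) :=
  CuspFamilyAbs80.shape_none (embAt E r T hT) A n hn hnA t h

/-- The order of `u * X ^ e` for `u` with nonzero constant coefficient (level-free: this IS the
original lemma). -/
theorem order_toLS_mul_X_pow (u : PowerSeries ↥(AK A K))
    (hu : IsUnit (PowerSeries.constantCoeff u)) (e₀ : ℕ) :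
    (toLS ↥(AK A K) ↥K (u * PowerSeries.X ^ e₀)).order = e₀ :=
  Fermat.Agent.RED.CUSP.CuspFamilyK16.order_toLS_mul_X_pow A u hu e₀

/-- **(F2)** `ord (TK E (t - c)) = e₀`. -/
theorem order_sub_of_shape (t : FKG L.F₀ K) (c : AK A K) (e₀ : ℕ) (u : PowerSeries ↥(AK A K))
    (hu : IsUnit (PowerSeries.constantCoeff u))
    (ht : TK E t = HahnSeries.C (c : K) + toLS ↥(AK A K) ↥K (u * PowerSeries.X ^ e₀)) :
    (TK E (t - algebraMap K (FKG L.F₀ K) (c : K))).order = e₀ :=
  CuspFamilyAbs80.order_sub_of_shape (embAt E 1 E.Tc (fun f => by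
    rw [ModularCurve.qExpand_one_apply])) A t c e₀ u hu ht

/-- **(F2)**, on the `ℚ̄`-side: `ord_v (emb t - c̄) = e₀` for `v = E.v`. -/
theorem ord_placeOf_of_shape (t : FKG L.F₀ K) (c : AK A K) (e₀ : ℕ) (he₀ : 0 < e₀)
    (u : PowerSeries ↥(AK A K)) (hu : IsUnit (PowerSeries.constantCoeff u))
    (ht : TK E t = HahnSeries.C (c : K) + toLS ↥(AK A K) ↥K (u * PowerSeries.X ^ e₀)) :
    E.v.ord (baseChangeHomG L.F₀ K (t - algebraMap K (FKG L.F₀ K) (c : K))) = e₀ :=
  CuspFamilyAbs80.ord_v_of_shape (embAt E 1 E.Tc (fun f => by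
    rw [ModularCurve.qExpand_one_apply])) A t c e₀ he₀ u hu ht

end One

/-- **(F3)** `hplaces` from the description of the fibre over `ℚ̄`, for a family
`E : SL(2, ℤ) → CuspExpK L K`; `hgen` is any transcendental generator of `ℚ̄·L.F₀` (e.g. `j`). -/
theorem hplaces_of_fibre (E : SL(2, ℤ) → CuspExpK L K) {x : FbarG L.F₀}
    (hgen : FF.IsGen Qbar x) (τ : FKG L.F₀ K) (Γ : Set (SL(2, ℤ)))
    (hfib : ∀ v : Place Qbar (FbarG L.F₀), 0 < v.ord (baseChangeHomG L.F₀ K τ) →
      ∃ γ ∈ Γ, v = (E γ).v)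
    (w : Place K (FKG L.F₀ K)) (hw : 0 < w.ord τ) :
    ∃ γ ∈ Γ, ∀ z : FKG L.F₀ K, z ≠ 0 → 0 ≤ (TK (E γ) z).order → z ∈ w.toValuationSubring :=
  CuspFamilyAbs80.hplaces_of_fibre
    (fun γ => embAt (E γ) 1 (E γ).Tc (fun f => by rw [ModularCurve.qExpand_one_apply]))
    hgen τ Γ hfib w hw

end Fermat.Agent.DS.G.RED.CUSP.CuspFamilyK16
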