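/-
Programme DS (S48), chapter G-RED, CUSP twins (helper29).  Generic twin of `RED/CUSP/CuspFibre14`
(helper14): the fibre of the Hauptmodul `t` over a finite cusp value `c`, over `ℚbar`, for an
abstract level `L : LevelData` with `(D : RealizeDataK L) (C : CuspDataK L D)`, `hC : C.Distinct`.

The BASE inputs are taken in the unfolded shapes of helper77's `DS/G/RED/BASE/Interface12` Props at a
fixed `h : TMem n e L`:
* `hexp  : ∀ γ, CuspShape n (C.T γ (tF L h)) (cv γ)`                     (`CuspExp`);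
* `hU    : ∀ v, 0 ≤ v.ord (jFL L) → ∃ c, v.ord (tF L h - c) = 1`          (`Unbranched`);
* `hcusp : ∀ v γ c, cv γ = some c → 0 < v.ord (tF L h - c) → v.ord (jFL L) < 0`
                                                        (`CuspExports.cuspPlaces`, helper89's (B));
* `hgen  : FF.IsGen Kbar (tF L h)`                                        (`TIsGen`).

Same names as the original.  Level-free lemmas of the original (`eq_of_ord_sub_pos`,
`sum_toNat_fibre`, `sum_toNat_poles`, `fintypeFibre`, `fintypePoles`) are used as they are.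
-/
import Mathlib
import Fermat.Agent.DS.G.RED.CUSP.CuspExact16
import Fermat.Agent.DS.G.RED.BASE.Interface12
import Fermat.Agent.RED.CUSP.CuspFibre14

set_option autoImplicit false
set_option linter.unusedSectionVars false

open UpperHalfPlane hiding I
open scoped MatrixGroups IntermediateField

noncomputable section

namespace Fermat.Agent.DS.G.RED.CUSP.CuspFibre14

open AlgebraicCurve ModularCurve
open Fermat.Agent.X0 (Kbar iotaK iotaK_injective)
open Fermat.Agent.X0.FF
open Fermat.Agent.DS.G.Level Fermat.Agent.DS.G.X0.CuspPlaces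
open Fermat.Agent.DS.G.RED.BASE.Interface12
open Fermat.Agent.RED.BASE.Interface12 (CuspShape)
open Fermat.Agent.RED.BASE.FiniteAvoids14 (order_cuspTail)
open Fermat.Agent.RED.CUSP.CuspFibre14 (eq_of_ord_sub_pos sum_toNat_fibre sum_toNat_poles)
open Fermat.Agent.DS.G.RED.CUSP.CuspExact16

variable {L : LevelData} {D : RealizeDataK L} (C : CuspDataK L D)

/-- generic form: `m · ord_v f = order (T g⁻¹ f)`. -/
theorem cuspPlace_ord_eq (g : SL(2, ℤ)) :
    ∃ m : ℕ, 0 < m ∧ ∀ f : FFL L, f ≠ 0 →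
      (C.T g⁻¹ f).order = (m : ℤ) * (cuspPlace (hGood C) g).ord f := by
  obtain ⟨m, hm, h, -⟩ := cuspPlace_spec (hGood C) g
  exact ⟨m, hm, h⟩

/-- The shape of the cusp expansion at `γ` decides the value of `t` at the cusp place of `γ⁻¹`. -/
theorem ord_sub_pos_of_shape_some (m : ℕ) (γ : SL(2, ℤ))
    (t : FFL L) (c : Kbar) (hs : CuspShape m (C.T γ t) (some c)) :
    0 < (cuspPlace (hGood C) γ⁻¹).ord (t - algebraMap Kbar (FFL L) c) := by
  obtain ⟨k, lam, V, hk, hlam, hV, -, -, hE⟩ := hs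
  have hgood := hGood C
  have hexp : C.T γ (t - algebraMap Kbar (FFL L) c) =
      HahnSeries.C lam * HahnSeries.single (k : ℤ) 1 * HahnSeries.ofPowerSeries ℤ Kbar V := by
    rw [map_sub, hgood.map_const, hE]
    ring
  have hord : (C.T γ (t - algebraMap Kbar (FFL L) c)).order = (k : ℤ) := by
    rw [hexp, order_cuspTail k lam hlam.1 V hV]
  have hne : t - algebraMap Kbar (FFL L) c ≠ 0 := by
    intro h0
    rw [h0, map_zero, HahnSeries.order_zero] at hord
    have : (0 : ℤ) < k := by exact_mod_cast hk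
    omega
  obtain ⟨μ, hμ, hspec⟩ := cuspPlace_ord_eq C γ⁻¹
  have h := hspec _ hne
  rw [inv_inv, hord] at h
  have hμ' : (0 : ℤ) < μ := by exact_mod_cast hμ
  have hk' : (0 : ℤ) < k := by exact_mod_cast hk
  by_contra hneg
  rw [not_lt] at hneg
  nlinarith

theorem ord_neg_of_shape_none (m : ℕ) (γ : SL(2, ℤ))
    (t : FFL L) (hs : CuspShape m (C.T γ t) none) :
    (cuspPlace (hGood C) γ⁻¹).ord t < 0 := by
  obtain ⟨k, lam, V, hk, hlam, hV, -, hE⟩ := hs
  have hE' : (C.T γ t)⁻¹ =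
      HahnSeries.C lam * HahnSeries.single (k : ℤ) 1 * HahnSeries.ofPowerSeries ℤ Kbar V := hE
  have hord : ((C.T γ t)⁻¹).order = (k : ℤ) := by
    rw [hE', order_cuspTail k lam hlam.1 V hV]
  have hk' : (0 : ℤ) < k := by exact_mod_cast hk
  have hne : t ≠ 0 := by
    intro h0
    rw [h0, map_zero, inv_zero, HahnSeries.order_zero] at hord
    omega
  have hTne : C.T γ t ≠ 0 := Fermat.Agent.X0.LaurentPlace.emb_ne_zero (C.T γ) hne
  have hordT : (C.T γ t).order = -(k : ℤ) := by
    have h1 : (C.T γ t * (C.T γ t)⁻¹).order = 0 := by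
      rw [mul_inv_cancel₀ hTne, HahnSeries.order_one]
    rw [HahnSeries.order_mul hTne (inv_ne_zero hTne), hord] at h1
    omega
  obtain ⟨μ, hμ, hspec⟩ := cuspPlace_ord_eq C γ⁻¹
  have h := hspec _ hne
  rw [inv_inv, hordT] at h
  have hμ' : (0 : ℤ) < μ := by exact_mod_cast hμ
  by_contra hneg
  rw [not_lt] at hneg
  nlinarith

section Package

variable {C} (hC : C.Distinct) {n e : ℕ} [NeZero n] (cv : SL(2, ℤ) → Option Kbar)
  (h : TMem n e L) (hexp : ∀ γ : SL(2, ℤ), CuspShape n (C.T γ (tF L h)) (cv γ))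

include hC hexp in
/-- **(iv), place side.**  A zero of `t - c` (`c` a finite cusp value) is a cusp place
`cuspPlace g` with `cv g⁻¹ = some c`. -/
theorem exists_cuspPlace_of_zero
    (hcusp : ∀ (v : Place Kbar (FFL L)) (γ : SL(2, ℤ)) (c : Kbar), cv γ = some c →
      0 < v.ord (tF L h - algebraMap Kbar (FFL L) c) → v.ord (jFL L) < 0)
    (v : Place Kbar (FFL L)) (γ₀ : SL(2, ℤ)) (c : Kbar) (hγ₀ : cv γ₀ = some c)
    (hpos : 0 < v.ord (tF L h - algebraMap Kbar (FFL L) c)) :
    ∃ g : SL(2, ℤ), cuspPlace (hGood C) g = v ∧ cv g⁻¹ = some c := by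
  have hj := hcusp v γ₀ c hγ₀ hpos
  obtain ⟨g, hg⟩ :=
    Fermat.Agent.DS.G.X0.CuspSurj.exists_cuspPlace_eq iotaK_injective C hC v hj
  refine ⟨g, hg, ?_⟩
  have hs := hexp g⁻¹
  rcases hcg : cv g⁻¹ with _ | c'
  · exfalso
    rw [hcg] at hs
    have hneg := ord_neg_of_shape_none C n g⁻¹ (tF L h) hs
    rw [inv_inv] at hneg
    have hneg' : v.ord (tF L h) < 0 := by rw [← hg]; exact hneg
    -- `t - c` integral at `v` forces `t` integral at `v`
    have h1 : tF L h - algebraMap Kbar (FFL L) c ∈ v.toValuationSubring :=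
      (ffp_mem_iff_ord_nonneg v).mpr (le_of_lt hpos)
    have h2 : algebraMap Kbar (FFL L) c ∈ v.toValuationSubring :=
      (ffp_mem_iff_ord_nonneg v).mpr (le_of_eq (ffp_ord_algebraMap v c).symm)
    have h3 := v.toValuationSubring.add_mem _ _ h1 h2
    rw [sub_add_cancel] at h3
    have := (ffp_mem_iff_ord_nonneg v).mp h3
    omega
  · rw [hcg] at hs
    have hpos' := ord_sub_pos_of_shape_some C n g⁻¹ (tF L h) c' hs
    rw [inv_inv] at hpos'
    have hpos'' : 0 < v.ord (tF L h - algebraMap Kbar (FFL L) c') := by rw [← hg]; exact hpos'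
    rw [eq_of_ord_sub_pos v (tF L h) c c' hpos hpos'']

include hC hexp in
/-- zeros of `t - c`, `c` a finite cusp value, are the cusp places `placeOf C γ`, `cv γ = some c`. -/
theorem exists_placeOf_of_zero
    (hcusp : ∀ (v : Place Kbar (FFL L)) (γ : SL(2, ℤ)) (c : Kbar), cv γ = some c →
      0 < v.ord (tF L h - algebraMap Kbar (FFL L) c) → v.ord (jFL L) < 0)
    (v : Place Kbar (FFL L)) (γ₀ : SL(2, ℤ)) (c : Kbar)
    (hγ₀ : cv γ₀ = some c) (hpos : 0 < v.ord (tF L h - algebraMap Kbar (FFL L) c)) :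
    ∃ γ : SL(2, ℤ), placeOf C γ = v ∧ cv γ = some c := by
  obtain ⟨g, hg, hcg⟩ := exists_cuspPlace_of_zero hC cv h hexp hcusp v γ₀ c hγ₀ hpos
  refine ⟨g⁻¹, ?_, hcg⟩
  rw [placeOf, inv_inv]
  exact hg

include hexp in
/-- conversely `placeOf C γ` is a zero of `t - c` when `cv γ = some c`. -/
theorem placeOf_ord_sub_pos (γ : SL(2, ℤ)) (c : Kbar) (hγ : cv γ = some c) :
    0 < (placeOf C γ).ord (tF L h - algebraMap Kbar (FFL L) c) := by
  have hs := hexp γ
  rw [hγ] at hs
  exact ord_sub_pos_of_shape_some C n γ (tF L h) c hs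

include hexp in
/-- `placeOf C γ` is a pole of `t` when `cv γ = none`. -/
theorem placeOf_ord_neg (γ : SL(2, ℤ)) (hγ : cv γ = none) :
    (placeOf C γ).ord (tF L h) < 0 := by
  have hs := hexp γ
  rw [hγ] at hs
  exact ord_neg_of_shape_none C n γ (tF L h) hs

include hC hexp in
/-- poles of `t` are the cusp places `placeOf C γ` with `cv γ = none`. -/
theorem exists_placeOf_of_pole
    (hU : ∀ v : Place Kbar (FFL L), 0 ≤ v.ord (jFL L) →
      ∃ c : Kbar, v.ord (tF L h - algebraMap Kbar (FFL L) c) = 1)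
    (v : Place Kbar (FFL L))
    (hneg : v.ord (tF L h) < 0) : ∃ γ : SL(2, ℤ), placeOf C γ = v ∧ cv γ = none := by
  -- `v` lies over `j = ∞`
  have hj : v.ord (jFL L) < 0 := by
    by_contra hj
    rw [not_lt] at hj
    obtain ⟨c, hc⟩ := hU v hj
    have h1 : tF L h - algebraMap Kbar (FFL L) c ∈ v.toValuationSubring :=
      (ffp_mem_iff_ord_nonneg v).mpr (by rw [hc]; exact zero_le_one)
    have h2 : algebraMap Kbar (FFL L) c ∈ v.toValuationSubring :=
      (ffp_mem_iff_ord_nonneg v).mpr (le_of_eq (ffp_ord_algebraMap v c).symm)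
    have h3 := v.toValuationSubring.add_mem _ _ h1 h2
    rw [sub_add_cancel] at h3
    have := (ffp_mem_iff_ord_nonneg v).mp h3
    omega
  obtain ⟨g, hg⟩ :=
    Fermat.Agent.DS.G.X0.CuspSurj.exists_cuspPlace_eq iotaK_injective C hC v hj
  refine ⟨g⁻¹, by rw [placeOf, inv_inv]; exact hg, ?_⟩
  rcases hcg : cv g⁻¹ with _ | c'
  · rfl
  · exfalso
    have hpos := placeOf_ord_sub_pos cv h hexp g⁻¹ c' hcg
    rw [placeOf, inv_inv] at hpos
    have hpos' : 0 < v.ord (tF L h - algebraMap Kbar (FFL L) c') := by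
      rw [← hg]
      exact hpos
    have h1 : tF L h - algebraMap Kbar (FFL L) c' ∈ v.toValuationSubring :=
      (ffp_mem_iff_ord_nonneg v).mpr (le_of_lt hpos')
    have h2 : algebraMap Kbar (FFL L) c' ∈ v.toValuationSubring :=
      (ffp_mem_iff_ord_nonneg v).mpr (le_of_eq (ffp_ord_algebraMap v c').symm)
    have h3 := v.toValuationSubring.add_mem _ _ h1 h2
    rw [sub_add_cancel] at h3
    have := (ffp_mem_iff_ord_nonneg v).mp h3
    omega

/-- the degree count over a cusp value: `∑_{v | t = c} ord_v (t - c) = [FFL L : ℚbar(t)]`. -/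
theorem sum_ord_cusp_fibre (hgen : IsGen Kbar (tF L h)) (c : Kbar) :
    ∑ᶠ (v : Place Kbar (FFL L)) (_ : 0 < v.ord (tF L h - algebraMap Kbar (FFL L) c)),
      v.ord (tF L h - algebraMap Kbar (FFL L) c) = (Module.finrank Kbar⟮tF L h⟯ (FFL L) : ℤ) :=
  sum_ord_fibre hgen c

/-- **rank count, zeros**: `∑_{v | t = c} (ord_v (t - c)).toNat = [FFL L : ℚbar(t)]`. -/
theorem sum_toNat_zero_fibre (hgen : IsGen Kbar (tF L h)) (c : Kbar)
    [Fintype {v : Place Kbar (FFL L) // 0 < v.ord (tF L h - algebraMap Kbar (FFL L) c)}] :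
    ∑ v : {v : Place Kbar (FFL L) // 0 < v.ord (tF L h - algebraMap Kbar (FFL L) c)},
      (v.1.ord (tF L h - algebraMap Kbar (FFL L) c)).toNat
      = Module.finrank Kbar⟮tF L h⟯ (FFL L) :=
  sum_toNat_fibre hgen c

/-- **rank count, poles**: `∑_{v | t = ∞} (-ord_v t).toNat = [FFL L : ℚbar(t)]`. -/
theorem sum_toNat_pole_fibre (hgen : IsGen Kbar (tF L h))
    [Fintype {v : Place Kbar (FFL L) // v.ord (tF L h) < 0}] :
    ∑ v : {v : Place Kbar (FFL L) // v.ord (tF L h) < 0}, (-v.1.ord (tF L h)).toNat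
      = Module.finrank Kbar⟮tF L h⟯ (FFL L) :=
  sum_toNat_poles hgen

end Package

end Fermat.Agent.DS.G.RED.CUSP.CuspFibre14
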