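/-
DS programme (S48), chapter G-RED, CUSP twins (bricks row 385; helper80).

GENERIC twin of `RED/CUSP/CuspPackK16` (helper16): the PACKAGED concrete family of cusp expansions
over a cusp value, in the shape consumed by the generic cusp theorem, at an abstract level
`L : LevelData` with `D : RealizeDataK L`, `C : CuspDataK L D`, (DISTINCT) `hC : C.Distinct`.

Vocabulary:
* `KRational C K`    : the coefficients of the cusp expansions `C.T γ g` of the generators
                       `g ∈ L.gensQ` lie in `K` (the twin of `hζ : zetaK M ∈ K`; chapter X1 input);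
* `cuspExpK hC hK γ : CuspExpK L K` : helper28's input structure, from helper29's `CuspExact16`
                       twin (`Tc C γ`, `placeOf C γ`);
* `embAtK C hC hK γ : EmbAt L.F₀ K`   : the level-free datum of `CuspFamilyAbs80`;
* `TKγ C hC hK γ := CuspEmbK16.TK (cuspExpK C hC hK γ)` : the compressed expansion over `K`.

Fibre description: helper29's `CuspFibre14` twin (`exists_placeOf_of_zero` from `hcp` = field
`cuspPlaces` of the cusp exports of chapter BASE; `exists_placeOf_of_pole` from `hU` = the body of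
`Interface12.Unbranched`).

Main theorems (same names as the original): `cusp_family_some`, `cusp_family_none`; the tameness
inputs `htame` are the conclusions `.2` of the `CuspTame11` twin (`M` replaced by `L.w`).
`hasCuspFamily_some/none`: the wrapper form `CuspIface23.HasCuspFamily` (twin of the `Family`
section of `CuspConcrete23`), with `hfrac` (`TK ∈ Frac (A_K⟦s⟧)`) as a hypothesis; it follows from
`CuspEmbK16.TK_mem_psFrac` (coefficients of the generators in `A`) or from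
`PsFracDescent80.mem_psFrac_of_qExpand_mem_fracField` (uncompressed expansions in `fracField`).
-/
import Fermat.Agent.DS.G.RED.CUSP.CuspFamilyK16
import Fermat.Agent.DS.G.RED.CUSP.CuspFibre14

set_option autoImplicit false
set_option linter.unusedSectionVars false
set_option linter.unusedVariables false

noncomputable section

namespace Fermat.Agent.DS.G.RED.CUSP.CuspPackK16

open Fermat.Agent.X0 Fermat.Agent.X0.FF AlgebraicCurve ModularCurve HahnSeries
open Fermat.Agent.RED.Interface4 (Qbar AK)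
open Fermat.Agent.DS.G.Level Fermat.Agent.DS.G.X0 Fermat.Agent.DS.G.X0.CuspPlaces
open Fermat.Agent.DS.G.RED.Iface Fermat.Agent.DS.G.RED.Desc
open Fermat.Agent.DS.G.RED.CUSP.CuspEmbK16 Fermat.Agent.DS.G.RED.CUSP.CuspExact16
open Fermat.Agent.DS.G.RED.CUSP.CuspFamilyAbs80 (EmbAt)
open Fermat.Agent.DS.G.RED.BASE.Interface12
open Fermat.Agent.RED.CUSP.IntClosedPS16
open Fermat.Agent.RED.BASE.Interface12 (CuspShape)
open scoped MatrixGroups
open IntermediateField

variable {L : LevelData} {D : RealizeDataK L} (C : CuspDataK L D)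

/-! ### The family over `K` -/

/-- **K-rationality** of the cusp expansions of the generators (chapter X1 input; the twin of
`hζ : zetaK M ∈ K`). -/
def KRational (K : IntermediateField ℚ Qbar) : Prop :=
  ∀ (γ : SL(2, ℤ)) (g : L.gensQ) (m : ℤ), (C.T γ (genc L Kbar g)).coeff m ∈ K

variable {C} {K : IntermediateField ℚ Qbar}

theorem KRational.mono {K' : IntermediateField ℚ Qbar} (hK : KRational C K) (hle : K ≤ K') :
    KRational C K' := fun γ g m => hle (hK γ g m)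

variable (hC : C.Distinct) (hK : KRational C K)

/-- helper28's input structure at the cusp `γ`. -/
def cuspExpK (γ : SL(2, ℤ)) : CuspExpK L K where
  Tc := Tc C γ
  v := placeOf C γ
  Tc_const := Tc_const C γ
  order_Tc := order_Tc C hC γ
  gen_coeff_mem := fun g m => by
    rw [Tc_coeff]
    exact hK γ g _

/-- The compressed cusp expansion over `K` at the cusp `γ` (the twin of `TK hζ γ`). -/
def TKγ (γ : SL(2, ℤ)) : FKG L.F₀ K →+* LaurentSeries K := TK (cuspExpK hC hK γ)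

/-- The level-free datum at the cusp `γ`. -/
def embAtK (γ : SL(2, ℤ)) : EmbAt L.F₀ K :=
  CuspFamilyK16.embAt (cuspExpK hC hK γ) (cuspR L γ) (C.T γ) (qExpand_Tc C γ)

@[simp] theorem embAtK_τ (γ : SL(2, ℤ)) : (embAtK hC hK γ).τ = TKγ hC hK γ := rfl
@[simp] theorem embAtK_T (γ : SL(2, ℤ)) : (embAtK hC hK γ).T = C.T γ := rfl
@[simp] theorem embAtK_v (γ : SL(2, ℤ)) : (embAtK hC hK γ).v = placeOf C γ := rfl
@[simp] theorem embAtK_r (γ : SL(2, ℤ)) : (embAtK hC hK γ).r = cuspR L γ := rfl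

theorem coeffMap_TKγ (γ : SL(2, ℤ)) (z : FKG L.F₀ K) :
    coeffMap (algebraMap K Qbar) (TKγ hC hK γ z) = Tc C γ (baseChangeHomG L.F₀ K z) :=
  coeffMap_TK (cuspExpK hC hK γ) z

theorem coeffMap_qExpand_TKγ (γ : SL(2, ℤ)) (z : FKG L.F₀ K) :
    coeffMap (algebraMap K Qbar) (qExpand K (cuspR L γ) (TKγ hC hK γ z)) =
      C.T γ (baseChangeHomG L.F₀ K z) :=
  (embAtK hC hK γ).comp z

theorem TKγ_const (γ : SL(2, ℤ)) (c : K) :
    TKγ hC hK γ (algebraMap K (FKG L.F₀ K) c) = HahnSeries.C c :=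
  TK_const (cuspExpK hC hK γ) c

theorem order_TKγ (γ : SL(2, ℤ)) (z : FKG L.F₀ K) (hz : z ≠ 0) :
    (TKγ hC hK γ z).order = (placeOf C γ).ord (baseChangeHomG L.F₀ K z) :=
  order_TK (cuspExpK hC hK γ) z hz

section Main

variable (A : ValuationSubring Qbar) {n e : ℕ} [NeZero n] (cv : SL(2, ℤ) → Option Kbar)
  (h : TMem n e L) (hgen : FF.IsGen Kbar (tF L h))
  (hshape : ∀ γ : SL(2, ℤ), CuspShape n (C.T γ (tF L h)) (cv γ))

include hgen hshape in
/-- **The packaged family over a finite cusp value.** -/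
theorem cusp_family_some [IsPrincipalIdealRing ↥(AK A K)]
    (hnA : ((n : Qbar))⁻¹ ∈ A) (hWA : ((L.w : Qbar))⁻¹ ∈ A)
    (hcp : ∀ v : Place Kbar (FFL L), ∀ (γ : SL(2, ℤ)) (c : Kbar), cv γ = some c →
      0 < v.ord (tF L h - algebraMap Kbar (FFL L) c) → v.ord (jFL L) < 0)
    (htame : ∀ (γ : SL(2, ℤ)) (c : Kbar), cv γ = some c →
      ((placeOf C γ).ord (tF L h - algebraMap Kbar (FFL L) c)).natAbs ∣ L.w)
    (t : FKG L.F₀ K) (ht : baseChangeHomG L.F₀ K t = tF L h)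
    (γ₀ : SL(2, ℤ)) (cbar : Qbar) (hγ₀ : cv γ₀ = some cbar) :
    ∃ c : ↥(AK A K), algebraMap K Qbar (c : K) = cbar ∧
    ∃ (Cκ : Type) (_ : Fintype Cκ) (_ : DecidableEq Cκ) (γ : Cκ → SL(2, ℤ)) (e' : Cκ → ℕ)
      (u : Cκ → PowerSeries ↥(AK A K)),
      (∀ κ, cv (γ κ) = some cbar) ∧
      (∀ κ, 0 < e' κ) ∧ (∀ κ, IsUnit ((e' κ : ℕ) : ↥(AK A K))) ∧
      (∀ κ, IsUnit (PowerSeries.constantCoeff (u κ))) ∧
      (∀ κ, TKγ hC hK (γ κ) t =
        HahnSeries.C (c : K) + toLS ↥(AK A K) ↥K (u κ * PowerSeries.X ^ e' κ)) ∧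
      (∀ κ, (TKγ hC hK (γ κ) (t - algebraMap K (FKG L.F₀ K) (c : K))).order = e' κ) ∧
      (∑ κ, e' κ = Module.finrank Kbar⟮tF L h⟯ (FFL L)) ∧
      (∀ w : Place K (FKG L.F₀ K), 0 < w.ord (t - algebraMap K (FKG L.F₀ K) (c : K)) →
        ∃ κ, ∀ z : FKG L.F₀ K, z ≠ 0 → 0 ≤ (TKγ hC hK (γ κ) z).order →
          z ∈ w.toValuationSubring) :=
  CuspFamilyAbs80.cusp_family_some (embAtK hC hK) A L.w cv (tF L h) hgen (NeZero.ne n) hnA hWA
    hshape (fun v c hc hpos => by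
      obtain ⟨γ₁, hγ₁⟩ := hc
      exact CuspFibre14.exists_placeOf_of_zero hC cv h hshape hcp v γ₁ c hγ₁ hpos)
    htame t ht γ₀ cbar hγ₀

include hgen hshape in
/-- **The packaged family over the poles of `t`**, for the coordinate `t⁻¹` and the value `0`. -/
theorem cusp_family_none [IsPrincipalIdealRing ↥(AK A K)]
    (hnA : ((n : Qbar))⁻¹ ∈ A) (hWA : ((L.w : Qbar))⁻¹ ∈ A)
    (hU : ∀ v : Place Kbar (FFL L), 0 ≤ v.ord (jFL L) →
      ∃ c : Kbar, v.ord (tF L h - algebraMap Kbar (FFL L) c) = 1)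
    (htame : ∀ γ : SL(2, ℤ), cv γ = none → ((placeOf C γ).ord (tF L h)).natAbs ∣ L.w)
    (t : FKG L.F₀ K) (ht : baseChangeHomG L.F₀ K t = tF L h) :
    ∃ (Cκ : Type) (_ : Fintype Cκ) (_ : DecidableEq Cκ) (γ : Cκ → SL(2, ℤ)) (e' : Cκ → ℕ)
      (u : Cκ → PowerSeries ↥(AK A K)),
      (∀ κ, cv (γ κ) = none) ∧
      (∀ κ, 0 < e' κ) ∧ (∀ κ, IsUnit ((e' κ : ℕ) : ↥(AK A K))) ∧
      (∀ κ, IsUnit (PowerSeries.constantCoeff (u κ))) ∧
      (∀ κ, TKγ hC hK (γ κ) t⁻¹ =
        HahnSeries.C (((0 : ↥(AK A K)) : ↥(AK A K)) : K) +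
          toLS ↥(AK A K) ↥K (u κ * PowerSeries.X ^ e' κ)) ∧
      (∀ κ, (TKγ hC hK (γ κ)
          (t⁻¹ - algebraMap K (FKG L.F₀ K) (((0 : ↥(AK A K)) : ↥(AK A K)) : K))).order
        = e' κ) ∧
      (∑ κ, e' κ = Module.finrank Kbar⟮tF L h⟯ (FFL L)) ∧
      (∀ w : Place K (FKG L.F₀ K),
        0 < w.ord (t⁻¹ - algebraMap K (FKG L.F₀ K) (((0 : ↥(AK A K)) : ↥(AK A K)) : K)) →
        ∃ κ, ∀ z : FKG L.F₀ K, z ≠ 0 → 0 ≤ (TKγ hC hK (γ κ) z).order →
          z ∈ w.toValuationSubring) :=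
  CuspFamilyAbs80.cusp_family_none (embAtK hC hK) A L.w cv (tF L h) hgen (NeZero.ne n) hnA hWA
    hshape (fun v hv => CuspFibre14.exists_placeOf_of_pole hC cv h hshape hU v hv) htame t ht

open Fermat.Agent.RED.CUSP.CuspIface23 in
include hgen hshape in
/-- the family over a finite cusp value, in the wrapper form (twin of
`CuspConcrete23.hasCuspFamily_some`). -/
theorem hasCuspFamily_some [IsPrincipalIdealRing ↥(AK A K)]
    (hnA : ((n : Qbar))⁻¹ ∈ A) (hWA : ((L.w : Qbar))⁻¹ ∈ A)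
    (hfrac : ∀ γ (f : FKG L.F₀ K), TKγ hC hK γ f ∈ psFrac ↥(AK A K) ↥K)
    (hcp : ∀ v : Place Kbar (FFL L), ∀ (γ : SL(2, ℤ)) (c : Kbar), cv γ = some c →
      0 < v.ord (tF L h - algebraMap Kbar (FFL L) c) → v.ord (jFL L) < 0)
    (htame : ∀ (γ : SL(2, ℤ)) (c : Kbar), cv γ = some c →
      ((placeOf C γ).ord (tF L h - algebraMap Kbar (FFL L) c)).natAbs ∣ L.w)
    (t : FKG L.F₀ K) (ht : baseChangeHomG L.F₀ K t = tF L h) (c : ↥(AK A K)) (γ₀ : SL(2, ℤ))
    (hγ₀ : cv γ₀ = some (algebraMap K Qbar (c : K))) :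
    HasCuspFamily (AK A K) (FKG L.F₀ K) t c (Module.finrank Kbar⟮tF L h⟯ (FFL L)) :=
  CuspFamilyAbs80.hasCuspFamily_some (embAtK hC hK) A L.w cv (tF L h) hgen (NeZero.ne n) hnA hWA
    hfrac hshape (fun v c hc hpos => by
      obtain ⟨γ₁, hγ₁⟩ := hc
      exact CuspFibre14.exists_placeOf_of_zero hC cv h hshape hcp v γ₁ c hγ₁ hpos)
    htame t ht c γ₀ hγ₀

open Fermat.Agent.RED.CUSP.CuspIface23 in
include hgen hshape in
/-- the family over the poles of `t`, for the coordinate `t⁻¹` and the value `0` (twin of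
`CuspConcrete23.hasCuspFamily_none`). -/
theorem hasCuspFamily_none [IsPrincipalIdealRing ↥(AK A K)]
    (hnA : ((n : Qbar))⁻¹ ∈ A) (hWA : ((L.w : Qbar))⁻¹ ∈ A)
    (hfrac : ∀ γ (f : FKG L.F₀ K), TKγ hC hK γ f ∈ psFrac ↥(AK A K) ↥K)
    (hU : ∀ v : Place Kbar (FFL L), 0 ≤ v.ord (jFL L) →
      ∃ c : Kbar, v.ord (tF L h - algebraMap Kbar (FFL L) c) = 1)
    (htame : ∀ γ : SL(2, ℤ), cv γ = none → ((placeOf C γ).ord (tF L h)).natAbs ∣ L.w)
    (t : FKG L.F₀ K) (ht : baseChangeHomG L.F₀ K t = tF L h) :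
    HasCuspFamily (AK A K) (FKG L.F₀ K) t⁻¹ 0 (Module.finrank Kbar⟮tF L h⟯ (FFL L)) :=
  CuspFamilyAbs80.hasCuspFamily_none (embAtK hC hK) A L.w cv (tF L h) hgen (NeZero.ne n) hnA hWA
    hfrac hshape (fun v hv => CuspFibre14.exists_placeOf_of_pole hC cv h hshape hU v hv) htame t ht

end Main

end Fermat.Agent.DS.G.RED.CUSP.CuspPackK16
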