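/-
Programme DS (S48), chapter G-RED / CUSP (helper27): **the cusp families in the shape consumed by
`TopAsm77.modelStep_of_level` (`hfamS`, `hfamN`)**, generic in the level `L : LevelData` and in a
family `E : SL(2, ℤ) → CuspEmbK16.CuspExpK L K` of compressed cusp expansions over `K`.
(Twin of the `Family` section of `RED/CUSP/CuspConcrete23` + the rank bridge.)

* `PackSome`, `PackNone` : the OUTPUT SHAPES of the packaged families (`CuspPackK16.cusp_family_some`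
  / `cusp_family_none`, twins `DS/G/RED/CUSP/CuspPack29`), as definitions;
* `hasCuspFamily_some`, `hasCuspFamily_none` : `PackSome / PackNone → CuspIface23.HasCuspFamily`
  (with `ι κ := TK (E (γ κ))`, `TK_const`, `TK_mem_psFrac`);
* `hfamS_of_pack`, `hfamN_of_pack` : the `EventuallyT` statements `hfamS`, `hfamN` of
  `TopAsm77.modelStep_of_level` (rank `[K·F₀ : K(t)]` via `RankConcrete16.finrank_adjoin_tF`), from
  the packaged families over all large number fields.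
-/
import Mathlib
import Fermat.Agent.DS.G.RED.CUSP.CuspEmbK16
import Fermat.Agent.DS.G.RED.CUSP.RankConcrete16
import Fermat.Agent.DS.G.RED.ModelTargets4
import Fermat.Agent.RED.CUSP.CuspIface23
import Fermat.Agent.RED.DESC.NumberFieldDVR27

set_option autoImplicit false
set_option linter.unusedSectionVars false
set_option linter.unusedVariables false
set_option linter.style.haveILetI false

open HahnSeries ModularCurve IntermediateField AlgebraicCurve
open scoped MatrixGroups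

noncomputable section

namespace Fermat.Agent.DS.G.RED.CUSP.Hfam27

open Fermat.Agent.X0 (Kbar)
open Fermat.Agent.RED.Interface4 (Qbar AK)
open Fermat.Agent.DS.G.Level Fermat.Agent.DS.G.RED.Iface Fermat.Agent.DS.G.RED.Desc
open Fermat.Agent.DS.G.RED.BASE.Interface12
open Fermat.Agent.DS.G.RED.CUSP.CuspEmbK16
open Fermat.Agent.RED.CUSP.IntClosedPS16 Fermat.Agent.RED.CUSP.CuspIface23
open Fermat.Agent.RED.ModelTargets4 (cuspSet JTarget)
open Fermat.Agent.DS.G.RED.ModelTargets4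
open Fermat.Agent.RED.DESC.NumberFieldDVR27

variable {L : LevelData} {K : IntermediateField ℚ Qbar} (E : SL(2, ℤ) → CuspExpK L K)
  (A : ValuationSubring Qbar)

/-- **Output shape of the packaged family over a finite cusp value `c̄`**
(`CuspPackK16.cusp_family_some`), rank sum `N`. -/
def PackSome (cv : SL(2, ℤ) → Option Kbar) (N : ℕ) (t : FKG L.F₀ K) (cbar : Qbar) : Prop :=
  ∃ c : ↥(AK A K), algebraMap K Qbar (c : K) = cbar ∧
    ∃ (C' : Type) (_ : Fintype C') (_ : DecidableEq C') (γ : C' → SL(2, ℤ)) (e' : C' → ℕ)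
      (u : C' → PowerSeries ↥(AK A K)),
      (∀ κ, cv (γ κ) = some cbar) ∧
      (∀ κ, 0 < e' κ) ∧ (∀ κ, IsUnit ((e' κ : ℕ) : ↥(AK A K))) ∧
      (∀ κ, IsUnit (PowerSeries.constantCoeff (u κ))) ∧
      (∀ κ, TK (E (γ κ)) t =
        HahnSeries.C (c : K) + toLS ↥(AK A K) ↥K (u κ * PowerSeries.X ^ e' κ)) ∧
      (∀ κ, (TK (E (γ κ)) (t - algebraMap K (FKG L.F₀ K) (c : K))).order = e' κ) ∧
      (∑ κ, e' κ = N) ∧
      (∀ w : Place K (FKG L.F₀ K), 0 < w.ord (t - algebraMap K (FKG L.F₀ K) (c : K)) →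
        ∃ κ, ∀ z : FKG L.F₀ K, z ≠ 0 → 0 ≤ (TK (E (γ κ)) z).order → z ∈ w.toValuationSubring)

/-- **Output shape of the packaged family over the poles of `t`**
(`CuspPackK16.cusp_family_none`), coordinate `t⁻¹`, value `0`, rank sum `N`. -/
def PackNone (cv : SL(2, ℤ) → Option Kbar) (N : ℕ) (t : FKG L.F₀ K) : Prop :=
  ∃ (C' : Type) (_ : Fintype C') (_ : DecidableEq C') (γ : C' → SL(2, ℤ)) (e' : C' → ℕ)
    (u : C' → PowerSeries ↥(AK A K)),
    (∀ κ, cv (γ κ) = none) ∧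
    (∀ κ, 0 < e' κ) ∧ (∀ κ, IsUnit ((e' κ : ℕ) : ↥(AK A K))) ∧
    (∀ κ, IsUnit (PowerSeries.constantCoeff (u κ))) ∧
    (∀ κ, TK (E (γ κ)) t⁻¹ =
      HahnSeries.C (((0 : ↥(AK A K)) : ↥(AK A K)) : K) +
        toLS ↥(AK A K) ↥K (u κ * PowerSeries.X ^ e' κ)) ∧
    (∀ κ, (TK (E (γ κ))
      (t⁻¹ - algebraMap K (FKG L.F₀ K) (((0 : ↥(AK A K)) : ↥(AK A K)) : K))).order = e' κ) ∧
    (∑ κ, e' κ = N) ∧
    (∀ w : Place K (FKG L.F₀ K),
      0 < w.ord (t⁻¹ - algebraMap K (FKG L.F₀ K) (((0 : ↥(AK A K)) : ↥(AK A K)) : K)) →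
      ∃ κ, ∀ z : FKG L.F₀ K, z ≠ 0 → 0 ≤ (TK (E (γ κ)) z).order → z ∈ w.toValuationSubring)

section Family

variable {E A}
variable (hA : ∀ (γ : SL(2, ℤ)) (g : L.gensQ) (n : ℤ), ((E γ).Tc (genc L Qbar g)).coeff n ∈ A)

include hA in
/-- the family over a finite cusp value, in the wrapper form. -/
theorem hasCuspFamily_some [IsPrincipalIdealRing ↥(AK A K)] {cv : SL(2, ℤ) → Option Kbar}
    {N : ℕ} (t : FKG L.F₀ K) (c : ↥(AK A K))
    (h : PackSome E A cv N t (algebraMap K Qbar (c : K))) :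
    HasCuspFamily (AK A K) (FKG L.F₀ K) t c N := by
  obtain ⟨c', hc', C, hfin, hdec, γ, e', u, -, he, heA, hu, hshape, -, hsum, hpl⟩ := h
  have hcc : c' = c := Subtype.ext ((algebraMap K Qbar).injective hc')
  subst hcc
  exact ⟨C, hfin, hdec, fun κ => TK (E (γ κ)), e', u, fun κ a => TK_const (E (γ κ)) (a : K),
    fun κ f => TK_mem_psFrac (E (γ κ)) A (hA (γ κ)) f, he, heA, hu, hshape, hpl, hsum⟩

include hA in
/-- the family over the poles of `t`, for the coordinate `t⁻¹` and the value `0`. -/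
theorem hasCuspFamily_none [IsPrincipalIdealRing ↥(AK A K)] {cv : SL(2, ℤ) → Option Kbar}
    {N : ℕ} (t : FKG L.F₀ K) (h : PackNone E A cv N t) :
    HasCuspFamily (AK A K) (FKG L.F₀ K) t⁻¹ 0 N := by
  obtain ⟨C, hfin, hdec, γ, e', u, -, he, heA, hu, hshape, -, hsum, hpl⟩ := h
  exact ⟨C, hfin, hdec, fun κ => TK (E (γ κ)), e', u, fun κ a => TK_const (E (γ κ)) (a : K),
    fun κ f => TK_mem_psFrac (E (γ κ)) A (hA (γ κ)) f, he, heA, hu, hshape, hpl, hsum⟩

end Family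

/-! ### the `EventuallyT` statements -/

section Eventually

variable {n e : ℕ} [NeZero n] {A}

/-- **`hfamS` of `TopAsm77.modelStep_of_level`** from the packaged families over all large number
fields. -/
theorem hfamS_of_pack (L : LevelData) [FiniteDimensional Kbar⟮jFL L⟯ (FFL L)]
    (h : TMem n e L) (hJ : JTarget n e) {ℓ : ℕ} [Fact ℓ.Prime] (hAℓ : A.LiesOverPrime ℓ)
    (cv : SL(2, ℤ) → Option Kbar)
    (hpack : ∃ K₀ : IntermediateField ℚ Qbar, FiniteDimensional ℚ K₀ ∧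
      ∀ K : IntermediateField ℚ Qbar, FiniteDimensional ℚ K → K₀ ≤ K →
        IsPrincipalIdealRing ↥(AK A K) →
        ∃ E : SL(2, ℤ) → CuspExpK L K,
          (∀ (γ : SL(2, ℤ)) (g : L.gensQ) (m : ℤ), ((E γ).Tc (genc L Qbar g)).coeff m ∈ A) ∧
          ∀ t : FKG L.F₀ K, baseChangeHomG L.F₀ K t = tF L h →
            ∀ (γ₀ : SL(2, ℤ)) (cbar : Qbar), cv γ₀ = some cbar →
              PackSome E A cv (Module.finrank Kbar⟮tF L h⟯ (FFL L)) t cbar) :
    EventuallyT L.F₀ n e A fun K ϖ t =>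
      ∀ c ∈ cuspSet A K cv,
        HasCuspFamily (AK A K) (FK L.F₀ K) t c (Module.finrank ↥(↥K)⟮t⟯ ↥(FK L.F₀ K)) := by
  have hℓ : ℓ.Prime := Fact.out
  obtain ⟨K₂, hK₂, hJ⟩ := hJ
  obtain ⟨K₃, hK₃, hpack⟩ := hpack
  refine ⟨K₂ ⊔ K₃, inferInstance, fun K hKfd hle ϖ hϖ t htq c hc => ?_⟩
  have hle2 : K₂ ≤ K := le_trans le_sup_left hle
  have hle3 : K₃ ≤ K := le_trans le_sup_right hle
  have hdvr : IsDiscreteValuationRing ↥(AK A K) := isDiscreteValuationRing_AK A K hℓ.ne_zero hAℓ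
  have hpir : IsPrincipalIdealRing ↥(AK A K) := inferInstance
  obtain ⟨E, hA, hP⟩ := hpack K hKfd hle3 hpir
  have hfin : relfinrank (↥K)⟮jqModC K⟯ (FKG L.F₀ K) ≠ 0 :=
    RankConcrete16.relfinrank_jK_ne_zero L K
  have hembt : baseChangeHomG L.F₀ K t = tF L h := RankConcrete16.baseChangeHomG_eq_tF L K h t htq
  obtain ⟨γ₀, hγ₀⟩ := hc
  have hfam := hasCuspFamily_some hA t c (hP t hembt γ₀ _ hγ₀)
  rw [← RankConcrete16.finrank_adjoin_tF L K hfin h t htq (hJ K hKfd hle2)] at hfam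
  exact hfam

/-- **`hfamN` of `TopAsm77.modelStep_of_level`** from the packaged families over all large number
fields. -/
theorem hfamN_of_pack (L : LevelData) [FiniteDimensional Kbar⟮jFL L⟯ (FFL L)]
    (h : TMem n e L) (hJ : JTarget n e) {ℓ : ℕ} [Fact ℓ.Prime] (hAℓ : A.LiesOverPrime ℓ)
    (cv : SL(2, ℤ) → Option Kbar)
    (hpack : ∃ K₀ : IntermediateField ℚ Qbar, FiniteDimensional ℚ K₀ ∧
      ∀ K : IntermediateField ℚ Qbar, FiniteDimensional ℚ K → K₀ ≤ K →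
        IsPrincipalIdealRing ↥(AK A K) →
        ∃ E : SL(2, ℤ) → CuspExpK L K,
          (∀ (γ : SL(2, ℤ)) (g : L.gensQ) (m : ℤ), ((E γ).Tc (genc L Qbar g)).coeff m ∈ A) ∧
          ∀ t : FKG L.F₀ K, baseChangeHomG L.F₀ K t = tF L h →
            PackNone E A cv (Module.finrank Kbar⟮tF L h⟯ (FFL L)) t) :
    EventuallyT L.F₀ n e A fun K ϖ t =>
      HasCuspFamily (AK A K) (FK L.F₀ K) t⁻¹ 0 (Module.finrank ↥(↥K)⟮t⁻¹⟯ ↥(FK L.F₀ K)) := by
  have hℓ : ℓ.Prime := Fact.out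
  obtain ⟨K₂, hK₂, hJ⟩ := hJ
  obtain ⟨K₃, hK₃, hpack⟩ := hpack
  refine ⟨K₂ ⊔ K₃, inferInstance, fun K hKfd hle ϖ hϖ t htq => ?_⟩
  have hle2 : K₂ ≤ K := le_trans le_sup_left hle
  have hle3 : K₃ ≤ K := le_trans le_sup_right hle
  have hdvr : IsDiscreteValuationRing ↥(AK A K) := isDiscreteValuationRing_AK A K hℓ.ne_zero hAℓ
  have hpir : IsPrincipalIdealRing ↥(AK A K) := inferInstance
  obtain ⟨E, hA, hP⟩ := hpack K hKfd hle3 hpir
  have hfin : relfinrank (↥K)⟮jqModC K⟯ (FKG L.F₀ K) ≠ 0 :=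
    RankConcrete16.relfinrank_jK_ne_zero L K
  have hembt : baseChangeHomG L.F₀ K t = tF L h := RankConcrete16.baseChangeHomG_eq_tF L K h t htq
  have hfam := hasCuspFamily_none hA t (hP t hembt)
  rw [← RankConcrete16.finrank_adjoin_inv_tF L K hfin h t htq (hJ K hKfd hle2)] at hfam
  exact hfam

end Eventually

end Fermat.Agent.DS.G.RED.CUSP.Hfam27
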