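/-
DS programme (S48), chapter G-RED, CUSP twins (bricks row 385; helper80).

LEVEL-FREE descent of `Frac (O((q)))`-membership along the compression `s ↦ q^r`:

* `sec r i y`          : the `i`-th section of a Laurent series (`coeff k (sec r i y) = coeff (r k + i) y`);
* `sum_single_mul_qExpand_sec` : `y = ∑_{i<r} q^i · (sec r i y)(q^r)`;
* `eq_zero_of_sum_single_mul_qExpand` : `1, q, …, q^{r-1}` are independent over `R((q^r))`;
* `mem_fracField_of_qExpand_mem` : `x(q^r) ∈ Frac (O((q)))  ⟹  x ∈ Frac (O((s)))`;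
* `fracField_le_psFrac`  : `GaussGen8.fracField O ≤ IntClosedPS16.psFrac O K`;
* `mem_psFrac_of_qExpand_mem_fracField` : the composite, in the shape needed for the field
  `hfrac` of `CuspIface23.HasCuspFamily` from helper27's `GabCuspFrac27.T_mem_fracField`
  (uncompressed cusp expansions lie in `fracField O`).
-/
import Fermat.Agent.RED.CUSP.CuspEmbK16
import Fermat.Agent.RED.PUR.GaussGen8

set_option autoImplicit false
set_option linter.unusedSectionVars false

noncomputable section

namespace Fermat.Agent.DS.G.RED.CUSP.PsFracDescent80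

open ModularCurve HahnSeries
open Fermat.Agent.RED.PUR.GaussGen8 Fermat.Agent.RED.CUSP.IntClosedPS16

/-! ### Sections of a Laurent series modulo `r` -/

section Sec

variable {R : Type*} [CommRing R] (r : ℕ) [NeZero r]

theorem r_pos' : (0 : ℤ) < (r : ℤ) := by exact_mod_cast Nat.pos_of_ne_zero (NeZero.ne r)

/-- The `i`-th section: `coeff k (sec r i y) = coeff (r k + i) y`. -/
def sec (i : ℕ) (y : LaurentSeries R) : LaurentSeries R :=
  HahnSeries.ofSuppBddBelow (fun k : ℤ => y.coeff ((r : ℤ) * k + i)) (by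
    refine ⟨min 0 (y.order - i), fun k hk => ?_⟩
    by_contra hlt
    rw [not_le] at hlt
    apply hk
    apply HahnSeries.coeff_eq_zero_of_lt_order
    have h1 : k < 0 := lt_of_lt_of_le hlt (min_le_left _ _)
    have h2 : k < y.order - i := lt_of_lt_of_le hlt (min_le_right _ _)
    have h3 : (r : ℤ) * k ≤ k := by
      have : (1 : ℤ) ≤ r := r_pos' r
      nlinarith
    omega)

@[simp] theorem sec_coeff (i : ℕ) (y : LaurentSeries R) (k : ℤ) :
    (sec r i y).coeff k = y.coeff ((r : ℤ) * k + i) := rfl

/-- The coefficients of `∑_{i<r} q^i z_i(q^r)`. -/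
theorem coeff_sum_single_mul_qExpand (z : ℕ → LaurentSeries R) (k : ℤ) {j : ℕ} (hj : j < r) :
    (∑ i ∈ Finset.range r,
      HahnSeries.single (i : ℤ) (1 : R) * qExpand R r (z i)).coeff ((r : ℤ) * k + j)
      = (z j).coeff k := by
  rw [HahnSeries.coeff_sum, Finset.sum_eq_single j]
  · rw [HahnSeries.coeff_single_mul, one_mul, add_sub_cancel_right, qExpand_coeff_mul]
  · intro i hi hij
    rw [HahnSeries.coeff_single_mul, one_mul]
    apply qExpand_coeff_of_not_dvd
    intro hd
    have hi' : i < r := Finset.mem_range.mp hi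
    have h1 : (r : ℤ) ∣ (j : ℤ) - i := by
      have h2 : (r : ℤ) ∣ (r : ℤ) * k := Dvd.intro k rfl
      have h3 : (r : ℤ) * k + j - i = (r : ℤ) * k + ((j : ℤ) - i) := by ring
      rw [h3] at hd
      exact (Int.dvd_add_right h2).mp hd
    have h4 : (j : ℤ) - i = 0 := by
      apply Int.eq_zero_of_abs_lt_dvd h1
      rw [abs_lt]
      constructor <;> omega
    apply hij
    omega
  · intro hj'
    exact absurd (Finset.mem_range.mpr hj) hj'

/-- `y = ∑_{i<r} q^i · (sec r i y)(q^r)`. -/
theorem sum_single_mul_qExpand_sec (y : LaurentSeries R) :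
    ∑ i ∈ Finset.range r,
      HahnSeries.single (i : ℤ) (1 : R) * qExpand R r (sec r i y) = y := by
  ext n
  have hr := r_pos' r
  have h1 : n = (r : ℤ) * (n / r) + ((n % r).toNat : ℤ) := by
    rw [Int.toNat_of_nonneg (Int.emod_nonneg n hr.ne')]
    exact (Int.mul_ediv_add_emod n r).symm
  have h2 : (n % r).toNat < r := by
    have := Int.emod_lt_of_pos n hr
    have h0 := Int.emod_nonneg n hr.ne'
    omega
  conv_lhs => rw [h1]
  rw [coeff_sum_single_mul_qExpand r (fun i => sec r i y) (n / r) h2, sec_coeff, ← h1]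

/-- `1, q, …, q^{r-1}` are linearly independent over `R((q^r))`. -/
theorem eq_zero_of_sum_single_mul_qExpand (z : ℕ → LaurentSeries R)
    (h : ∑ i ∈ Finset.range r,
      HahnSeries.single (i : ℤ) (1 : R) * qExpand R r (z i) = 0) {j : ℕ} (hj : j < r) :
    z j = 0 := by
  ext k
  rw [← coeff_sum_single_mul_qExpand r z k hj, h]
  rfl

theorem sec_coeffMap {S : Type*} [CommRing S] (f : R →+* S) (i : ℕ) (y : LaurentSeries R) :
    sec r i (coeffMap f y) = coeffMap f (sec r i y) := by
  ext k
  rw [sec_coeff, coeffMap_coeff, coeffMap_coeff, sec_coeff]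

/-- A nonzero series has a nonzero section. -/
theorem exists_sec_ne_zero {y : LaurentSeries R} (hy : y ≠ 0) : ∃ i, i < r ∧ sec r i y ≠ 0 := by
  by_contra hcon
  push_neg at hcon
  apply hy
  rw [← sum_single_mul_qExpand_sec r y]
  apply Finset.sum_eq_zero
  intro i hi
  rw [hcon i (Finset.mem_range.mp hi), map_zero, mul_zero]

/-- Sections of a product with a series in `q^r`. -/
theorem sec_qExpand_mul (x y : LaurentSeries R) {j : ℕ} (hj : j < r) :
    sec r j (qExpand R r x * y) = x * sec r j y := by
  have h1 : ∑ i ∈ Finset.range r, HahnSeries.single (i : ℤ) (1 : R) *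
      qExpand R r (sec r i (qExpand R r x * y) - x * sec r i y) = 0 := by
    have h2 : ∀ i : ℕ, HahnSeries.single (i : ℤ) (1 : R) *
        qExpand R r (sec r i (qExpand R r x * y) - x * sec r i y) =
        HahnSeries.single (i : ℤ) (1 : R) * qExpand R r (sec r i (qExpand R r x * y)) -
          qExpand R r x * (HahnSeries.single (i : ℤ) (1 : R) * qExpand R r (sec r i y)) := by
      intro i
      rw [map_sub, map_mul]
      ring
    rw [Finset.sum_congr rfl (fun i _ => h2 i), Finset.sum_sub_distrib, ← Finset.mul_sum,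
      sum_single_mul_qExpand_sec, sum_single_mul_qExpand_sec, sub_self]
  have := eq_zero_of_sum_single_mul_qExpand r
    (fun i => sec r i (qExpand R r x * y) - x * sec r i y) h1 hj
  exact sub_eq_zero.mp this

end Sec

/-! ### Descent of `fracField` along `qExpand` and comparison with `psFrac` -/

section Frac

variable {K : Type*} [Field K] (O : ValuationSubring K)

/-- `x(q^r) ∈ Frac (O((q)))  ⟹  x ∈ Frac (O((s)))`. -/
theorem mem_fracField_of_qExpand_mem (r : ℕ) [NeZero r] {x : LaurentSeries K}
    (h : qExpand K r x ∈ fracField O) : x ∈ fracField O := by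
  obtain ⟨a, b, hb, hab⟩ := h
  obtain ⟨i, hi, hbi⟩ := exists_sec_ne_zero r hb
  refine ⟨sec r i a, sec r i b, hbi, ?_⟩
  have h1 := sec_qExpand_mul r x (embK O b) hi
  rw [hab] at h1
  show x * coeffMap O.subtype (sec r i b) = coeffMap O.subtype (sec r i a)
  rw [← sec_coeffMap, ← sec_coeffMap]
  exact h1.symm

variable [IsPrincipalIdealRing ↥O]

/-- `embK a ∈ Frac (O⟦X⟧)` for every `a ∈ O((X))`. -/
theorem embK_mem_psFrac (a : LaurentSeries ↥O) : embK O a ∈ psFrac ↥O K := by
  apply Fermat.Agent.RED.CUSP.CuspEmbK16.mem_psFrac_of_coeff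
  intro n
  exact ⟨a.coeff n, rfl⟩

/-- `Frac (O((X))) ≤ Frac (O⟦X⟧)` inside `K((X))`. -/
theorem fracField_le_psFrac {f : LaurentSeries K} (hf : f ∈ fracField O) : f ∈ psFrac ↥O K := by
  obtain ⟨a, b, hb, hab⟩ := hf
  have hb' : embK O b ≠ 0 := by
    intro h0
    apply hb
    ext n
    have := congrArg (fun y : LaurentSeries K => y.coeff n) h0
    simp only [embK_coeff, HahnSeries.coeff_zero] at this
    simpa using this
  have h1 : f = embK O a / embK O b := by rw [eq_div_iff hb', hab]
  rw [h1]
  exact div_mem (embK_mem_psFrac O a) (embK_mem_psFrac O b)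

/-- **The composite**: if the uncompressed expansion `x(q^r)` lies in `Frac (O((q)))` then the
compressed one lies in `Frac (O⟦s⟧)`. -/
theorem mem_psFrac_of_qExpand_mem_fracField (r : ℕ) [NeZero r] {x : LaurentSeries K}
    (h : qExpand K r x ∈ fracField O) : x ∈ psFrac ↥O K :=
  fracField_le_psFrac O (mem_fracField_of_qExpand_mem O r h)

end Frac

end Fermat.Agent.DS.G.RED.CUSP.PsFracDescent80
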